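import Fermat.Agent.ModLift.Patch.PlaneInterface
import Fermat.Agent.Lowering.P6.Relations

/-!
# Unipotent inertia and Frobenius in a domain

Over a domain a Frobenius normalising non-trivial unipotent inertia through the `q`th power has
trace `± (q + 1)` and acts by the sign on the fixed line.
-/

set_option autoImplicit false

noncomputable section

namespace FLTAgent.ModLift.Final

open FLTAgent.Lowering

local notation "M2" => Matrix (Fin 2) (Fin 2)

variable {A : Type*} [CommRing A]

theorem sub_one_sq {S : M2 A} (htr : S.trace = 2) (hdet : S.det = 1) :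
    (S - 1) * (S - 1) = 0 := by
  rw [Matrix.trace_fin_two] at htr
  rw [Matrix.det_fin_two] at hdet
  ext i j
  fin_cases i <;> fin_cases j <;> simp [Matrix.mul_apply, Fin.sum_univ_two]
  · linear_combination S 0 0 * htr - hdet
  · linear_combination S 0 1 * htr
  · linear_combination S 1 0 * htr
  · linear_combination S 1 1 * htr - hdet

theorem pow_unipotent {S : M2 A} (h : (S - 1) * (S - 1) = 0) (k : ℕ) :
    S ^ k = 1 + (k : A) • (S - 1) := by
  set N := S - 1 with hN
  induction k with
  | zero => simp
  | succ k ih =>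
    rw [pow_succ, ih, show S = 1 + N by rw [hN]; abel, mul_add, mul_one, add_mul, one_mul,
      smul_mul_assoc, h, smul_zero, Nat.cast_succ, add_smul, one_smul, add_zero]
    abel

theorem frob_conj {Φ S : M2 A} {q : ℕ} (htr : S.trace = 2) (hdet : S.det = 1)
    (hrel : Φ * S = S ^ q * Φ) : Φ * (S - 1) = (q : A) • ((S - 1) * Φ) := by
  rw [pow_unipotent (sub_one_sq htr hdet), add_mul, one_mul, smul_mul_assoc] at hrel
  rw [mul_sub, mul_one, hrel, add_sub_cancel_left]

variable [IsDomain A]

/-- The three possibilities. -/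
theorem split_domain {Φ S : M2 A} {q : ℕ} {ε : A} (hε : ε ^ 2 = 1) (hq : (q : A) ≠ 0)
    (htr : S.trace = 2) (hdet : S.det = 1) (hdΦ : Φ.det = (q : A))
    (hrel : Φ * S = S ^ q * Φ) :
    S = 1 ∨ (Φ.trace = ε * ((q : A) + 1) ∧ (Φ - (ε * (q : A)) • 1) * (S - 1) = 0 ∧
        (S - 1) * (Φ - ε • 1) = 0) ∨
      (Φ.trace = -(ε * ((q : A) + 1)) ∧ (S - 1) * (Φ + ε • 1) = 0) := by
  by_cases hS : S = 1
  · exact Or.inl hS
  refine Or.inr ?_
  have hc := frob_conj htr hdet hrel
  have hsq := sub_one_sq htr hdet
  set N := S - 1 with hN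
  have hN11 : N 1 1 = - N 0 0 := by
    rw [Matrix.trace_fin_two] at htr
    simp [hN]; linear_combination htr
  have hN0 : N ≠ 0 := sub_ne_zero.2 hS
  let K := FractionRing A
  let f := algebraMap A K
  have hf : Function.Injective f := IsFractionRing.injective A K
  have e00 := congrArg f (congrFun (congrFun hc 0) 0)
  have e01 := congrArg f (congrFun (congrFun hc 0) 1)
  have e10 := congrArg f (congrFun (congrFun hc 1) 0)
  have e11 := congrArg f (congrFun (congrFun hc 1) 1)
  have hd := congrArg f hdΦ
  have s00 := congrArg f (congrFun (congrFun hsq 0) 0)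
  simp only [Matrix.mul_apply, Fin.sum_univ_two, Matrix.smul_apply, smul_eq_mul, map_add, map_mul,
    Matrix.zero_apply, map_zero, hN11, map_neg, Matrix.det_fin_two, map_sub]
    at e00 e01 e10 e11 hd s00
  have hqK : f (q : A) ≠ 0 := fun h => hq (hf (h.trans (map_zero f).symm))
  set a := f (N 0 0); set b := f (N 0 1); set e := f (N 1 0)
  set φ₀ := f (Φ 0 0); set φ₁ := f (Φ 0 1); set φ₂ := f (Φ 1 0); set φ₃ := f (Φ 1 1)
  set k := f (q : A)
  have hye : ∃ y : K, φ₀ + φ₃ = (k + 1) * y ∧ a * φ₀ + b * φ₂ = y * a ∧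
      a * φ₁ + b * φ₃ = y * b ∧ e * φ₀ - a * φ₂ = y * e ∧ e * φ₁ - a * φ₃ = y * -a := by
    by_cases hb : b = 0
    · have ha : a = 0 := by rw [hb] at s00; simpa using s00
      have he : e ≠ 0 := by
        intro he
        refine hN0 (Matrix.ext fun i j => hf ?_)
        rw [Matrix.zero_apply, map_zero]
        fin_cases i <;> fin_cases j
        · exact ha
        · exact hb
        · exact he
        · show f (N 1 1) = 0
          rw [hN11, map_neg, show f (N 0 0) = 0 from ha, neg_zero]
      have h1 : φ₁ = 0 := by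
        have : φ₁ * e = 0 := by linear_combination e00 + (k * φ₀ - φ₀) * ha + k * φ₂ * hb
        exact (mul_eq_zero.1 this).resolve_right he
      have h3 : φ₃ = k * φ₀ := by
        have : (φ₃ - k * φ₀) * e = 0 := by linear_combination e10 - (φ₂ + k * φ₂) * ha
        exact sub_eq_zero.1 ((mul_eq_zero.1 this).resolve_right he)
      exact ⟨φ₀, by rw [h3]; ring, by rw [ha, hb]; ring, by rw [ha, hb]; ring, by rw [ha]; ring,
        by rw [ha, h1]; ring⟩
    · obtain ⟨y, hy⟩ : ∃ y : K, y * b = a * φ₁ + b * φ₃ := ⟨_, div_mul_cancel₀ _ hb⟩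
      have hz : (a * φ₀ + b * φ₂) * b - (a * φ₁ + b * φ₃) * a = 0 := by
        have : k * ((a * φ₀ + b * φ₂) * b - (a * φ₁ + b * φ₃) * a) = 0 := by
          linear_combination -b * e00 + a * e01 + φ₁ * s00
        exact (mul_eq_zero.1 this).resolve_left hqK
      refine ⟨y, mul_left_cancel₀ hb ?_, mul_left_cancel₀ hb ?_, hy.symm, mul_left_cancel₀ hb ?_,
        mul_left_cancel₀ hb ?_⟩
      · linear_combination e01 - (k + 1) * hy
      · linear_combination hz - a * hy
      · refine mul_left_cancel₀ hb ?_
        linear_combination (b * φ₀ - a * φ₁ - b * φ₃) * s00 - a * hz - b * e * hy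
      · linear_combination φ₁ * s00 + a * hy
  obtain ⟨y, hu, h0, h1, h2, h3⟩ := hye
  have hy2 : y ^ 2 = 1 := by
    have hm : (φ₀ - y) * (φ₃ - y) - φ₁ * φ₂ = 0 := by
      by_cases hb : b = 0
      · have ha : a = 0 := by rw [hb] at s00; simpa using s00
        have he : e ≠ 0 := by
          intro he
          refine hN0 (Matrix.ext fun i j => hf ?_)
          rw [Matrix.zero_apply, map_zero]
          fin_cases i <;> fin_cases j
          · exact ha
          · exact hb
          · exact he
          · show f (N 1 1) = 0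
            rw [hN11, map_neg, show f (N 0 0) = 0 from ha, neg_zero]
        rw [ha] at h2 h3
        have : e * ((φ₀ - y) * (φ₃ - y) - φ₁ * φ₂) = 0 := by
          linear_combination (φ₃ - y) * h2 - φ₂ * h3
        exact (mul_eq_zero.1 this).resolve_left he
      · have : b * ((φ₀ - y) * (φ₃ - y) - φ₁ * φ₂) = 0 := by
          linear_combination (φ₀ - y) * h1 - φ₁ * h0
        exact (mul_eq_zero.1 this).resolve_left hb
    have : k * (y ^ 2 - 1) = 0 := by linear_combination -hm - y * hu + hd
    exact sub_eq_zero.1 ((mul_eq_zero.1 this).resolve_left hqK)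
  have hyε : y = f ε ∨ y = - f ε := by
    have : (y - f ε) * (y + f ε) = 0 := by
      have := congrArg f hε
      simp only [map_pow, map_one] at this
      linear_combination hy2 - this
    rcases mul_eq_zero.1 this with h | h
    · exact Or.inl (sub_eq_zero.1 h)
    · exact Or.inr (eq_neg_of_add_eq_zero_left h)
  rcases hyε with rfl | rfl
  · left
    have hR : N * (Φ - ε • 1) = 0 := by
      ext i j
      apply hf
      fin_cases i <;> fin_cases j <;>
        simp [Matrix.mul_apply, Fin.sum_univ_two, hN11]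
      · linear_combination h0
      · linear_combination h1
      · linear_combination h2
      · linear_combination h3
    refine ⟨hf ?_, ?_, hR⟩
    · simp only [Matrix.trace_fin_two, map_add, map_mul, map_one]
      linear_combination hu
    · rw [sub_mul, hc, smul_mul_assoc, one_mul, mul_comm ε, mul_smul, ← smul_sub,
        show N * Φ - ε • N = N * (Φ - ε • 1) by rw [mul_sub, mul_smul_comm, mul_one], hR,
        smul_zero]
  · right
    refine ⟨hf ?_, ?_⟩
    · simp only [Matrix.trace_fin_two, map_add, map_mul, map_one, map_neg]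
      linear_combination hu
    · ext i j
      apply hf
      fin_cases i <;> fin_cases j <;>
        simp [Matrix.mul_apply, Fin.sum_univ_two, hN11]
      · linear_combination h0
      · linear_combination h1
      · linear_combination h2
      · linear_combination h3

/-- The Steinberg relations in coordinates. -/
theorem coords_steinberg {h : A} (hh : 2 * h = 1) {Φ S : M2 A} {q : ℕ} {ε : A} (hε : ε ^ 2 = 1)
    (hq : (q : A) ≠ 0) (htr : S.trace = 2) (hdet : S.det = 1) (hdΦ : Φ.det = (q : A))
    (hrel : Φ * S = S ^ q * Φ) :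
    S = 1 ∨ Φ.trace = -(ε * ((q : A) + 1)) ∨
      (P5.qf (P6.coords h S) = 0 ∧ P5.qf (P6.coords h Φ) = (ε * h * ((q : A) - 1)) ^ 2 ∧
        ∀ i, (![P6.coords h Φ 1 * P6.coords h S 2 - P6.coords h Φ 2 * P6.coords h S 1,
            2 * (P6.coords h Φ 0 * P6.coords h S 1 - P6.coords h Φ 1 * P6.coords h S 0),
            2 * (P6.coords h Φ 2 * P6.coords h S 0 - P6.coords h Φ 0 * P6.coords h S 2)] :
              Fin 3 → A) i = 2 * (ε * h * ((q : A) - 1)) * P6.coords h S i) := by
  rcases split_domain hε hq htr hdet hdΦ hrel with h' | ⟨hu, hL, hR⟩ | ⟨hu, -⟩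
  · exact Or.inl h'
  · refine Or.inr (Or.inr ⟨?_, ?_, ?_⟩)
    · rw [P6.qf_coords hh, htr, hdet]
      linear_combination (2 * h + 1) * hh
    · rw [P6.qf_coords hh, hu, hdΦ]
      linear_combination (q : A) * (2 * h + 1) * ε ^ 2 * hh + (q : A) * hε
    · have l00 := congrFun (congrFun hL 0) 0
      have l01 := congrFun (congrFun hL 0) 1
      have l10 := congrFun (congrFun hL 1) 0
      have l11 := congrFun (congrFun hL 1) 1
      have r00 := congrFun (congrFun hR 0) 0
      have r01 := congrFun (congrFun hR 0) 1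
      have r10 := congrFun (congrFun hR 1) 0
      have r11 := congrFun (congrFun hR 1) 1
      simp [Matrix.mul_apply, Fin.sum_univ_two] at l00 l01 l10 l11 r00 r01 r10 r11
      rw [Matrix.trace_fin_two] at htr
      intro i
      fin_cases i <;> simp [P6.coords]
      · linear_combination h * (l00 - l11) - h * (r00 - r11) +
          (-(S 1 0 * Φ 0 1 - S 0 1 * Φ 1 0) - h * ε * ((q : A) - 1) * (S 0 0 - S 1 1)) * hh
      · linear_combination l01 - r01 + (Φ 0 0 * S 0 1 - Φ 1 1 * S 0 1 + Φ 0 1 * S 1 1
          - Φ 0 1 * S 0 0) * hh - ε * ((q : A) - 1) * S 0 1 * hh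
      · linear_combination l10 - r10 + (Φ 1 1 * S 1 0 - Φ 0 0 * S 1 0 + Φ 1 0 * S 0 0
          - Φ 1 0 * S 1 1) * hh - ε * ((q : A) - 1) * S 1 0 * hh
  · exact Or.inr (Or.inl hu)

end FLTAgent.ModLift.Final
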