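import Fermat.Agent.ModLift.Lift.Final.Frame

/-!
# The curve over the coefficients at the bad primes
-/

set_option autoImplicit false
set_option linter.unusedSectionVars false

noncomputable section

open IsLocalRing

namespace FLTAgent.ModLift

local notation "GG" => (AlgebraicClosure ℚ ≃ₐ[ℚ] AlgebraicClosure ℚ)
local notation "VS" => ValuationSubring (AlgebraicClosure ℚ)
local notation "M2" => Matrix (Fin 2) (Fin 2)

variable {W : WeierstrassCurve ℤ} {hΔ : W.Δ ≠ 0} {p : ℕ} [Fact p.Prime] {O : Type} [CommRing O]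
  [IsDomain O] [IsDiscreteValuationRing O] [Algebra ℤ_[p] O] [CharZero O]
  [Algebra (ZMod p) (ResidueField O)]

namespace Ctx

variable (c : Ctx W hΔ p O)

/-- Ordinary at a multiplicative `p`, with a sign as the root. -/
theorem rO_ordinary (hd : (p : ℤ) ∣ W.Δ) {V : VS} (hV : V.LiesOverPrime p) :
    ∀ σ ∈ V.inertiaSubgroupIn ℚ, ∀ τ ∈ V.inertiaSubgroupIn ℚ,
      ((c.rO σ : M2 O) - Matrix.det (c.rO σ : M2 O) • 1) * ((c.rO τ : M2 O) - 1) = 0 := by
  obtain ⟨e, -, h⟩ := c.curve.ordinary hd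
  intro σ hσ τ hτ
  have h1 := congrArg (algebraMap ℤ_[p] O).mapMatrix ((h V hV).1 σ hσ τ hτ)
  rw [map_mul, map_sub, map_sub, map_one, map_zero, RingHom.mapMatrix_apply,
    RingHom.mapMatrix_apply, RingHom.mapMatrix_apply, Matrix.smul_one_eq_diagonal,
    Matrix.diagonal_map (map_zero _)] at h1
  simp only [rO_map]
  rw [← RingHom.mapMatrix_apply, ← RingHom.map_det, Matrix.smul_one_eq_diagonal]
  exact h1

/-- At a multiplicative prime inertia is unipotent and non-trivial and the trace of Frobenius is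
a sign times `l + 1`. -/
theorem rO_multiplicative {l : ℕ} (hl : l.Prime) (hlp : l ≠ p) (hd : (l : ℤ) ∣ W.Δ) {V : VS}
    (hV : V.LiesOverPrime l) :
    (∀ σ ∈ V.inertiaSubgroupIn ℚ, Matrix.trace (c.rO σ : M2 O) = 2 ∧
      ((c.rO σ : M2 O) - 1) ^ 2 = 0) ∧
    (∃ σ ∈ V.inertiaSubgroupIn ℚ, (c.rO σ : M2 O) ≠ 1) ∧
    ∀ φ : GG, V.IsFrobeniusAt φ l →
      ∃ e : O, e ^ 2 = 1 ∧ Matrix.trace (c.rO φ : M2 O) = e * ((l : O) + 1) := by
  obtain ⟨e, he, h⟩ := c.curve.multiplicative l hl hlp hd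
  obtain ⟨h1, ⟨σ, hσ, hne⟩, h3⟩ := h V hV
  refine ⟨fun σ hσ => ⟨?_, ?_⟩, ⟨σ, hσ, fun e' => hne (Units.ext ?_)⟩, fun φ hφ =>
    ⟨algebraMap ℤ_[p] O e, by rw [← map_pow, he, map_one], ?_⟩⟩
  · rw [c.trace_rO, (h1 σ hσ).1, map_ofNat]
  · have h2 := congrArg (algebraMap ℤ_[p] O).mapMatrix (h1 σ hσ).2
    rw [map_pow, map_sub, map_one, map_zero, RingHom.mapMatrix_apply] at h2
    rw [rO_map]
    exact h2
  · rw [rO_map] at e'
    refine Matrix.map_injective c.algebraMap_injective (e'.trans ?_)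
    rw [Units.val_one]
    exact (Matrix.map_one _ (map_zero _) (map_one _)).symm
  · rw [c.trace_rO, h3 φ hφ, map_mul, map_add, map_natCast, map_one]

/-- Inertia of the curve away from `p` is unipotent at the primes of the level and trivial
elsewhere. -/
theorem rO_trace_inertia {l : ℕ} (hl : l.Prime) (hlp : l ≠ p) {V : VS} (hV : V.LiesOverPrime l)
    {σ : GG} (hσ : σ ∈ V.inertiaSubgroupIn ℚ) : Matrix.trace (c.rO σ : M2 O) = 2 := by
  by_cases hd : (l : ℤ) ∣ W.Δ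
  · exact ((c.rO_multiplicative hl hlp hd hV).1 σ hσ).1
  · rw [c.rO_good hl hlp hd hV hσ, Units.val_one, Matrix.trace_one, Fintype.card_fin, Nat.cast_ofNat]

end Ctx

end FLTAgent.ModLift
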