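import Fermat.Agent.ModLift.Tangent.LevelInterface

/-!
# Tangent vectors on matrices
-/

set_option autoImplicit false
set_option linter.unusedSectionVars false

noncomputable section

open IsLocalRing

namespace FLTAgent.ModLift.Final

open FLTAgent.TWPrimes

local notation "M2" => Matrix (Fin 2) (Fin 2)

variable {O : Type} [CommRing O] [IsLocalRing O] {R : Type} [CommRing R] [Algebra O R]
  {red : R →ₐ[O] ResidueField O} {d : R → ResidueField O}

theorem d_zero (hd : d ∈ tanSp red) : d 0 = 0 := by
  have := hd.1 0 0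
  rwa [add_zero, left_eq_add] at this

theorem d_sub (hd : d ∈ tanSp red) (x y : R) : d (x - y) = d x - d y := by
  have := hd.1 (x - y) y
  rw [sub_add_cancel] at this
  rw [this, add_sub_cancel_right]

theorem d_one (hd : d ∈ tanSp red) : d 1 = 0 := by
  have := hd.2.2 1
  rwa [map_one] at this

theorem d_one_apply (hd : d ∈ tanSp red) (u w : Fin 2) : d ((1 : M2 R) u w) = 0 := by
  by_cases h : u = w
  · subst h
    rw [Matrix.one_apply_eq, d_one hd]
  · rw [Matrix.one_apply_ne h, d_zero hd]

/-- The product rule when the right factor reduces to zero. -/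
theorem d_mul_apply (hd : d ∈ tanSp red) {A N : M2 R} (hN : ∀ u w, red (N u w) = 0) (u w : Fin 2) :
    d ((A * N) u w) = ∑ v, red (A u v) * d (N v w) := by
  rw [Matrix.mul_apply, Fin.sum_univ_two, Fin.sum_univ_two, hd.1, hd.2.1, hd.2.1, hN, hN, zero_mul,
    zero_mul, add_zero, add_zero]

/-- The product rule when the left factor reduces to zero. -/
theorem d_mul_apply' (hd : d ∈ tanSp red) {A N : M2 R} (hN : ∀ u w, red (N u w) = 0) (u w : Fin 2) :
    d ((N * A) u w) = ∑ v, red (A v w) * d (N u v) := by
  rw [Matrix.mul_apply, Fin.sum_univ_two, Fin.sum_univ_two, hd.1, hd.2.1, hd.2.1, hN, hN, zero_mul,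
    zero_mul, zero_add, zero_add]

/-- A matrix reducing to a scalar whose determinant and traceless part are killed is killed. -/
theorem d_eq_zero_of_coords (hd : d ∈ tanSp red) {h : R} (hh : 2 * h = 1) (h2 : red 2 ≠ 0)
    {M : M2 R} {a : ResidueField O} (ha : a ≠ 0) (hM : M.map red = a • 1)
    (h0 : d ((M 0 0 - M 1 1) * h) = 0) (h1 : d (M 0 1) = 0) (h2' : d (M 1 0) = 0)
    (hdet : d (Matrix.det M) = 0) : ∀ u w, d (M u w) = 0 := by
  have e00 : red (M 0 0) = a := by simpa using congrFun (congrFun hM 0) 0
  have e11 : red (M 1 1) = a := by simpa using congrFun (congrFun hM 1) 1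
  have e01 : red (M 0 1) = 0 := by simpa using congrFun (congrFun hM 0) 1
  have e10 : red (M 1 0) = 0 := by simpa using congrFun (congrFun hM 1) 0
  have hsum : d (M 0 0) + d (M 1 1) = 0 := by
    rw [Matrix.det_fin_two, d_sub hd, hd.2.1, hd.2.1, e00, e11, e01, e10, zero_mul, zero_mul,
      add_zero, sub_zero, ← mul_add] at hdet
    rw [add_comm]
    exact (mul_eq_zero.1 hdet).resolve_left ha
  have hrh : red h ≠ 0 := by
    intro e
    have := congrArg red hh
    rw [map_mul, e, mul_zero, map_one] at this
    exact zero_ne_one this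
  have hdiff : d (M 0 0) - d (M 1 1) = 0 := by
    rw [hd.2.1, map_sub, e00, e11, sub_self, zero_mul, zero_add, d_sub hd] at h0
    exact (mul_eq_zero.1 h0).resolve_left hrh
  have h00 : d (M 0 0) = 0 := by
    have : red 2 * d (M 0 0) = 0 := by
      rw [map_ofNat]
      linear_combination hsum + hdiff
    exact (mul_eq_zero.1 this).resolve_left h2
  intro u w
  fin_cases u <;> fin_cases w
  · exact h00
  · exact h1
  · exact h2'
  · show d (M 1 1) = 0
    linear_combination hsum - h00

end FLTAgent.ModLift.Final
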