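import Fermat.Agent.ModLift.Lift.Final.Algebra

/-!
# Exact relations at the scalar primes

Untwisted modules give the plain and Steinberg relations in coordinates, twisted ones make the
minors and the eigenvalue relation nilpotent.
-/

set_option autoImplicit false

noncomputable section

namespace FLTAgent.ModLift.Final

open FLTAgent.Lowering

local notation "M2" => Matrix (Fin 2) (Fin 2)

variable {A : Type*} [CommRing A]

/-- The bracket of two coordinate vectors. -/
def brkVec (Y X : Fin 3 → A) : Fin 3 → A :=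
  ![Y 1 * X 2 - Y 2 * X 1, 2 * (Y 0 * X 1 - Y 1 * X 0), 2 * (Y 2 * X 0 - Y 0 * X 2)]

theorem map_brkVec {B : Type*} [CommRing B] (f : A →+* B) (Y X : Fin 3 → A) (i : Fin 3) :
    f (brkVec Y X i) = brkVec (fun j => f (Y j)) (fun j => f (X j)) i := by
  fin_cases i <;> simp [brkVec, map_ofNat]

theorem map_qf {B : Type*} [CommRing B] (f : A →+* B) (v : Fin 3 → A) :
    f (P5.qf v) = P5.qf fun j => f (v j) := by
  simp [P5.qf]

/-- The coordinates determine a matrix of determinant one and trace two. -/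
theorem eq_one_of_coords {h : A} (hh : 2 * h = 1) {S : M2 A} (htr : S.trace = 2)
    (h0 : ∀ i, P6.coords h S i = 0) : S = 1 := by
  have a0 := h0 0
  have a1 := h0 1
  have a2 := h0 2
  simp [P6.coords] at a0 a1 a2
  rw [Matrix.trace_fin_two] at htr
  ext i j
  fin_cases i <;> fin_cases j <;> simp [a1, a2]
  · linear_combination a0 + h * htr + (1 - S 0 0) * hh
  · linear_combination -a0 + h * htr + (1 - S 1 1) * hh

/-- The trace of Frobenius is that of the sign on the coordinates of inertia. -/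
theorem trace_mul_coords {h : A} (hh : 2 * h = 1) {t : ℕ}
    (h1t : ∀ x : A, (1 - (t : A)) * x = 0 → x = 0) (h4t : ∀ x : A, 4 * (t : A) * x = 0 → x = 0)
    {Φ S : M2 A} (htr : S.trace = 2) (hdS : S.det = 1) (hdΦ : Φ.det = (t : A))
    (hrel : Φ * S = S ^ t * Φ) {ε : A} (hε : ε ^ 2 = 1)
    (hu : IsUnit (Φ.trace + ε * ((t : A) + 1))) (i : Fin 3) :
    Φ.trace * P6.coords h S i = ε * ((t : A) + 1) * P6.coords h S i := by
  have h0 := P6.plain_eq_zero hh h1t h4t htr hdS hdΦ hrel i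
  rw [P6.qf_coords hh, hdΦ] at h0
  obtain ⟨v, hv⟩ := hu
  have : (v : A) * ((Φ.trace - ε * ((t : A) + 1)) * P6.coords h S i) = 0 := by
    rw [hv]
    linear_combination 4 * h0 - ((2 * h + 1) * (Φ.trace ^ 2 - ((t : A) - 1) ^ 2)) *
      P6.coords h S i * hh - ((t : A) + 1) ^ 2 * P6.coords h S i * hε
  linear_combination (v.isUnit.mul_right_eq_zero).1 this

/-- The bracket with Frobenius scales inertia. -/
theorem brk_eq {h : A} (hh : 2 * h = 1) {t : ℕ}
    (h1t : ∀ x : A, (1 - (t : A)) * x = 0 → x = 0) (h4t : ∀ x : A, 4 * (t : A) * x = 0 → x = 0)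
    (ht : IsUnit ((t : A) + 1))
    {Φ S : M2 A} (htr : S.trace = 2) (hdS : S.det = 1) (hdΦ : Φ.det = (t : A))
    (hrel : Φ * S = S ^ t * Φ) {ε : A} (hε : ε ^ 2 = 1)
    (hu : IsUnit (Φ.trace + ε * ((t : A) + 1))) (i : Fin 3) :
    brkVec (P6.coords h Φ) (P6.coords h S) i =
      2 * (ε * h * ((t : A) - 1)) * P6.coords h S i := by
  have hc := frob_conj htr hdS hrel
  have u0 := trace_mul_coords hh h1t h4t htr hdS hdΦ hrel hε hu 0
  have u1 := trace_mul_coords hh h1t h4t htr hdS hdΦ hrel hε hu 1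
  have u2 := trace_mul_coords hh h1t h4t htr hdS hdΦ hrel hε hu 2
  rw [Matrix.trace_fin_two] at htr u0 u1 u2
  have e00 := congrFun (congrFun hc 0) 0
  have e01 := congrFun (congrFun hc 0) 1
  have e10 := congrFun (congrFun hc 1) 0
  have e11 := congrFun (congrFun hc 1) 1
  simp [Matrix.mul_apply, Fin.sum_univ_two] at e00 e01 e10 e11
  simp [P6.coords] at u0 u1 u2
  apply ht.mul_left_cancel
  set T : A := (t : A)
  fin_cases i <;> simp [brkVec, P6.coords]
  · linear_combination 2 * h * (e00 - e11) + h * (T - 1) * (Φ 0 0 - Φ 1 1) * htr + (T - 1) * u0 +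
      (-(1 + T) * (Φ 0 1 * S 1 0 - Φ 1 0 * S 0 1) - (T - 1) * h * (S 0 0 - S 1 1) * ε * (T + 1)) * hh
  · linear_combination 2 * e01 + (T - 1) * Φ 0 1 * htr + (T - 1) * u1 + ((1 + T) * (Φ 0 0 * S 0 1 - Φ 1 1 * S 0 1
      - Φ 0 1 * S 0 0 + Φ 0 1 * S 1 1) - (T - 1) * S 0 1 * ε * (T + 1)) * hh
  · linear_combination 2 * e10 + (T - 1) * Φ 1 0 * htr + (T - 1) * u2 + ((1 + T) * (Φ 1 1 * S 1 0 - Φ 0 0 * S 1 0
      + Φ 1 0 * S 0 0 - Φ 1 0 * S 1 1) - (T - 1) * S 1 0 * ε * (T + 1)) * hh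

/-- Twisted inertia commutes with Frobenius up to nilpotents, so the minors are nilpotent. -/
theorem minor_pow {O : Type*} [CommRing O] [IsDomain O] [Algebra O A] {h : A} {z z' : O}
    (hzz : z * z' = 1) (hne : z ≠ z') {p t E : ℕ} (hz : z ^ p = 1) (ht1 : 1 ≤ t)
    (hpt : p ∣ t - 1) {Φ S : M2 A} (htr : (S.trace - algebraMap O A (z + z')) ^ E = 0)
    (hdS : S.det = 1) (hrel : Φ * S = S ^ t * Φ) (i j : Fin 3) :
    (P6.coords h Φ i * P6.coords h S j - P6.coords h Φ j * P6.coords h S i) ^ E = 0 := by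
  set e := S.trace - algebraMap O A (z + z')
  set f := Ideal.Quotient.mk (Ideal.span {e})
  have htr' : (S.map f).trace = algebraMap O (A ⧸ Ideal.span {e}) (z + z') := by
    have : f e = 0 := Ideal.Quotient.eq_zero_iff_mem.2 (Ideal.mem_span_singleton_self e)
    rw [map_sub, sub_eq_zero] at this
    exact ((AddMonoidHom.map_trace f.toAddMonoidHom S).symm.trans this).trans rfl
  have hdS' : (S.map f).det = 1 := by
    rw [← RingHom.mapMatrix_apply, ← RingHom.map_det, hdS, map_one]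
  have hpow := P6.pow_eq_one_of_trace hzz hne hz htr' hdS'
  have hrel' : Φ.map f * S.map f = (S.map f) ^ t * Φ.map f := by
    have h9 := congrArg f.mapMatrix hrel
    rw [map_mul, map_mul, map_pow] at h9
    exact h9
  have hcomm : Φ.map f * S.map f = S.map f * Φ.map f := by
    obtain ⟨a, ha⟩ := hpt
    rw [hrel', show t = p * a + 1 by omega, pow_succ, pow_mul, hpow, one_pow, one_mul]
  have hm : f (P6.coords h Φ i * P6.coords h S j - P6.coords h Φ j * P6.coords h S i) = 0 := by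
    rw [map_sub, map_mul, map_mul]
    simp only [P6.map_coords]
    exact P6.minor_eq_zero hcomm i j
  obtain ⟨b, hb⟩ := Ideal.mem_span_singleton.1 (Ideal.Quotient.eq_zero_iff_mem.1 hm)
  rw [hb, mul_pow, htr, zero_mul]

/-- The eigenvalue relation is nilpotent. -/
theorem curve_pow {h c δ : A} (hh : 2 * h = 1) (hδ : δ ^ 2 = h ^ 2 * (c ^ 2 - 4)) {E : ℕ}
    {S : M2 A} (htr : (S.trace - c) ^ E = 0) (hdS : S.det = 1) :
    (P5.qf (P6.coords h S) - δ ^ 2) ^ E = 0 := by
  have : P5.qf (P6.coords h S) - δ ^ 2 = (S.trace - c) * (h ^ 2 * (S.trace + c)) := by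
    rw [P6.qf_coords hh, hdS, hδ]
    linear_combination (2 * h + 1) * hh
  rw [this, mul_pow, htr, zero_mul]

end FLTAgent.ModLift.Final
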