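import Fermat.Agent.ModLift.Lift.Final.Frame
import Fermat.Agent.ModLift.Lift.Final.Identities
import Fermat.Agent.ModLift.Lift.Support

/-!
# The variables and the named elements of the power series ring

Coordinates of tame inertia and Frobenius at the scalar primes, matrices at the primes to be added,
the traces generating the base, the root of Frobenius at `p`, and free generators.
-/

set_option autoImplicit false
set_option linter.unusedSectionVars false

noncomputable section

open IsLocalRing

namespace FLTAgent.ModLift.Final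

open FLTAgent.ModLift.Patch FLTAgent.Lowering

local notation "GG" => (AlgebraicClosure ℚ ≃ₐ[ℚ] AlgebraicClosure ℚ)
local notation "M2" => Matrix (Fin 2) (Fin 2)

variable {W : WeierstrassCurve ℤ} {hΔ : W.Δ ≠ 0} {p : ℕ} [Fact p.Prime] {O : Type} [CommRing O]
  [IsDomain O] [IsDiscreteValuationRing O] [Algebra ℤ_[p] O] [CharZero O]
  [Algebra (ZMod p) (ResidueField O)]

/-- The named variables. -/
inductive NVar (k m ng : ℕ) where
  | x (t : Fin k) (i : Fin 3)
  | u (t : Fin k) (i : Fin 3)
  | frob (j : Fin m) (a b : Fin 2)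
  | iner (j : Fin m) (a b : Fin 2)
  | tr (i : Fin ng)
  | root
  deriving DecidableEq, Fintype

variable {c : Ctx W hΔ p O} {B : Base c}

namespace Frame

variable (F : Frame c B) (r : ℕ)

/-- The type of all variables. -/
abbrev Var : Type := NVar c.S0.T.card c.m F.ng ⊕ Fin r

/-- The number of variables. -/
def nv : ℕ := Fintype.card (F.Var r)

/-- The position of a variable. -/
def pos (v : F.Var r) : Fin (F.nv r) := Fintype.equivFin (F.Var r) v

theorem pos_injective : Function.Injective (F.pos r) := (Fintype.equivFin _).injective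

/-- A named variable. -/
def var (a : NVar c.S0.T.card c.m F.ng) : Ser O (F.nv r) :=
  MvPowerSeries.X (F.pos r (Sum.inl a))

/-- The positions of the inertia coordinates. -/
def ixF (t : Fin c.S0.T.card) (i : Fin 3) : Fin (F.nv r) := F.pos r (Sum.inl (.x t i))

/-- The positions of the shifted Frobenius coordinates. -/
def iuF (t : Fin c.S0.T.card) (i : Fin 3) : Fin (F.nv r) := F.pos r (Sum.inl (.u t i))

/-- The sign times half of `t - 1`. -/
def hT (t : Fin c.S0.T.card) : O := F.εT t * c.half * (((c.tP t : ℕ) : O) - 1)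

/-- The inertia coordinates. -/
def xVec (t : Fin c.S0.T.card) (i : Fin 3) : Ser O (F.nv r) := MvPowerSeries.X (F.ixF r t i)

/-- The Frobenius coordinates. -/
def yVec (t : Fin c.S0.T.card) (i : Fin 3) : Ser O (F.nv r) :=
  Lift.frobVec O (F.ixF r) (F.iuF r) t i

/-- Frobenius at a prime to be added. -/
def frobEl (j : Fin c.m) : M2 (Ser O (F.nv r)) :=
  Matrix.of fun a b => F.var r (.frob j a b) +
    MvPowerSeries.C ((c.rO (F.φ (c.qP j)) : M2 O) a b)

/-- Tame inertia at a prime to be added, minus one. -/
def inerEl (j : Fin c.m) : M2 (Ser O (F.nv r)) := Matrix.of fun a b => F.var r (.iner j a b)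

/-- A trace generating the base. -/
def trEl (i : Fin F.ng) : Ser O (F.nv r) :=
  F.var r (.tr i) + MvPowerSeries.C (Matrix.trace (c.rO (F.gen i) : M2 O))

/-- The root of Frobenius at `p`. -/
def rootEl (j : Fin c.m) : Ser O (F.nv r) := F.var r .root + MvPowerSeries.C (F.ε j)

/-- The element raising the level. -/
def fEl (j : Fin c.m) : Ser O (F.nv r) :=
  if c.q j = p then F.var r .root else F.var r (.frob j 0 0) + F.var r (.frob j 1 1)

/-- The translation to the opposite sign. -/
def shiftEl (j : Fin c.m) : O :=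
  if c.q j = p then 2 * F.ε j else 2 * F.ε j * ((c.q j : O) + 1)

/-- The Hecke element of a step. -/
def heckeEl (j : Fin c.m) : Ser O (F.nv r) :=
  if c.q j = p then F.rootEl r j + MvPowerSeries.C (p : O) * Ring.inverse (F.rootEl r j)
  else Matrix.trace (F.frobEl r j)

/-- The matrix of the composite. -/
def compEl (j : Fin c.m) : M2 (Ser O (F.nv r)) :=
  Matrix.of fun a b => if a = b then (c.q j : Ser O (F.nv r)) + 1 else F.heckeEl r j

/-- The entries of a matrix. -/
def entries {A : Type} [DecidableEq A] (M : M2 A) : Finset A :=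
  Finset.univ.image fun ab : Fin 2 × Fin 2 => M ab.1 ab.2

/-- The Steinberg equations of a step. -/
def stEl (j : Fin c.m) : Finset (Ser O (F.nv r)) := by
  classical
  exact if c.q j = p then {F.fEl r j} else
    insert (F.fEl r j)
      (entries ((F.frobEl r j - (MvPowerSeries.C (F.ε j * (c.q j : O)) : Ser O (F.nv r)) • 1) * F.inerEl r j) ∪
        entries (F.inerEl r j * (F.frobEl r j - (MvPowerSeries.C (F.ε j) : Ser O (F.nv r)) • 1)))

/-- The tame relations of a step, with the unipotence when it is in the level. -/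
def tameRels (j : Fin c.m) (inLevel : Prop) : Set (Ser O (F.nv r)) :=
  {x | (∃ a b, x = (F.frobEl r j * (1 + F.inerEl r j) -
      (1 + F.inerEl r j) ^ c.q j * F.frobEl r j) a b) ∨
    x = Matrix.det (1 + F.inerEl r j) - 1 ∨
    x = Matrix.det (F.frobEl r j) - MvPowerSeries.C (c.q j : O) ∨
    (inLevel ∧ x = Matrix.trace (1 + F.inerEl r j) - 2)}

/-- The exact relations of an untwisted node at a scalar prime. -/
def plainRels (t : Fin c.S0.T.card) : Set (Ser O (F.nv r)) :=
  {x | (∃ l, x = (P5.qf (F.yVec r t) - MvPowerSeries.C (F.hT t ^ 2)) * F.xVec r t l) ∨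
    x = P5.qf (F.xVec r t) ∨
    ∃ l, x = brkVec (F.yVec r t) (F.xVec r t) l - MvPowerSeries.C (2 * F.hT t) * F.xVec r t l}

/-- The nilpotent relations of a twisted node at a scalar prime. -/
def twistRels (t : Fin c.S0.T.card) : Set (Ser O (F.nv r)) :=
  {x | (∃ i j, x = F.yVec r t i * F.xVec r t j - F.yVec r t j * F.xVec r t i) ∨
    x = P5.qf (F.xVec r t) - MvPowerSeries.C (F.δ ^ 2)}

/-- The relations of a node. -/
def nodeRels (v : Fin (c.m + 1) × Bool) : Set (Ser O (F.nv r)) :=
  {x | (∃ j : Fin c.m, c.q j ≠ p ∧ x ∈ F.tameRels r j ((j : ℕ) < v.1)) ∨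
    (v.2 = false ∧ ∃ t, x ∈ F.plainRels r t) ∨ (v.2 = true ∧ ∃ t, x ∈ F.twistRels r t)}

/-- The value of a named variable at the point. -/
def ptVal : NVar c.S0.T.card c.m F.ng → O
  | .x t i => P6.coords c.half (c.rO (F.σ (c.tP t)) : M2 O) i
  | .u t i => P6.coords c.half (c.rO (F.φ (c.tP t)) : M2 O) i +
      P5.shift (P6.coords c.half (c.rO (F.σ (c.tP t)) : M2 O)) i
  | .frob _ _ _ => 0
  | .iner j a b => if c.q j = p then 0 else ((c.rO (F.σ (c.qP j)) : M2 O) - 1) a b
  | .tr _ => 0
  | .root => 0

end Frame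

end FLTAgent.ModLift.Final
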