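import Fermat.Agent.ModLift.Lift.Tower.Interface
import Fermat.Agent.Lowering.P6.Tangent.Flat
import Fermat.Agent.Lowering.P6.Congruences

/-!
# Flat pieces of a pattern

The point of the curve is seen on flat modules at a good `p`; an algebra embedded into the product
of an algebra seen on flat modules and of the point is seen on the products of the pieces.
-/

set_option autoImplicit false
set_option linter.unusedSectionVars false
set_option linter.style.haveILetI false

noncomputable section

open IsLocalRing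

namespace FLTAgent.ModLift.Final

open FLTAgent.FlatLocal (FlatI Dec)

local notation "GG" => (AlgebraicClosure ℚ ≃ₐ[ℚ] AlgebraicClosure ℚ)
local notation "VS" => ValuationSubring (AlgebraicClosure ℚ)
local notation "M2" => Matrix (Fin 2) (Fin 2)

/-- Elements of a submodule divisible in the whole module are divisible in it, up to a shift. -/
theorem exists_shift {R M : Type*} [CommRing R] [IsNoetherianRing R] [AddCommGroup M] [Module R M]
    [Module.Finite R M] (I : Ideal R) (N : Submodule R M) :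
    ∃ s : ℕ, ∀ n : ℕ, I ^ n • ⊤ ⊓ N ≤ I ^ (n - s) • N := by
  obtain ⟨s, hs⟩ := I.exists_pow_inf_eq_pow_smul N
  refine ⟨s, fun n => ?_⟩
  rcases le_or_gt s n with h | h
  · rw [hs n h]
    exact Submodule.smul_mono le_rfl inf_le_right
  · rw [Nat.sub_eq_zero_of_le h.le, pow_zero, Ideal.one_eq_top, Submodule.top_smul]
    exact inf_le_right

variable {p : ℕ} [Fact p.Prime] {O : Type} [CommRing O] [IsDomain O] [IsDiscreteValuationRing O]
  [Algebra ℤ_[p] O] [Module.Finite ℤ_[p] O] [CharZero O]

theorem finite_piece (n : ℕ) : Finite (O ⧸ Ideal.span {(p : O) ^ n}) :=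
  haveI : Module.Finite O O := inferInstance
  Lowering.P6.finite_quotient (O := O) (A := O) (n := n) (Ideal.mem_span_singleton_self _)

/-- The plane modulo a power of `p` is flat when it is so over the `p`-adic integers. -/
theorem flat_curve_piece (V : VS) (r : GG →* GL (Fin 2) ℤ_[p]) (n : ℕ)
    (hflat : FlatI V fun σ : Dec V =>
      (((r (σ : GG) : M2 ℤ_[p]).map (PadicInt.toZModPow (p := p) n)).mulVecLin)) :
    FlatI V fun σ : Dec V => (((r (σ : GG) : M2 ℤ_[p]).map
      ((Ideal.Quotient.mk (Ideal.span {(p : O) ^ n})).comp (algebraMap ℤ_[p] O))).mulVecLin :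
        (Fin 2 → O ⧸ Ideal.span {(p : O) ^ n}) →ₗ[O ⧸ Ideal.span {(p : O) ^ n}] _) := by
  classical
  haveI : NeZero (p ^ n) := ⟨pow_ne_zero _ (Fact.out : p.Prime).ne_zero⟩
  haveI := finite_piece (O := O) (p := p) n
  have hflat' : FlatI V fun σ : Dec V =>
      ((((r (σ : GG) : M2 ℤ_[p]).map (PadicInt.toZModPow (p := p) n)).mulVecLin).toAddMonoidHom :
        AddMonoid.End (Fin 2 → ZMod (p ^ n))) :=
    hflat.congr (AddEquiv.refl _) fun σ _ v => rfl
  haveI : IsDomain ℤ_[p] := inferInstance
  haveI : Module.IsTorsionFree ℤ_[p] O := by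
    refine Module.isTorsionFree_iff_algebraMap_injective.2 ?_
    refine (injective_iff_map_eq_zero _).2 fun x hx => ?_
    by_contra hne
    obtain ⟨u, hu⟩ : ∃ u : ℤ_[p]ˣ, x = (u : ℤ_[p]) * (p : ℤ_[p]) ^ x.valuation :=
      ⟨_, PadicInt.unitCoeff_spec hne⟩
    rw [hu, map_mul, map_pow, map_natCast] at hx
    exact pow_ne_zero _ (Nat.cast_ne_zero.2 (Fact.out : p.Prime).ne_zero)
      ((u.isUnit.map (algebraMap ℤ_[p] O)).mul_right_eq_zero.1 hx)
  haveI : Module.Free ℤ_[p] O := Module.free_of_finite_type_torsion_free'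
  set b := Module.finBasis ℤ_[p] O
  let g : O →+ (Fin (Module.finrank ℤ_[p] O) → ZMod (p ^ n)) :=
    { toFun := fun x i => PadicInt.toZModPow n (b.repr x i)
      map_zero' := by ext i; simp
      map_add' := fun x y => by ext i; simp }
  have hg : ∀ (a : ℤ_[p]) x, g (algebraMap ℤ_[p] O a * x) =
      fun i => PadicInt.toZModPow n a * g x i := fun a x => funext fun i => by
    show PadicInt.toZModPow n (b.repr (algebraMap ℤ_[p] O a * x) i) = _
    rw [← Algebra.smul_def, map_smul, Finsupp.smul_apply, smul_eq_mul, map_mul]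
    rfl
  have hker : ∀ x, g x = 0 ↔ x ∈ Ideal.span {(p : O) ^ n} := fun x => by
    constructor
    · intro h
      rw [← b.sum_repr x]
      refine Submodule.sum_mem _ fun i _ => ?_
      have h1 : b.repr x i ∈ Ideal.span {(p : ℤ_[p]) ^ n} := by
        rw [← PadicInt.ker_toZModPow, RingHom.mem_ker]
        exact congrFun h i
      obtain ⟨z, hz⟩ := Ideal.mem_span_singleton.1 h1
      rw [hz, Algebra.smul_def, map_mul, map_pow, map_natCast, mul_assoc]
      exact Ideal.mul_mem_right _ _ (Ideal.mem_span_singleton_self _)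
    · intro h
      obtain ⟨z, rfl⟩ := Ideal.mem_span_singleton.1 h
      rw [show (p : O) ^ n = algebraMap ℤ_[p] O ((p : ℤ_[p]) ^ n) by simp, hg]
      funext i
      have : PadicInt.toZModPow n ((p : ℤ_[p]) ^ n) = (0 : ZMod (p ^ n)) := by
        rw [map_pow, map_natCast, ← Nat.cast_pow, ZMod.natCast_self]
      rw [this, zero_mul]
      rfl
  let I := Ideal.span {(p : O) ^ n}
  let gq : O ⧸ I →+ (Fin (Module.finrank ℤ_[p] O) → ZMod (p ^ n)) :=
    QuotientAddGroup.lift I.toAddSubgroup g fun x hx => (hker x).2 hx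
  have hgq : ∀ x, gq (Ideal.Quotient.mk I x) = g x := fun x => rfl
  have hinj : Function.Injective gq := (injective_iff_map_eq_zero gq).2 fun y hy => by
    obtain ⟨x, rfl⟩ := Ideal.Quotient.mk_surjective y
    exact Ideal.Quotient.eq_zero_iff_mem.2 ((hker x).1 ((hgq x).symm.trans hy))
  let ι : (Fin 2 → O ⧸ I) →+
      (Fin (Module.finrank ℤ_[p] O) → Fin 2 → ZMod (p ^ n)) :=
    { toFun := fun v i a => gq (v a) i
      map_zero' := by ext i a; simp
      map_add' := fun v w => by ext i a; simp }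
  refine (Lowering.P6.Tangent.flatI_fin hflat' (Module.finrank ℤ_[p] O)).restrict ι ?_ ?_
  · intro v w h
    funext a
    exact hinj (funext fun i => congrFun (congrFun h i) a)
  · intro σ _ v
    funext i a
    choose x hx using fun a => Ideal.Quotient.mk_surjective (v a)
    show gq (((r (σ : GG) : M2 ℤ_[p]).map
      ((Ideal.Quotient.mk I).comp (algebraMap ℤ_[p] O))).mulVec v a) i =
      ((r (σ : GG) : M2 ℤ_[p]).map (PadicInt.toZModPow n)).mulVec (fun a => gq (v a) i) a
    simp only [Matrix.mulVec, dotProduct, Fin.sum_univ_two, Matrix.map_apply, RingHom.comp_apply]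
    rw [← hx 0, ← hx 1, ← map_mul, ← map_mul, ← map_add, hgq, map_add, hg, hg, hgq, hgq]
    rfl

variable [IsAdicComplete (maximalIdeal O) O]

/-- An algebra embedded into an algebra seen on flat pieces times the point is seen on flat
pieces. -/
theorem flat_pieces {R R' : Type} [CommRing R] [Algebra O R] [CommRing R'] [Algebra O R']
    [Module.Finite O R] (π : R' →ₐ[O] R) (hπ : Function.Surjective π) (pt : R' →ₐ[O] O)
    (hinj : ∀ x, π x = 0 → pt x = 0 → x = 0) [Module.Finite O R']
    (ρ : GG →* GL (Fin 2) R') (r : GG →* GL (Fin 2) ℤ_[p])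
    (hr : ∀ σ, (ρ σ : M2 R').map pt = (r σ : M2 ℤ_[p]).map (algebraMap ℤ_[p] O)) (V : VS)
    (hflat : ∀ n : ℕ, FlatI V fun σ : Dec V =>
      (((r (σ : GG) : M2 ℤ_[p]).map (PadicInt.toZModPow (p := p) n)).mulVecLin))
    (h : ∃ s : ℕ, ∀ n : ℕ, ∃ (M : Type) (_ : AddCommGroup M) (_ : Module R M) (_ : Finite M)
      (actM : GG →* Module.End R M),
      (∀ m : M, p ^ n • m = 0) ∧
      (∀ (σ : GG) (m : M), actM σ (actM σ m) + π (Matrix.det (ρ σ : M2 R')) • m =
        π (Matrix.trace (ρ σ : M2 R')) • actM σ m) ∧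
      (∀ t : R, (∀ m : M, t • m = 0) → t ∈ Ideal.span {(p : R) ^ (n - s)}) ∧
      FlatI V fun σ : Dec V => actM (σ : GG)) :
    ∃ s : ℕ, ∀ n : ℕ, ∃ (M : Type) (_ : AddCommGroup M) (_ : Module R' M) (_ : Finite M)
      (actM : GG →* Module.End R' M),
      (∀ m : M, p ^ n • m = 0) ∧
      (∀ (σ : GG) (m : M), actM σ (actM σ m) + Matrix.det (ρ σ : M2 R') • m =
        Matrix.trace (ρ σ : M2 R') • actM σ m) ∧
      (∀ t : R', (∀ m : M, t • m = 0) → t ∈ Ideal.span {(p : R') ^ (n - s)}) ∧
      FlatI V fun σ : Dec V => actM (σ : GG) := by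
  classical
  obtain ⟨s, hs⟩ := h
  let e : R' →ₗ[O] R × O := π.toLinearMap.prod pt.toLinearMap
  have he : Function.Injective e := (injective_iff_map_eq_zero e).2 fun x hx =>
    hinj x (congrArg Prod.fst hx) (congrArg Prod.snd hx)
  obtain ⟨s', hs'⟩ := exists_shift (Ideal.span {(p : O)}) (LinearMap.range e)
  refine ⟨s + s', fun n => ?_⟩
  obtain ⟨M, i1, i2, i3, actM, hkill, hrel, hann, hM⟩ := hs n
  haveI := finite_piece (O := O) (p := p) n
  set I := Ideal.span {(p : O) ^ n}
  letI : Module R' M := Module.compHom M π.toRingHom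
  letI : Module R' (Fin 2 → O ⧸ I) :=
    Module.compHom _ ((Ideal.Quotient.mk I).comp pt.toRingHom)
  let B : GG → M2 (O ⧸ I) := fun σ =>
    (r σ : M2 ℤ_[p]).map ((Ideal.Quotient.mk I).comp (algebraMap ℤ_[p] O))
  have hB1 : B 1 = 1 := by
    show (((r 1 : GL (Fin 2) ℤ_[p]) : M2 ℤ_[p])).map _ = 1
    rw [map_one, Units.val_one]
    exact Matrix.map_one _ (map_zero _) (map_one _)
  have hBmul : ∀ σ τ, B (σ * τ) = B σ * B τ := fun σ τ => by
    show (((r (σ * τ) : GL (Fin 2) ℤ_[p]) : M2 ℤ_[p])).map _ = _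
    rw [map_mul, Units.val_mul]
    exact Matrix.map_mul
  have hsm1 : ∀ (a : R') (m : M), a • m = π a • m := fun a m => rfl
  have hsm2 : ∀ (a : R') (v : Fin 2 → O ⧸ I), a • v = Ideal.Quotient.mk I (pt a) • v :=
    fun a v => rfl
  let act : GG →* Module.End R' (M × (Fin 2 → O ⧸ I)) :=
    { toFun := fun σ =>
        { toFun := fun x => (actM σ x.1, (B σ).mulVec x.2)
          map_add' := fun x y => by simp [Matrix.mulVec_add]
          map_smul' := fun a x => by
            simp only [RingHom.id_apply, Prod.smul_fst, Prod.smul_snd, hsm1, hsm2, map_smul,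
              Matrix.mulVec_smul, Prod.smul_mk] }
      map_one' := LinearMap.ext fun x => Prod.ext (by simp) (by simp [hB1])
      map_mul' := fun σ τ => LinearMap.ext fun x => Prod.ext
        (by show actM (σ * τ) x.1 = actM σ (actM τ x.1); rw [map_mul]; rfl)
        (by
          show (B (σ * τ)).mulVec x.2 = (B σ).mulVec ((B τ).mulVec x.2)
          rw [hBmul, Matrix.mulVec_mulVec]) }
  have hBρ : ∀ σ, B σ = ((ρ σ : M2 R').map pt).map (Ideal.Quotient.mk I) := fun σ => by
    rw [hr, Matrix.map_map]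
    rfl
  refine ⟨M × (Fin 2 → O ⧸ I), inferInstance, inferInstance, inferInstance, act, ?_, ?_, ?_, ?_⟩
  · intro x
    refine Prod.ext (hkill x.1) ?_
    have h0 : ((p ^ n : ℕ) : O ⧸ I) = 0 := by
      rw [← map_natCast (Ideal.Quotient.mk I), Ideal.Quotient.eq_zero_iff_mem, Nat.cast_pow]
      exact Ideal.mem_span_singleton_self _
    show p ^ n • x.2 = 0
    rw [← Nat.cast_smul_eq_nsmul (O ⧸ I), h0, zero_smul]
  · intro σ x
    refine Prod.ext ?_ ?_
    · exact hrel σ x.1
    · show (B σ).mulVec ((B σ).mulVec x.2) + Matrix.det (ρ σ : M2 R') • x.2 =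
        Matrix.trace (ρ σ : M2 R') • (B σ).mulVec x.2
      have hd : Ideal.Quotient.mk I (pt (Matrix.det (ρ σ : M2 R'))) = (B σ).det := by
        rw [hBρ]
        exact (RingHom.map_det ((Ideal.Quotient.mk I).comp pt.toRingHom) _).trans rfl
      have ht : Ideal.Quotient.mk I (pt (Matrix.trace (ρ σ : M2 R'))) = (B σ).trace := by
        rw [hBρ]
        exact AddMonoidHom.map_trace ((Ideal.Quotient.mk I).comp pt.toRingHom).toAddMonoidHom _
      rw [hsm2, hsm2, hd, ht]
      funext i
      fin_cases i <;>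
        simp [Matrix.mulVec, dotProduct, Fin.sum_univ_two, Matrix.det_fin_two,
          Matrix.trace_fin_two] <;> ring
  · intro t ht
    have h1 : π t ∈ Ideal.span {(p : R) ^ (n - s)} :=
      hann _ fun m => congrArg Prod.fst (ht (m, 0))
    have h2 : pt t ∈ I := by
      rw [← Ideal.Quotient.eq_zero_iff_mem]
      have := congrFun (congrArg Prod.snd (ht ((0 : M), Pi.single 0 1))) 0
      simpa [hsm2] using this
    have h3 : e t ∈ (Ideal.span {(p : O)} ^ (n - s)) • (⊤ : Submodule O (R × O)) ⊓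
        LinearMap.range e := by
      refine ⟨?_, LinearMap.mem_range_self _ _⟩
      obtain ⟨a, ha⟩ := Ideal.mem_span_singleton.1 h1
      obtain ⟨c, hc⟩ := Ideal.mem_span_singleton.1 h2
      have he' : e t = (p : O) ^ (n - s) • (a, (p : O) ^ (n - (n - s)) * c) := by
        refine Prod.ext ?_ ?_
        · show π t = (p : O) ^ (n - s) • a
          rw [ha, Algebra.smul_def, map_pow, map_natCast]
        · show pt t = (p : O) ^ (n - s) • ((p : O) ^ (n - (n - s)) * c)
          rw [hc, smul_eq_mul, ← mul_assoc, ← pow_add, Nat.add_sub_of_le (Nat.sub_le _ _)]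
      rw [he']
      exact Submodule.smul_mem_smul
        (Ideal.pow_mem_pow (Ideal.mem_span_singleton_self _) _) Submodule.mem_top
    have h4 : e t ∈ Ideal.span {(p : O) ^ (n - s - s')} • LinearMap.range e :=
      Ideal.span_singleton_pow (p : O) (n - s - s') ▸ hs' _ h3
    rw [Submodule.ideal_span_singleton_smul, Submodule.mem_smul_pointwise_iff_exists] at h4
    obtain ⟨_, ⟨u, rfl⟩, hu⟩ := h4
    refine Ideal.mem_span_singleton.2 ⟨u, he ?_⟩
    have hpu : (p : R') ^ (n - (s + s')) * u = (p : O) ^ (n - s - s') • u := by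
      rw [Algebra.smul_def, map_pow, map_natCast, Nat.sub_add_eq]
    rw [hpu, map_smul]
    exact hu.symm
  · have hB : FlatI V fun σ : Dec V => ((B (σ : GG)).mulVecLin :
        (Fin 2 → O ⧸ I) →ₗ[O ⧸ I] _) := flat_curve_piece (O := O) V r n (hflat n)
    exact FlatLocal.FlatI.prod hM hB (fun σ : Dec V => act (σ : GG))
      fun σ _ x => Prod.ext rfl rfl

end FLTAgent.ModLift.Final
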