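import Fermat.Agent.ModLift.Lift.Tower.Interface
import Fermat.Agent.ModLift.Lift.Local.Interface
import Fermat.Agent.Lowering.P6.Tame
import Fermat.Agent.Frobenius.Exists

/-!
# The fixed choices of the lifting theorem

Places with Frobenius elements and tame generators, the signs, the twisting constant, and finitely
many elements whose traces generate the base algebra joined with the point.
-/

set_option autoImplicit false
set_option linter.unusedSectionVars false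
set_option linter.style.haveILetI false

noncomputable section

open IsLocalRing

namespace FLTAgent.ModLift

open FLTAgent.Lowering.P6 (TameGen targetTameGen)

local notation "LL" => AlgebraicClosure ℚ
local notation "GG" => (AlgebraicClosure ℚ ≃ₐ[ℚ] AlgebraicClosure ℚ)
local notation "VS" => ValuationSubring (AlgebraicClosure ℚ)
local notation "M2" => Matrix (Fin 2) (Fin 2)

variable {W : WeierstrassCurve ℤ} {hΔ : W.Δ ≠ 0} {p : ℕ} [Fact p.Prime] {O : Type} [CommRing O]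
  [IsDomain O] [IsDiscreteValuationRing O] [Algebra ℤ_[p] O] [CharZero O]
  [Algebra (ZMod p) (ResidueField O)]

namespace Ctx

variable (c : Ctx W hΔ p O)
include c

/-- One half. -/
def half : O := (c.two_unit.unit⁻¹ : Oˣ)

theorem two_half : 2 * c.half = 1 := c.two_unit.mul_val_inv

theorem p_ne_two : p ≠ 2 := c.S0.p_ne

theorem two_ne : (2 : ResidueField O) ≠ 0 := fun h => by
  have := c.two_unit.map (residue O)
  rw [map_ofNat, h] at this
  exact not_isUnit_zero this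

theorem p_res : (p : ResidueField O) = 0 := by
  rw [← map_natCast (residue O), residue_eq_zero_iff]
  exact c.p_mem

theorem isUnit_natCast {l : ℕ} (hl : l.Prime) (hlp : l ≠ p) : IsUnit (l : O) := by
  by_contra h
  have h1 : (l : ResidueField O) = 0 := by
    rw [← map_natCast (residue O), residue_eq_zero_iff]
    exact h
  have hcop : IsCoprime (l : ℤ) (p : ℤ) :=
    Nat.isCoprime_iff_coprime.2 ((Nat.coprime_primes hl Fact.out).2 hlp)
  obtain ⟨a, b, hab⟩ := hcop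
  have h2 := congrArg (Int.cast : ℤ → ResidueField O) hab
  push_cast at h2
  rw [h1, c.p_res, mul_zero, mul_zero, add_zero] at h2
  exact zero_ne_one h2

/-! ### The primes of the situation -/

/-- The `i`th scalar prime. -/
def tP (i : Fin c.S0.T.card) : Nat.Primes :=
  ⟨(c.S0.T.equivFin.symm i : ℕ), (c.S0.T_prime _ (c.S0.T.equivFin.symm i).2).1⟩

theorem tP_mem (i : Fin c.S0.T.card) : (c.tP i : ℕ) ∈ c.S0.T := (c.S0.T.equivFin.symm i).2

theorem exists_tP {t : ℕ} (ht : t ∈ c.S0.T) : ∃ i, (c.tP i : ℕ) = t :=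
  ⟨c.S0.T.equivFin ⟨t, ht⟩, by simp [tP]⟩

/-- The prime added at step `j`. -/
def qP (j : Fin c.m) : Nat.Primes := ⟨c.q j, c.q_prime j j.2⟩

@[simp] theorem qP_val (j : Fin c.m) : (c.qP j : ℕ) = c.q j := rfl

theorem T_facts {t : ℕ} (ht : t ∈ c.S0.T) :
    t.Prime ∧ t ≠ p ∧ p ∣ t - 1 ∧ t ∉ c.Y0 ∧ t ≠ c.r ∧ t ∣ c.S0.M0 := by
  obtain ⟨h1, h2, h3⟩ := c.S0.T_prime t ht
  refine ⟨h1, fun e => ?_, h3, (c.T_scalar t ht).1, (c.T_scalar t ht).2.1, h2⟩
  subst e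
  have := h1.two_le
  exact absurd (Nat.le_of_dvd (by omega) h3) (by omega)

theorem T_cast {t : ℕ} (ht : t ∈ c.S0.T) : (t : ResidueField O) = 1 := by
  obtain ⟨h1, -, h3, -⟩ := c.T_facts ht
  obtain ⟨a, ha⟩ := h3
  have := h1.two_le
  rw [show t = p * a + 1 by omega, Nat.cast_add, Nat.cast_mul, c.p_res, zero_mul, zero_add,
    Nat.cast_one]

theorem not_dvd_M0 {j : ℕ} (hj : j < c.m) : ¬ c.q j ∣ c.S0.M0 := fun h => by
  refine (c.q_prime j hj).not_isUnit (c.sqfree (c.q j) ?_)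
  exact mul_dvd_mul h (Finset.dvd_prod_of_mem _ (Finset.mem_range.2 hj))

theorem q_facts {j : ℕ} (hj : j < c.m) : c.q j ∉ c.Y0 ∧ c.q j ∉ c.S0.T ∧ c.q j ≠ c.r := by
  have h := c.not_dvd_M0 hj
  rw [c.level_iff _ (c.q_prime j hj)] at h
  push Not at h
  exact ⟨h.1, h.2.1, h.2.2.1⟩

theorem q_inj {i j : ℕ} (hi : i < c.m) (hj : j < c.m) (e : c.q i = c.q j) : i = j := by
  by_contra hne
  refine (c.q_prime j hj).not_isUnit (c.sqfree (c.q j) (Dvd.dvd.mul_left ?_ _))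
  rw [← Finset.mul_prod_erase _ _ (Finset.mem_range.2 hi), e]
  exact mul_dvd_mul_left _ (Finset.dvd_prod_of_mem _
    (Finset.mem_erase.2 ⟨Ne.symm hne, Finset.mem_range.2 hj⟩))

theorem dvd_lev {l j : ℕ} (hl : l.Prime) (hj : j ≤ c.m) :
    l ∣ c.lev j ↔ l ∣ c.S0.M0 ∨ ∃ i < j, c.q i = l := by
  rw [lev, hl.dvd_mul, hl.prime.dvd_finset_prod_iff]
  refine or_congr Iff.rfl ⟨?_, ?_⟩
  · rintro ⟨i, hi, h⟩
    have hi' := Finset.mem_range.1 hi
    exact ⟨i, hi', ((Nat.prime_dvd_prime_iff_eq hl (c.q_prime i (by omega))).1 h).symm⟩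
  · rintro ⟨i, hi, rfl⟩
    exact ⟨i, Finset.mem_range.2 hi, dvd_rfl⟩

theorem q_dvd_lev_iff {z j : ℕ} (hz : z < c.m) (hj : j ≤ c.m) : c.q z ∣ c.lev j ↔ z < j := by
  rw [c.dvd_lev (c.q_prime z hz) hj, or_iff_right (c.not_dvd_M0 hz)]
  exact ⟨fun ⟨i, hi, e⟩ => c.q_inj (lt_of_lt_of_le hi hj) hz e ▸ hi, fun h => ⟨z, h, rfl⟩⟩

theorem lev_mem_bad {l j : ℕ} (hl : l.Prime) (hj : j ≤ c.m) (h : l ∣ c.lev j) : l ∈ c.S0.bad := by
  refine (c.bad_iff l hl).2 (Or.inr (Or.inr (Or.inr ?_)))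
  rcases (c.dvd_lev hl hj).1 h with h | ⟨i, hi, rfl⟩
  · exact h.mul_right _
  · exact (Finset.dvd_prod_of_mem _ (Finset.mem_range.2 (lt_of_lt_of_le hi hj))).mul_left _

theorem good {l : ℕ} (hl : l.Prime) (h : ¬ l ∣ c.lev c.m) : W.IsGoodPrimeFor l :=
  fun hd => h (c.cover l hl hd)

theorem p_dvd_disc {j : ℕ} (hj : j ≤ c.m) (h : p ∣ c.lev j) : (p : ℤ) ∣ W.Δ := by
  rcases (c.dvd_lev Fact.out hj).1 h with h | ⟨i, hi, e⟩
  · exact (c.at_p h).1
  · exact e ▸ (c.q_spec i (lt_of_lt_of_le hi hj)).1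

theorem qP_mem (j : Fin c.m) : c.qP j ∈ c.S :=
  c.mem_S.2 (c.lev_mem_bad (c.q_prime j j.2) le_rfl ((c.q_dvd_lev_iff j.2 le_rfl).2 j.2))

theorem tP_mem_S (i : Fin c.S0.T.card) : c.tP i ∈ c.S :=
  c.mem_S.2 (c.S0.level_mem _ (c.tP i).2 (c.T_facts (c.tP_mem i)).2.2.2.2.2)

/-! ### The curve over the coefficients -/

theorem rO_map (σ : GG) :
    (c.rO σ : M2 O) = (c.curve.r σ : M2 ℤ_[p]).map (algebraMap ℤ_[p] O) := rfl

theorem rb_eq' (σ : GG) : (c.D.rb σ : M2 (ResidueField O)) = (c.rO σ : M2 O).map (residue O) := by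
  rw [c.rb_eq, rO_map, Matrix.map_map]
  rfl

theorem rO_good {l : ℕ} (hl : l.Prime) (hlp : l ≠ p) (hg : W.IsGoodPrimeFor l) {V : VS}
    (hV : V.LiesOverPrime l) {σ : GG} (hσ : σ ∈ V.inertiaSubgroupIn ℚ) : c.rO σ = 1 := by
  rw [rO, MonoidHom.comp_apply, c.curve.unramified l hl hlp hg V hV σ hσ, map_one]

theorem algebraMap_injective : Function.Injective (algebraMap ℤ_[p] O) := by
  refine (injective_iff_map_eq_zero _).2 fun x hx => ?_
  by_contra hne
  rw [PadicInt.unitCoeff_spec hne, map_mul, map_pow, map_natCast] at hx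
  exact pow_ne_zero _ (Nat.cast_ne_zero.2 (Fact.out : p.Prime).ne_zero)
    (((PadicInt.unitCoeff hne).isUnit.map (algebraMap ℤ_[p] O)).mul_right_eq_zero.1 hx)

theorem trace_rO (σ : GG) : Matrix.trace (c.rO σ : M2 O) =
    algebraMap ℤ_[p] O (Matrix.trace (c.curve.r σ : M2 ℤ_[p])) := by
  rw [rO_map]
  exact (AddMonoidHom.map_trace (algebraMap ℤ_[p] O).toAddMonoidHom _).symm

end Ctx

namespace Final

/-- The choices. -/
structure Frame (c : Ctx W hΔ p O) (B : Base c) where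
  V : Nat.Primes → VS
  φ : Nat.Primes → GG
  frob : ∀ l : Nat.Primes, (V l).LiesOverPrime (l : ℕ) ∧ (V l).IsFrobeniusAt (φ l) (l : ℕ)
  σ : Nat.Primes → GG
  σ_mem : ∀ l, σ l ∈ (V l).inertiaSubgroupIn ℚ
  tame : ∀ l : Nat.Primes, (l : ℕ) ≠ p →
    ∃ T : TameGen p (l : ℕ) (V l), (T.σ : GG) = σ l ∧ (T.φ : GG) = φ l
  /-- The signs of the primes to be added. -/
  ε : ℕ → O
  ε_sq : ∀ j, ε j ^ 2 = 1
  ε_trace : ∀ j : Fin c.m, c.q j ≠ p →
    Matrix.trace (c.rO (φ (c.qP j)) : M2 O) = ε j * ((c.q j : O) + 1)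
  ε_p : ∀ j : Fin c.m, c.q j = p → ∀ τ ∈ (V (c.qP j)).inertiaSubgroupIn ℚ,
    ((c.rO τ : M2 O) - Matrix.det (c.rO τ : M2 O) • 1) *
      ((c.rO (φ (c.qP j)) : M2 O) - ε j • 1) = 0
  /-- The signs of the scalar primes. -/
  εT : Fin c.S0.T.card → O
  εT_sq : ∀ i, εT i ^ 2 = 1
  εT_red : ∀ i, Matrix.trace (c.D.rb (φ (c.tP i)) : M2 (ResidueField O)) =
    residue O (εT i) * (((c.tP i : ℕ) : ResidueField O) + 1)
  δ : O
  δ_mem : δ ∈ maximalIdeal O
  δ_ne : δ ≠ 0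
  twist : ∀ i, ∃ u : (ZMod (c.tP i : ℕ))ˣ,
    (∀ x : LL, x ^ (c.tP i : ℕ) = 1 → σ (c.tP i) x = x ^ (u : ZMod (c.tP i : ℕ)).val) ∧
    ∃ z z' : O, z * z' = 1 ∧ z ≠ z' ∧ z ^ p = 1 ∧
      z + z' = (((c.S0.χ _ (c.tP_mem i) u) ^ ((p + 1) / 2) : Oˣ) : O) +
        (((c.S0.χ _ (c.tP_mem i) u) ^ ((p + 1) / 2))⁻¹ : Oˣ) ∧
      δ ^ 2 = c.half ^ 2 * ((z + z') ^ 2 - 4)
  /-- Generators of the base joined with the point. -/
  ng : ℕ
  gen : Fin ng → GG
  gen_adjoin : ∀ σ : GG,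
    (Matrix.trace (B.R0.ρ σ : M2 B.R0.R), Matrix.trace (c.rO σ : M2 O)) ∈
      Algebra.adjoin O (Set.range fun i =>
        (Matrix.trace (B.R0.ρ (gen i) : M2 B.R0.R), Matrix.trace (c.rO (gen i) : M2 O)))

/-- Finitely many members generate the algebra generated by a family in a Noetherian module. -/
theorem exists_fin_adjoin {A : Type*} [CommRing A] [Algebra O A] [Module.Finite O A] {ι : Type*}
    (f : ι → A) :
    ∃ (n : ℕ) (g : Fin n → ι), ∀ i, f i ∈ Algebra.adjoin O (Set.range fun k => f (g k)) := by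
  classical
  let S : Finset ι → Submodule O A := fun s => (Algebra.adjoin O (f '' s)).toSubmodule
  obtain ⟨_, ⟨s, rfl⟩, hmax⟩ :=
    set_has_maximal_iff_noetherian.2 (inferInstance : IsNoetherian O A) (Set.range S)
      (Set.range_nonempty S)
  refine ⟨s.card, fun k => (s.equivFin.symm k : ι), fun i => ?_⟩
  have hle : S s ≤ S (insert i s) :=
    Subalgebra.toSubmodule.monotone (Algebra.adjoin_mono (Set.image_mono (by simp)))
  have hmem : f i ∈ S s := by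
    rw [eq_of_le_of_not_lt hle (hmax _ ⟨_, rfl⟩)]
    exact Algebra.subset_adjoin ⟨i, by simp, rfl⟩
  refine Algebra.adjoin_mono ?_ hmem
  rintro _ ⟨a, ha, rfl⟩
  exact ⟨s.equivFin ⟨a, ha⟩, by simp⟩

variable [Module.Finite ℤ_[p] O]

/-- The choices exist. -/
theorem exists_frame (hChoice : TargetCharChoice) (c : Ctx W hΔ p O) (B : Base c) :
    Nonempty (Frame c B) := by
  classical
  haveI := B.R0.finite_R
  have hex : ∀ l : Nat.Primes, ∃ (V : VS) (φ : GG),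
      V.LiesOverPrime (l : ℕ) ∧ V.IsFrobeniusAt φ (l : ℕ) := fun l => by
    obtain ⟨V, hV⟩ := Frobenius.exists_liesOverPrime (l : ℕ) l.2
    obtain ⟨φ, hφ⟩ := Frobenius.exists_isFrobeniusAt V (l : ℕ) l.2 hV
    exact ⟨V, φ, hV, hφ⟩
  choose V φ hfrob using hex
  -- the twisting constant
  obtain ⟨δ, hδm, hδne, hgen⟩ : ∃ δ : O, δ ∈ maximalIdeal O ∧ δ ≠ 0 ∧
      ∀ i : Fin c.S0.T.card, ∃ T : TameGen p (c.tP i : ℕ) (V (c.tP i)),
        (T.φ : GG) = φ (c.tP i) ∧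
        ∃ u : (ZMod (c.tP i : ℕ))ˣ,
          (∀ x : LL, x ^ (c.tP i : ℕ) = 1 →
            (T.σ : GG) x = x ^ (u : ZMod (c.tP i : ℕ)).val) ∧
          ∃ z z' : O, z * z' = 1 ∧ z ≠ z' ∧ z ^ p = 1 ∧
            z + z' = (((c.S0.χ _ (c.tP_mem i) u) ^ ((p + 1) / 2) : Oˣ) : O) +
              (((c.S0.χ _ (c.tP_mem i) u) ^ ((p + 1) / 2))⁻¹ : Oˣ) ∧
            δ ^ 2 = c.half ^ 2 * ((z + z') ^ 2 - 4) := by
    rcases c.S0.T.eq_empty_or_nonempty with hT | hT
    · refine ⟨(p : O), c.p_mem, Nat.cast_ne_zero.2 (Fact.out : p.Prime).ne_zero, fun i => ?_⟩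
      have := c.tP_mem i
      rw [hT] at this
      exact absurd this (Finset.notMem_empty _)
    obtain ⟨ζ, hζp, hζ1, hζ⟩ := hChoice p O c.S0 hT fun t ht => (c.T_facts ht).2.1
    have hzp : (ζ : O) ^ p = 1 := by rw [← Units.val_pow_eq_pow_val, hζp, Units.val_one]
    have hne : (ζ : O) ≠ (ζ⁻¹ : Oˣ) := fun e => by
      have e' : ζ ^ 2 = 1 := by
        rw [sq]; nth_rewrite 2 [Units.ext e]; exact mul_inv_cancel ζ
      obtain ⟨a, ha⟩ := (Fact.out : p.Prime).odd_of_ne_two c.p_ne_two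
      rw [ha, pow_succ, pow_mul, e', one_pow, one_mul] at hζp
      exact hζ1 hζp
    refine ⟨c.half * ((ζ : O) - (ζ⁻¹ : Oˣ)), ?_, mul_ne_zero (Units.ne_zero _) (sub_ne_zero.2 hne),
      fun i => ?_⟩
    · haveI : CharP (ResidueField O) p := charP_of_injective_algebraMap
        (algebraMap (ZMod p) (ResidueField O)).injective p
      have h1 : residue O (ζ : O) = 1 := by
        have h2 : (residue O (ζ : O) - 1) ^ p = 0 := by
          rw [sub_pow_char, one_pow, ← map_pow, hzp, map_one, sub_self]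
        exact sub_eq_zero.1 (eq_zero_of_pow_eq_zero h2)
      have h3 : residue O ((ζ⁻¹ : Oˣ) : O) = 1 := by
        have := congrArg (residue O) ζ.mul_inv
        rwa [map_mul, h1, one_mul, map_one] at this
      refine Ideal.mul_mem_left _ _ ?_
      rw [← residue_eq_zero_iff, map_sub, h1, h3, sub_self]
    · obtain ⟨T, u, hT', hu, hχ⟩ := hζ _ (c.tP_mem i) (V (c.tP i)) (hfrob _).1 (φ (c.tP i))
        (hfrob _).2
      refine ⟨T, hT', u, hu, (ζ : O), (ζ⁻¹ : Oˣ), ζ.mul_inv, hne, hzp, by rw [hχ], ?_⟩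
      linear_combination 4 * c.half ^ 2 * ζ.mul_inv - 4 * c.half ^ 2 * ζ.mul_inv -
        4 * c.half ^ 2 * ζ.mul_inv
  -- the tame generators
  have hσ : ∀ l : Nat.Primes, ∃ σ : GG, σ ∈ (V l).inertiaSubgroupIn ℚ ∧
      ((l : ℕ) ≠ p → ∃ T : TameGen p (l : ℕ) (V l), (T.σ : GG) = σ ∧ (T.φ : GG) = φ l) ∧
      ∀ i, c.tP i = l → ∃ u : (ZMod (c.tP i : ℕ))ˣ,
        (∀ x : LL, x ^ (c.tP i : ℕ) = 1 → σ x = x ^ (u : ZMod (c.tP i : ℕ)).val) ∧
        ∃ z z' : O, z * z' = 1 ∧ z ≠ z' ∧ z ^ p = 1 ∧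
          z + z' = (((c.S0.χ _ (c.tP_mem i) u) ^ ((p + 1) / 2) : Oˣ) : O) +
            (((c.S0.χ _ (c.tP_mem i) u) ^ ((p + 1) / 2))⁻¹ : Oˣ) ∧
          δ ^ 2 = c.half ^ 2 * ((z + z') ^ 2 - 4) := by
    intro l
    by_cases hl : ∃ i, c.tP i = l
    · obtain ⟨i, rfl⟩ := hl
      obtain ⟨T, hT, hu⟩ := hgen i
      refine ⟨T.σ, T.σ_mem, fun _ => ⟨T, rfl, hT⟩, fun i' e => ?_⟩
      have : i' = i := c.S0.T.equivFin.symm.injective
        (Subtype.ext (congrArg (fun x : Nat.Primes => (x : ℕ)) e))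
      subst this
      exact hu
    · by_cases hlp : (l : ℕ) = p
      · exact ⟨1, one_mem _, fun h => absurd hlp h, fun i e => absurd ⟨i, e⟩ hl⟩
      · obtain ⟨T, hT⟩ := targetTameGen p (l : ℕ) Fact.out l.2 hlp (V l) (hfrob l).1 (φ l)
          (hfrob l).2
        exact ⟨T.σ, T.σ_mem, fun _ => ⟨T, rfl, hT⟩, fun i e => absurd ⟨i, e⟩ hl⟩
  choose σ hσ1 hσ2 hσ3 using hσ
  -- the signs
  have hε : ∀ j : ℕ, ∃ ε : O, ε ^ 2 = 1 ∧ ∀ hj : j < c.m,
      (c.q j ≠ p → Matrix.trace (c.rO (φ (c.qP ⟨j, hj⟩)) : M2 O) = ε * ((c.q j : O) + 1)) ∧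
      (c.q j = p → ∀ τ ∈ (V (c.qP ⟨j, hj⟩)).inertiaSubgroupIn ℚ,
        ((c.rO τ : M2 O) - Matrix.det (c.rO τ : M2 O) • 1) *
          ((c.rO (φ (c.qP ⟨j, hj⟩)) : M2 O) - ε • 1) = 0) := by
    intro j
    by_cases hj : j < c.m
    · by_cases hp : c.q j = p
      · obtain ⟨e, he, h⟩ := c.curve.ordinary (hp ▸ (c.q_spec j hj).1)
        refine ⟨algebraMap ℤ_[p] O e, by rw [← map_pow, he, map_one], fun _ =>
          ⟨fun h' => absurd hp h', fun _ τ hτ => ?_⟩⟩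
        have hlp : ((c.qP ⟨j, hj⟩ : Nat.Primes) : ℕ) = p := hp
        have hf := hfrob (c.qP ⟨j, hj⟩)
        rw [hlp] at hf
        have h0 := (h _ hf.1).2 _ hf.2 τ hτ
        have h1 := congrArg (algebraMap ℤ_[p] O).mapMatrix h0
        have hs : ∀ (a : ℤ_[p]) (M : M2 ℤ_[p]), (algebraMap ℤ_[p] O).mapMatrix (M - a • 1) =
            M.map (algebraMap ℤ_[p] O) - algebraMap ℤ_[p] O a • 1 := fun a M => by
          rw [map_sub]
          congr 1
          rw [Matrix.smul_one_eq_diagonal, Matrix.smul_one_eq_diagonal, RingHom.mapMatrix_apply,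
            Matrix.diagonal_map (map_zero _)]
        rw [map_mul, map_zero, hs, hs] at h1
        simp only [Ctx.rO_map]
        rw [← RingHom.mapMatrix_apply, ← RingHom.map_det]
        exact h1
      · obtain ⟨e, he, h⟩ := c.curve.multiplicative (c.q j) (c.q_prime j hj) hp (c.q_spec j hj).1
        refine ⟨algebraMap ℤ_[p] O e, by rw [← map_pow, he, map_one], fun _ =>
          ⟨fun _ => ?_, fun h' => absurd h' hp⟩⟩
        rw [c.trace_rO, (h _ (hfrob (c.qP ⟨j, hj⟩)).1).2.2 _ (hfrob (c.qP ⟨j, hj⟩)).2, map_mul,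
          map_add, map_natCast, map_one]
    · exact ⟨1, one_pow _, fun h => absurd h hj⟩
  choose ε hε1 hε2 using hε
  have hεT : ∀ i, ∃ e : O, e ^ 2 = 1 ∧
      Matrix.trace (c.D.rb (φ (c.tP i)) : M2 (ResidueField O)) =
        residue O e * (((c.tP i : ℕ) : ResidueField O) + 1) := by
    intro i
    obtain ⟨a, ha⟩ := (c.T_scalar _ (c.tP_mem i)).2.2 (V (c.tP i)) (hfrob _).1 (φ (c.tP i))
      (hfrob _).2
    have hdet : a ^ 2 = 1 := by
      have h1 : Matrix.det (c.D.rb (φ (c.tP i)) : M2 (ResidueField O)) = a ^ 2 := by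
        rw [ha, Matrix.det_smul, Matrix.det_one, mul_one, Fintype.card_fin]
      obtain ⟨n, hn⟩ := DetCyclo.exists_cycloExponent (p := p) 1 (φ (c.tP i))
      have h2 : DetCyclo.CycloExponent p 1 (φ (c.tP i)) (c.tP i : ℕ) :=
        DetCyclo.cycloExponent_frobenius (c.tP i).2 (c.T_facts (c.tP_mem i)).2.1 (hfrob _).1 (hfrob _).2 1
      have h3 := c.S0.rb_det _ _ h2
      rw [c.S0_rb, c.T_cast (c.tP_mem i)] at h3
      exact h1.symm.trans h3
    rw [c.T_cast (c.tP_mem i)]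
    rcases (sq_eq_one_iff.1 hdet) with rfl | rfl
    · exact ⟨1, one_pow _, by rw [ha]; simp [Matrix.trace_fin_two]; ring⟩
    · exact ⟨-1, by ring, by rw [ha]; simp [Matrix.trace_fin_two]; ring⟩
  choose εT hεT1 hεT2 using hεT
  obtain ⟨ng, gen, hg⟩ := exists_fin_adjoin (O := O) (A := B.R0.R × O)
    fun σ : GG => (Matrix.trace (B.R0.ρ σ : M2 B.R0.R), Matrix.trace (c.rO σ : M2 O))
  exact ⟨{ V := V, φ := φ, frob := hfrob, σ := σ, σ_mem := hσ1, tame := hσ2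
           ε := ε, ε_sq := hε1
           ε_trace := fun j hj => (hε2 j j.2).1 hj
           ε_p := fun j hj => (hε2 j j.2).2 hj
           εT := εT, εT_sq := hεT1, εT_red := hεT2
           δ := δ, δ_mem := hδm, δ_ne := hδne
           twist := fun i => hσ3 _ i rfl
           ng := ng, gen := gen, gen_adjoin := hg }⟩

end Final

end FLTAgent.ModLift
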