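import Fermat.Agent.ModLift.Tangent.LevelInterface
import Fermat.Agent.ModLift.Modules.Ordinary
import Fermat.Agent.TWPrimes.Glue.Generators

/-!
# Quotients of the algebra of a level and their generators
-/

set_option autoImplicit false
set_option linter.unusedSectionVars false

noncomputable section

open IsLocalRing

namespace FLTAgent.ModLift

open FLTAgent.TWPrimes

local notation "GG" => (AlgebraicClosure ℚ ≃ₐ[ℚ] AlgebraicClosure ℚ)
local notation "M2" => Matrix (Fin 2) (Fin 2)

variable {p : ℕ} [Fact p.Prime] {O : Type} [CommRing O] [IsDomain O] [IsDiscreteValuationRing O]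
  [Algebra (ZMod p) (ResidueField O)] {D : Datum p (ResidueField O)} {S : Finset Nat.Primes}

namespace LevelRep

variable (L : LevelRep D S) {K : Ideal L.R}

theorem red_surjective : Function.Surjective L.red := fun y => by
  obtain ⟨a, rfl⟩ := residue_surjective y
  exact ⟨algebraMap O L.R a, Gen.red_algebraMap L.red a⟩

theorem red_ker_le (hK : K ≠ ⊤) : ∀ x ∈ K, L.red x = 0 := fun x hx =>
  (Gen.red_eq_zero_iff L.red x).1 (le_maximalIdeal hK hx)

/-- The representation on a quotient of the algebra of a level. -/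
def quot (hK : K ≠ ⊤) : LevelRep D S :=
  haveI : Nontrivial (L.R ⧸ K) := Ideal.Quotient.nontrivial_iff.2 hK
  haveI : IsLocalRing (L.R ⧸ K) := IsLocalRing.of_surjective' _ Ideal.Quotient.mk_surjective
  { R := L.R ⧸ K
    finite_R := haveI := L.finite_R; inferInstance
    red := Ideal.Quotient.liftₐ K L.red (L.red_ker_le hK)
    ρ := (Matrix.GeneralLinearGroup.map (Ideal.Quotient.mk K)).comp L.ρ
    red_rho := fun σ => by
      rw [← L.red_rho σ]
      ext i j
      rfl
    generated := by
      have h := congrArg (Subalgebra.map (Ideal.Quotient.mkₐ O K)) L.generated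
      rw [AlgHom.map_adjoin, Algebra.map_top,
        (AlgHom.range_eq_top _).2 Ideal.Quotient.mk_surjective, ← Set.range_comp] at h
      refine Eq.trans (congrArg _ (congrArg Set.range (funext fun σ => ?_))) h
      exact (AddMonoidHom.map_trace (Ideal.Quotient.mk K).toAddMonoidHom _).symm
    det_cyclotomic := fun n σ e he => by
      obtain ⟨z, hz⟩ := Ideal.mem_span_singleton.1 (L.det_cyclotomic n σ e he)
      refine Ideal.mem_span_singleton.2 ⟨Ideal.Quotient.mk K z, ?_⟩
      show ((Ideal.Quotient.mk K).mapMatrix (L.ρ σ : M2 L.R)).det - _ = _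
      rw [← RingHom.map_det, ← map_natCast (Ideal.Quotient.mk K) e, ← map_sub, hz, map_mul, map_pow,
        map_natCast]
    continuous := fun n => by
      obtain ⟨E, hE, h⟩ := L.continuous n
      refine ⟨E, hE, fun σ hσ i j => ?_⟩
      obtain ⟨z, hz⟩ := Ideal.mem_span_singleton.1 (h σ hσ i j)
      refine Ideal.mem_span_singleton.2 ⟨Ideal.Quotient.mk K z, ?_⟩
      rw [← map_natCast (Ideal.Quotient.mk K), ← map_pow, ← map_mul, ← hz, map_sub]
      congr 1
      by_cases h' : i = j
      · subst h'; simp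
      · simp [Matrix.one_apply_ne h']
    unramified := fun q hq V hV σ hσ => by
      show (Matrix.GeneralLinearGroup.map (Ideal.Quotient.mk K)) (L.ρ σ) = 1
      rw [L.unramified q hq V hV σ hσ, map_one] }

/-- The projection to a quotient. -/
def toQuot (hK : K ≠ ⊤) : L.R →ₐ[O] (L.quot hK).R := Ideal.Quotient.mkₐ O K

theorem toQuot_surjective (hK : K ≠ ⊤) : Function.Surjective (L.toQuot hK) :=
  Ideal.Quotient.mk_surjective

theorem toQuot_eq_zero (hK : K ≠ ⊤) {x : L.R} : L.toQuot hK x = 0 ↔ x ∈ K :=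
  Ideal.Quotient.eq_zero_iff_mem

theorem rho_quot (hK : K ≠ ⊤) (σ : GG) :
    ((L.quot hK).ρ σ : M2 (L.quot hK).R) = (L.ρ σ : M2 L.R).map (L.toQuot hK) := rfl

theorem red_toQuot (hK : K ≠ ⊤) (x : L.R) : (L.quot hK).red (L.toQuot hK x) = L.red x := rfl

theorem tanSp_comp (hK : K ≠ ⊤) {d : (L.quot hK).R → ResidueField O}
    (hd : d ∈ tanSp (L.quot hK).red) :
    (fun x => d (L.toQuot hK x)) ∈ tanSp L.red ∧ ∀ x ∈ K, d (L.toQuot hK x) = 0 := by
  have h0 : d 0 = 0 := by
    have := hd.1 0 0
    rw [add_zero] at this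
    exact (add_eq_left.1 this.symm)
  exact ⟨⟨fun x y => by beta_reduce; rw [map_add]; exact hd.1 _ _, fun x y => by
    beta_reduce; rw [map_mul]; exact hd.2.1 _ _,
    fun a => by beta_reduce; rw [AlgHom.commutes]; exact hd.2.2 a⟩,
    fun x hx => by rw [(L.toQuot_eq_zero hK).2 hx, h0]⟩

variable [IsAdicComplete (maximalIdeal O) O] [Finite (ResidueField O)] [Algebra ℤ_[p] O]
  [Module.Finite ℤ_[p] O]

theorem isAdicComplete_R (hp : (p : O) ∈ maximalIdeal O) :
    IsAdicComplete (maximalIdeal L.R) L.R := by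
  letI : Algebra ℤ_[p] L.R := ((algebraMap O L.R).comp (algebraMap ℤ_[p] O)).toAlgebra
  haveI : IsScalarTower ℤ_[p] O L.R := IsScalarTower.of_algebraMap_eq fun _ => rfl
  haveI := L.finite_R
  haveI : Module.Finite ℤ_[p] L.R := Module.Finite.trans O L.R
  haveI : IsLocalHom (algebraMap ℤ_[p] L.R) := ⟨fun x hx => by
    by_contra hne
    have hm : x ∈ maximalIdeal ℤ_[p] := hne
    rw [PadicInt.maximalIdeal_eq_span_p, Ideal.mem_span_singleton] at hm
    obtain ⟨z, rfl⟩ := hm
    rw [map_mul, map_natCast] at hx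
    refine (mem_maximalIdeal _).1 ((Gen.red_eq_zero_iff L.red _).2 ?_)
      (isUnit_of_mul_isUnit_left hx)
    rw [map_natCast, ← map_natCast (residue O)]
    exact (residue_eq_zero_iff _).2 hp⟩
  exact IsLocalRing.isAdicComplete_of_module_finite (𝒪 := ℤ_[p])

/-- A bound for the tangent vectors killing an ideal bounds the generators of the quotient. -/
theorem exists_gen (hp : (p : O) ∈ maximalIdeal O) (hK : K ≠ ⊤) {g : ℕ}
    (E : Submodule (ResidueField O) (L.R → ResidueField O))
    (hE : ∀ d ∈ tanSp L.red, (∀ x ∈ K, d x = 0) → d ∈ E)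
    [FiniteDimensional (ResidueField O) ↥E]
    (hg : Module.finrank (ResidueField O) ↥E ≤ g) :
    ∃ γ : MvPowerSeries (Fin g) O →ₐ[O] (L.quot hK).R, Function.Surjective γ := by
  set L' := L.quot hK
  haveI := L'.finite_R
  haveI : IsNoetherianRing L'.R := IsNoetherianRing.of_finite O L'.R
  haveI := L'.isAdicComplete_R hp
  haveI : IsLocalHom (algebraMap O L'.R) := ⟨fun a ha => by
    have h := ha.map L'.red
    rw [Gen.red_algebraMap] at h
    exact (IsLocalHom.map_nonunit (f := residue O)) a h⟩
  have hres : Function.Surjective (residue L'.R ∘ algebraMap O L'.R) := fun y => by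
    obtain ⟨x, rfl⟩ := residue_surjective y
    obtain ⟨a, ha⟩ := Gen.sub_mem_of_red L'.red (Gen.red_eq_zero_iff L'.red) x
    refine ⟨a, ?_⟩
    rw [← residue_eq_zero_iff, map_sub, sub_eq_zero] at ha
    exact ha.symm
  let Φ : ↥(tanSp L'.red) →ₗ[ResidueField O] ↥E :=
    { toFun := fun d => ⟨fun x => (d : L'.R → ResidueField O) (L.toQuot hK x),
        hE _ (L.tanSp_comp hK d.2).1 (L.tanSp_comp hK d.2).2⟩
      map_add' := fun _ _ => rfl
      map_smul' := fun _ _ => rfl }
  have hΦ : Function.Injective Φ := fun d d' h => Subtype.ext (funext fun y => by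
    obtain ⟨x, rfl⟩ := L.toQuot_surjective hK y
    exact congrFun (congrArg Subtype.val h) x)
  haveI : FiniteDimensional (ResidueField O) ↥(tanSp L'.red) := Module.Finite.of_injective Φ hΦ
  exact targetGenerators O L'.R hres L'.red g inferInstance
    ((LinearMap.finrank_le_finrank_of_injective hΦ).trans hg)

end LevelRep

end FLTAgent.ModLift
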