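import Fermat.Agent.ModLift.Patch.Interface
import Fermat.Agent.ModLift.Patch.Evaluation
import Fermat.Agent.Deformation.PowerSeriesComplete
import Fermat.Agent.TWPrimes.Glue.Generators

/-!
# Power series mapping to complete local algebras

Maps agreeing on the variables agree, and generators of a quotient lift to power series.
-/

set_option autoImplicit false
set_option linter.unusedSectionVars false

noncomputable section

open IsLocalRing

namespace FLTAgent.ModLift.Final

open FLTAgent.ModLift.Patch

variable {O : Type} [CommRing O] [IsDomain O] [IsDiscreteValuationRing O]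
  {R : Type} [CommRing R] [IsLocalRing R] [Algebra O R]

theorem X_mem_max {n : ℕ} (v : Fin n) :
    (MvPowerSeries.X v : Ser O n) ∈ maximalIdeal (Ser O n) := by
  rw [mem_maximalIdeal, mem_nonunits_iff, MvPowerSeries.isUnit_iff_constantCoeff,
    MvPowerSeries.constantCoeff_X]
  exact not_isUnit_zero

/-- A map of algebras with residue field that of the constants is local. -/
theorem mem_max_of_red {g : ℕ} (red : R →ₐ[O] ResidueField O) (f : Ser O g →ₐ[O] R)
    (hX : ∀ v, f (MvPowerSeries.X v) ∈ maximalIdeal R) {x : Ser O g}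
    (hx : x ∈ maximalIdeal (Ser O g)) : f x ∈ maximalIdeal R := by
  set c := MvPowerSeries.constantCoeff x with hc
  have hc' : c ∈ maximalIdeal O := by
    rw [mem_maximalIdeal, mem_nonunits_iff, MvPowerSeries.isUnit_iff_constantCoeff] at hx
    exact hx
  have h0 : x - MvPowerSeries.C c ∈ Ideal.span (Set.range (MvPowerSeries.X : Fin g → Ser O g)) :=
    Deformation.mem_span_range_X_of_constantCoeff_eq_zero g _ (by
      rw [map_sub, MvPowerSeries.constantCoeff_C, hc, sub_self])
  have h1 : f (x - MvPowerSeries.C c) ∈ maximalIdeal R :=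
    (Ideal.span_le (I := (maximalIdeal R).comap f.toRingHom)).2
      (by rintro _ ⟨v, rfl⟩; exact hX v) h0
  rw [← sub_add_cancel x (MvPowerSeries.C c), map_add]
  refine add_mem h1 ((TWPrimes.Gen.red_eq_zero_iff red _).2 ?_)
  show red (f (algebraMap O (Ser O g) c)) = 0
  rw [AlgHom.commutes, TWPrimes.Gen.red_algebraMap, residue_eq_zero_iff]
  exact hc'

/-- Maps into a separated algebra agreeing on the variables agree. -/
theorem algHom_ext_X [IsHausdorff (maximalIdeal R) R] {g : ℕ} {f f' : Ser O g →ₐ[O] R}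
    (hX : ∀ v, f (MvPowerSeries.X v) ∈ maximalIdeal R)
    (h : ∀ v, f (MvPowerSeries.X v) = f' (MvPowerSeries.X v)) : f = f' := by
  have key : ∀ N : ℕ, ∀ x : Ser O g, f x - f' x ∈ maximalIdeal R ^ N := by
    intro N
    induction N with
    | zero => exact fun x => by simp
    | succ N ih =>
      intro x
      have h0 : x - MvPowerSeries.C (MvPowerSeries.constantCoeff x) ∈
          Ideal.span (Set.range (MvPowerSeries.X : Fin g → Ser O g)) :=
        Deformation.mem_span_range_X_of_constantCoeff_eq_zero g _ (by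
          rw [map_sub, MvPowerSeries.constantCoeff_C, sub_self])
      obtain ⟨q, hq⟩ := (Ideal.mem_span_range_iff_exists_fun).1 h0
      have hC : f (MvPowerSeries.C (MvPowerSeries.constantCoeff x)) =
          f' (MvPowerSeries.C (MvPowerSeries.constantCoeff x)) :=
        (f.commutes _).trans (f'.commutes _).symm
      have he : f x - f' x = ∑ v, f (MvPowerSeries.X v) * (f (q v) - f' (q v)) := by
        conv_lhs => rw [← sub_add_cancel x (MvPowerSeries.C (MvPowerSeries.constantCoeff x)), ← hq]
        rw [map_add, map_add, map_sum, map_sum, hC, add_sub_add_right_eq_sub,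
          ← Finset.sum_sub_distrib]
        exact Finset.sum_congr rfl fun v _ => by rw [map_mul, map_mul, ← h v]; ring
      rw [he, pow_succ']
      exact Ideal.sum_mem _ fun v _ => Ideal.mul_mem_mul (hX v) (ih (q v))
  refine AlgHom.ext fun x => sub_eq_zero.1 (IsHausdorff.haus (I := maximalIdeal R) inferInstance _
    fun N => ?_)
  rw [SModEq.zero, smul_eq_mul, Ideal.mul_top]
  exact key N x

/-- Generators of a quotient of a complete local quotient of power series lift to power series. -/
theorem exists_gen_lift [IsAdicComplete (maximalIdeal O) O] [IsNoetherianRing R]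
    [IsAdicComplete (maximalIdeal R) R] (red : R →ₐ[O] ResidueField O) {n g : ℕ}
    (γ : Ser O n →ₐ[O] R) (hγ : Function.Surjective γ) {K : Ideal R} (hK : K ≠ ⊤)
    (θ : Ser O g →ₐ[O] R ⧸ K) (hθ : Function.Surjective θ) :
    ∃ G : Ser O g →ₐ[O] Ser O n, ∀ x, ∃ y, γ x - γ (G y) ∈ K := by
  haveI : Nontrivial (R ⧸ K) := Ideal.Quotient.nontrivial_iff.2 hK
  haveI : IsLocalRing (R ⧸ K) :=
    IsLocalRing.of_surjective' _ Ideal.Quotient.mk_surjective
  haveI : IsLocalHom θ.toRingHom := IsLocalHom.of_surjective _ hθ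
  have hmk : ∀ {x : R}, x ∈ maximalIdeal R → Ideal.Quotient.mk K x ∈ maximalIdeal (R ⧸ K) :=
    fun {x} hx => by
      rw [mem_maximalIdeal, mem_nonunits_iff]
      intro hu
      exact (mem_maximalIdeal _).1 hx
        ((IsLocalHom.of_surjective (Ideal.Quotient.mk K) Ideal.Quotient.mk_surjective).map_nonunit _
          hu)
  have hex : ∀ v : Fin g, ∃ a ∈ maximalIdeal (Ser O n),
      Ideal.Quotient.mk K (γ a) = θ (MvPowerSeries.X v) := fun v => by
    obtain ⟨b, hb⟩ := Ideal.Quotient.mk_surjective (θ (MvPowerSeries.X v))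
    obtain ⟨a, ha⟩ := hγ b
    refine ⟨a, fun hu => ?_, by rw [ha, hb]⟩
    have h1 : IsUnit (θ.toRingHom (MvPowerSeries.X v)) := by
      show IsUnit (θ (MvPowerSeries.X v))
      rw [← hb, ← ha]
      exact (hu.map γ).map (Ideal.Quotient.mk K)
    exact (mem_maximalIdeal _).1 (X_mem_max v) (IsLocalHom.map_nonunit _ h1)
  choose a ha ha' using hex
  haveI := Deformation.isAdicComplete_mvPowerSeries (O := O) n
  obtain ⟨G, hG⟩ := exists_evalAlgHom (O := O) a ha
  refine ⟨G, fun x => ?_⟩
  obtain ⟨y, hy⟩ := hθ (Ideal.Quotient.mk K (γ x))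
  refine ⟨y, ?_⟩
  let red' : R ⧸ K →ₐ[O] ResidueField O :=
    Ideal.Quotient.liftₐ K red fun z hz =>
      (TWPrimes.Gen.red_eq_zero_iff red z).1 (le_maximalIdeal hK hz)
  haveI : IsHausdorff (maximalIdeal (R ⧸ K)) (R ⧸ K) :=
    IsHausdorff.of_isLocalRing (I := maximalIdeal (R ⧸ K)) _ (maximalIdeal.isMaximal _).ne_top
  have he : (Ideal.Quotient.mkₐ O K).comp (γ.comp G) = θ := by
    refine algHom_ext_X (fun v => ?_) fun v => ?_
    · show Ideal.Quotient.mk K (γ (G (MvPowerSeries.X v))) ∈ _
      rw [hG, ha']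
      exact mem_max_of_red red' θ (fun w => by
        rw [mem_maximalIdeal, mem_nonunits_iff]
        exact fun hu => (mem_maximalIdeal _).1 (X_mem_max w)
          (IsLocalHom.map_nonunit (f := θ.toRingHom) _ hu)) (X_mem_max v)
    · show Ideal.Quotient.mk K (γ (G (MvPowerSeries.X v))) = _
      rw [hG, ha']
  rw [← Ideal.Quotient.eq]
  exact hy.symm.trans (DFunLike.congr_fun he y).symm

end FLTAgent.ModLift.Final
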