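import Fermat.Agent.ModLift.Lift.Final.Nodes
import Fermat.Agent.ModLift.Lift.Final.Series
import Fermat.Agent.ModLift.Lift.SupportFinal

/-!
# The patched outcome satisfies the hypotheses of the support theorem
-/

set_option autoImplicit false
set_option linter.unusedSectionVars false

noncomputable section

open IsLocalRing

namespace FLTAgent.ModLift.Final

open FLTAgent.ModLift.Patch FLTAgent.TWPrimes FLTAgent.Lowering

local notation "M2" => Matrix (Fin 2) (Fin 2)

variable {W : WeierstrassCurve ℤ} {hΔ : W.Δ ≠ 0} {p : ℕ} [Fact p.Prime] {O : Type} [CommRing O]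
  [IsDomain O] [IsDiscreteValuationRing O] [Algebra ℤ_[p] O] [Module.Finite ℤ_[p] O] [CharZero O]
  [IsAdicComplete (maximalIdeal O) O] [Finite (ResidueField O)]
  [Algebra (ZMod p) (ResidueField O)] {c : Ctx W hΔ p O} {B : Base c} {F : Frame c B} {r : ℕ}
  (Lim : (F.shape r).Limit)

theorem hT_mem (F : Frame c B) (t : Fin c.S0.T.card) : F.hT t ∈ maximalIdeal O := by
  refine Ideal.mul_mem_left _ _ ?_
  rw [← residue_eq_zero_iff, map_sub, map_natCast, map_one, c.T_cast (c.tP_mem t), sub_self]

theorem hT_ne (F : Frame c B) (t : Fin c.S0.T.card) : F.hT t ≠ 0 := by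
  refine mul_ne_zero (mul_ne_zero (fun e => ?_) (Units.ne_zero _)) (sub_ne_zero.2 fun e => ?_)
  · simpa [e] using F.εT_sq t
  · exact (c.tP t).2.ne_one (Nat.cast_injective (R := O) (e.trans Nat.cast_one.symm))

theorem shiftEl_ne (F : Frame c B) (j : Fin c.m) : F.shiftEl j ≠ 0 := by
  have hε : F.ε j ≠ 0 := fun e => by simpa [e] using F.ε_sq j
  have hq1 : ((c.q j : O) + 1) ≠ 0 := by exact_mod_cast Nat.succ_ne_zero (c.q j)
  rw [Frame.shiftEl]
  split_ifs
  · exact mul_ne_zero two_ne_zero hε
  · exact mul_ne_zero (mul_ne_zero two_ne_zero hε) hq1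

open scoped Classical in
/-- One excess of a step. -/
theorem one_le_excess (P : Pat c.m) (z : Fin c.m) (hF : P.InF c z)
    (h : (c.q z ≠ p ∧ P.InU c z) ∨ (c.q z = p ∧ ¬ p ∣ c.lev P.node)) :
    (if P.xy = true then 3 * c.S0.T.card else 0) + 1 ≤ P.excess c := by
  rw [Pat.excess]
  rcases h with ⟨hz, hU⟩ | ⟨hz, hn⟩
  · have : 0 < (Finset.univ.filter fun w : Fin c.m => P.InU c w ∧ P.InF c w ∧ c.q w ≠ p).card :=
      Finset.card_pos.2 ⟨z, by simp [hU, hF, hz]⟩
    omega
  · rw [if_pos (show ¬ p ∣ c.lev P.node ∧ P.Pf c from ⟨hn, z, hF, hz⟩)]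
    omega

open scoped Classical in
/-- Two excesses: an unramified prime and a step. -/
theorem two_le_excess (P : Pat c.m) (z i : Fin c.m) (hne : z ≠ i)
    (hz : c.q z ≠ p ∧ P.InU c z ∧ P.InF c z) (hiF : P.InF c i)
    (hi : (c.q i ≠ p ∧ P.InU c i) ∨ (c.q i = p ∧ ¬ p ∣ c.lev P.node)) : 2 ≤ P.excess c := by
  rw [Pat.excess]
  rcases hi with ⟨hi, hU⟩ | ⟨hi, hn⟩
  · have : ({z, i} : Finset (Fin c.m)).card ≤
        (Finset.univ.filter fun w : Fin c.m => P.InU c w ∧ P.InF c w ∧ c.q w ≠ p).card :=
      Finset.card_le_card fun w hw => by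
        rcases Finset.mem_insert.1 hw with rfl | hw
        · simp [hz]
        · rw [Finset.mem_singleton.1 hw]; simp [hU, hiF, hi]
    rw [Finset.card_pair hne] at this
    omega
  · rw [if_pos (show ¬ p ∣ c.lev P.node ∧ P.Pf c from ⟨hn, i, hiF, hi⟩)]
    have : 0 < (Finset.univ.filter fun w : Fin c.m => P.InU c w ∧ P.InF c w ∧ c.q w ≠ p).card :=
      Finset.card_pos.2 ⟨z, by simp [hz]⟩
    omega

theorem not_dvd_own {i : Fin c.m} (hi : c.q i = p) : ¬ p ∣ c.lev (i : ℕ) := fun h => by
  have h' : c.q i ∣ c.lev (i : ℕ) := by rw [hi]; exact h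
  exact lt_irrefl _ ((c.q_dvd_lev_iff i.2 i.2.le).1 h')

/-- The elements of the old part of a step. -/
def oldSet (F : Frame c B) (r : ℕ) (j : ℕ) : Set (Ser O (F.nv r)) :=
  {x | ∃ h : j < c.m, x = F.fEl r ⟨j, h⟩ * (F.fEl r ⟨j, h⟩ + MvPowerSeries.C (F.shiftEl ⟨j, h⟩))}

/-- The element raising the level at a step. -/
def fFun (F : Frame c B) (r : ℕ) (j : ℕ) : Ser O (F.nv r) :=
  if h : j < c.m then F.fEl r ⟨j, h⟩ else 0

/-- The translations. -/
def shiftFun (F : Frame c B) (j : ℕ) : O :=
  if h : j < c.m then F.shiftEl ⟨j, h⟩ else 0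

/-- The Steinberg equations of a step. -/
def stSet (F : Frame c B) (r : ℕ) (j : ℕ) : Set (Ser O (F.nv r)) :=
  {x | ∃ h : j < c.m, x ∈ F.stEl r ⟨j, h⟩}

/-- The equations of being unramified at a step. -/
def unrSet (j : ℕ) : Set (Ser O (F.nv r)) :=
  {x | ∃ h : j < c.m, (c.q j ≠ p ∧ ∃ u w, x = F.inerEl r ⟨j, h⟩ u w) ∨
    (c.q j = p ∧ (limNode Lim (Fin.castSucc ⟨j, h⟩) false).act x = 0 ∧
      (limNode Lim (Fin.castSucc ⟨j, h⟩) true).act x = 0)}

theorem X_xy_mem {I : Ideal (Ser O (F.nv r))} {P : Pat c.m}
    (hx : ∀ t l, F.xVec r t l ∈ I)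
    (hu : P.xy = true → ∀ t l, (MvPowerSeries.X (F.iuF r t l) : Ser O (F.nv r)) ∈ I)
    (hst : ∀ z : Fin c.m, (z : ℕ) < P.upto → ∀ x ∈ F.stEl r z, x ∈ I)
    (hfi : ∀ z, P.fi = some z → F.fEl r z ∈ I)
    (huz : ∀ z, P.uz = some z → ∀ u w, F.inerEl r z u w ∈ I) : ∀ x ∈ F.patEl r P, x ∈ I := by
  classical
  intro x hx'
  rw [Frame.patEl, Finset.mem_union, Finset.mem_union, Finset.mem_union, Finset.mem_union] at hx'
  rcases hx' with (((h | h) | h) | h) | h
  · obtain ⟨⟨t, l⟩, -, rfl⟩ := Finset.mem_image.1 h
    exact hx t l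
  · split_ifs at h with hxy
    · obtain ⟨⟨t, l⟩, -, rfl⟩ := Finset.mem_image.1 h
      exact hu hxy t l
    · exact absurd h (Finset.notMem_empty _)
  · obtain ⟨z, hz, hzx⟩ := Finset.mem_biUnion.1 h
    exact hst z (by simpa using hz) x hzx
  · cases hf : P.fi with
    | none => simp [hf] at h
    | some z =>
      simp only [hf, Option.elim, Finset.mem_singleton] at h
      exact h ▸ hfi z hf
  · cases hf : P.uz with
    | none => simp [hf] at h
    | some z =>
      simp only [hf, Option.elim] at h
      obtain ⟨⟨u, w⟩, -, rfl⟩ := Finset.mem_image.1 h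
      exact huz z hf u w

theorem st_upTo {i : ℕ} {z : Fin c.m} (hz : (z : ℕ) < i) {x : Ser O (F.nv r)}
    (hx : x ∈ F.stEl r z) : x ∈ Lift.upTo (stSet F r) i :=
  ⟨z, hz, z.2, hx⟩

/-- The support theorem applies. -/
theorem exists_input (hTame : TargetTameRel) (hSpecial : TargetSpecial)
    (hr : 3 * c.S0.T.card + 2 ≤ r) :
    ∃ D : Lift.Input O (F.nv r) r,
      D.pt = Lim.pt ∧ D.node D.m = limNode Lim (Fin.last c.m) false := by
  classical
  have hψ : PtEvals F Lim.pt := fun a => Lim.pt_fix _ ⟨a, rfl⟩
  have hpair : ∀ j (hj : j < c.m),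
      ∃ D : Pair (limNode Lim (stp c j) false) (limNode Lim (stp c (j + 1)) false),
        D.A = F.compEl r ⟨j, hj⟩ ∧ ∀ x ∈ oldSet F r j, ∃ l : ℕ, ∀ v,
          (((limNode Lim (stp c (j + 1)) false).act x ^ l).mulVec v) ∈ LinearMap.range D.i := by
    intro j hj
    rw [show stp c j = Fin.castSucc ⟨j, hj⟩ from stp_castSucc ⟨j, hj⟩,
      show stp c (j + 1) = Fin.succ ⟨j, hj⟩ from stp_succ ⟨j, hj⟩]
    obtain ⟨D, hA, l, hl⟩ := exists_limPair Lim ⟨j, hj⟩ false
    refine ⟨D, hA, ?_⟩
    rintro x ⟨h, rfl⟩
    exact ⟨l, hl⟩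
  choose pair hpairA hpairOld using hpair
  have hcongr : ∀ (i : Fin (c.m + 1)) (P : Ideal (Ser O (F.nv r))),
      (∀ a ∈ maximalIdeal O, MvPowerSeries.C a ∈ P) →
      ((limNode Lim i false).InSupp P ↔ (limNode Lim i true).InSupp P) := by
    intro i P hP
    have hd : (limNode Lim i true).d = (limNode Lim i false).d :=
      (((Lim.d_eq _).trans ((F.shape r).cdim i)).trans (Lim.d_eq _).symm).symm
    refine ⟨hSpecial O _ _ _ _ _ rfl hd (fun x a b => ?_) P hP,
      hSpecial O _ _ _ _ _ hd rfl (fun x a b => ?_) P hP⟩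
    · exact Lim.special i x a b
    · rw [← neg_sub]
      exact Ideal.neg_mem_iff _ |>.2 (Lim.special i x a b)
  have hrange : ∀ {i}, i ≤ c.m → ((stp c i : Fin (c.m + 1)) : ℕ) = i := fun h => stp_val h
  have hI0 : ∀ {i : Fin (c.m + 1)} {S : Set (Ser O (F.nv r))} {x : Ser O (F.nv r)},
      (limNode Lim i false).act x = 0 →
      x ∈ RingHom.ker (limNode Lim i false).act ⊔ Ideal.span S := fun h => Ideal.mem_sup_left h
  let D : Lift.Input O (F.nv r) r :=
    { k := c.S0.T.card
      g := r - 3 * c.S0.T.card
      s_eq := by omega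
      ix := F.ixF r
      iu := F.iuF r
      δ := F.δ
      δ_mem := F.δ_mem
      δ_ne := F.δ_ne
      h := F.hT
      h_mem := hT_mem F
      h_ne := hT_ne F
      m := c.m
      g_two := by omega
      node := fun j => limNode Lim (stp c j) false
      tw0 := limNode Lim (stp c 0) true
      tw1 := limNode Lim (stp c c.m) true
      pair := pair
      old := oldSet F r
      old_range := hpairOld
      special0 := fun P hP h => (hcongr _ P hP).2 h
      special1 := fun P hP => hcongr _ P hP
      f := fFun F r
      shiftC := shiftFun F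
      shiftC_ne := fun j hj => by rw [shiftFun, dif_pos hj]; exact shiftEl_ne F _
      f_mem := fun j hj => by
        rw [fFun, dif_pos hj, Frame.fEl]
        split_ifs
        · exact X_mem_max _
        · exact add_mem (X_mem_max _)
            (X_mem_max _)
      det_f := fun j hj => by rw [hpairA, fFun, dif_pos hj]; exact det_comp F _
      st := stSet F r
      f_st := fun j hj => ⟨hj, by
        rw [fFun, dif_pos hj, Frame.stEl]
        split_ifs <;> simp⟩
      unr := unrSet Lim
      new := fun j hj Q hQ _ hold => by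
        rw [fFun, dif_pos hj, shiftFun, dif_pos hj]
        exact hQ.mem_or_mem (hold ⟨hj, rfl⟩)
      split := fun i hi z hz Q hQ hker => by
        obtain ⟨e, hQe⟩ : ∃ e, RingHom.ker (limNode Lim (stp c i) e).act ≤ Q := by
          rcases hker with h | ⟨rfl, h⟩
          exacts [⟨false, h⟩, ⟨true, h⟩]
        have hzm : z < c.m := by omega
        rw [fFun, dif_pos hzm, shiftFun, dif_pos hzm]
        by_cases hzp : c.q z = p
        · obtain rfl : i = c.m := by have := c.q_last z hzm hzp; omega
          have hsucc : stp c c.m = Fin.succ ⟨z, hzm⟩ := Fin.ext (by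
            rw [stp_val le_rfl, Fin.val_succ]; exact (c.q_last z hzm hzp).symm)
          obtain ⟨D, -, l, hl⟩ := exists_limPair Lim ⟨z, hzm⟩ e
          rw [hsucc] at hQe
          rcases old_or_lower D hl hQ hQe with h | h
          · rcases hQ.mem_or_mem h with h' | h'
            · refine Or.inr (Or.inl ?_)
              rintro x ⟨hx', hx⟩
              rw [Frame.stEl, if_pos hzp, Finset.mem_singleton] at hx
              exact hx ▸ h'
            · refine Or.inr (Or.inr ⟨h', fun P hP hQP hst => absurd ?_ hP.ne_top⟩)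
              have h1 := sub_mem (hQP h') (hst ⟨hzm, show F.fEl r ⟨z, hzm⟩ ∈ F.stEl r ⟨z, hzm⟩ by
                rw [Frame.stEl, if_pos hzp]; simp⟩)
              rw [add_sub_cancel_left, Frame.shiftEl, if_pos hzp] at h1
              exact Ideal.eq_top_of_isUnit_mem _ h1 (IsUnit.map _ (c.two_unit.mul
                (IsUnit.of_mul_eq_one _ ((sq (F.ε z)).symm.trans (F.ε_sq z)))))
          · refine Or.inl ?_
            rintro x ⟨hx', hx⟩
            rcases hx with ⟨hn, -⟩ | ⟨-, h1, h2⟩
            · exact absurd hzp hn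
            · exact h (by cases e <;> assumption)
        · rcases split_tame Lim hQ hQe (z := ⟨z, hzm⟩) (by rw [hrange hi]; exact hz) hzp
            with h | h | ⟨h1, h2⟩
          · refine Or.inl ?_
            rintro x ⟨hx', hx⟩
            rcases hx with ⟨-, u, w, rfl⟩ | ⟨hp, -⟩
            · exact h u w
            · exact absurd hp hzp
          · exact Or.inr (Or.inl fun x ⟨_, hx⟩ => h x hx)
          · refine Or.inr (Or.inr ⟨h1, fun P hP hQP hst => ?_⟩)
            rintro x ⟨hx', hx⟩
            rcases hx with ⟨-, u, w, rfl⟩ | ⟨hp, -⟩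
            · exact h2 P hP hQP (fun y hy => hst ⟨hzm, hy⟩) u w
            · exact absurd hp hzp
      plain := fun i _ t l => rel_nilpotent Lim _ false
        (Or.inr (Or.inl ⟨rfl, t, Or.inl ⟨l, rfl⟩⟩))
      steinberg := fun t Q hQ hker => by
        have h1 := rel_mem Lim hQ hker (x := P5.qf (F.xVec r t))
          (Or.inr (Or.inl ⟨rfl, t, Or.inr (Or.inl rfl)⟩))
        have h3 := fun l => rel_mem Lim hQ hker
          (x := brkVec (F.yVec r t) (F.xVec r t) l - MvPowerSeries.C (2 * F.hT t) * F.xVec r t l)
          (Or.inr (Or.inl ⟨rfl, t, Or.inr (Or.inr ⟨l, rfl⟩)⟩))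
        by_cases h : P5.qf (F.yVec r t) - MvPowerSeries.C (F.hT t ^ 2) ∈ Q
        · exact Or.inr ⟨h1, h, h3⟩
        · refine Or.inl fun l => (hQ.mem_or_mem ?_).resolve_left h
          exact rel_mem Lim hQ hker
            (x := (P5.qf (F.yVec r t) - MvPowerSeries.C (F.hT t ^ 2)) * F.xVec r t l)
            (Or.inr (Or.inl ⟨rfl, t, Or.inl ⟨l, rfl⟩⟩))
      minor := fun e t a b => by
        cases e <;> exact rel_nilpotent Lim _ true (Or.inr (Or.inr ⟨rfl, t, Or.inl ⟨a, b, rfl⟩⟩))
      curve := fun e t => by
        cases e <;> exact rel_nilpotent Lim _ true (Or.inr (Or.inr ⟨rfl, t, Or.inr rfl⟩))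
      pt := Lim.pt
      τ := Finset.univ.filter fun t => ((c.tP t : ℕ) : ℤ) ∣ W.Δ
      pt_st := fun j hj x ⟨_, hx⟩ => pt_stEl hψ hTame _ x hx
      pt_unr := fun t ht l => pt_x_good hψ t (by simpa using ht) l
      pt_ram := fun t ht => (pt_plane hψ hTame t (by simpa using ht)).1
      pt_plane := fun t ht => (pt_plane hψ hTame t (by simpa using ht)).2
      genX := fun i hi => by
        refine genPat Lim ⟨stp c i, stp c i, false, false, false, none, none⟩
          ⟨fun h => by simp at h, fun z h1 h2 => absurd h2 (not_lt.2 h1), fun z h => by simp at h⟩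
          (Nat.le_add_right _ _) (fun x h _ _ => hI0 h) (X_xy_mem
            (fun t l => Ideal.mem_sup_right (Ideal.subset_span (Or.inl ⟨(t, l), rfl⟩)))
            (fun h => by simp at h) (fun z hz x hx => Ideal.mem_sup_right (Ideal.subset_span
              (Or.inr (st_upTo (by simpa [hrange hi] using hz) hx))))
            (fun z h => by simp at h) (fun z h => by simp at h))
      genHyp := fun i hi => by
        have hle := hi.le
        have hex : (0 : ℕ) + 1 ≤ Pat.excess c
            ⟨stp c i, stp c i, false, false, false, some ⟨i, hi⟩, none⟩ :=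
          le_trans (by simp) (one_le_excess _ ⟨i, hi⟩ (Or.inr rfl) (by
            by_cases hp : c.q i = p
            · refine Or.inr ⟨hp, ?_⟩
              show ¬ p ∣ c.lev (stp c i : ℕ)
              rw [hrange hle]
              exact not_dvd_own (i := ⟨i, hi⟩) hp
            · exact Or.inl ⟨hp, Or.inl (le_of_eq (hrange hle))⟩))
        refine genPat Lim ⟨stp c i, stp c i, false, false, false, some ⟨i, hi⟩, none⟩
          ⟨fun h => by simp at h, fun z h1 h2 => absurd h2 (not_lt.2 h1), fun z h => by simp at h⟩
          (by omega) (fun x h _ _ => hI0 h) (X_xy_mem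
            (fun t l => Ideal.mem_sup_right (Ideal.subset_span (Or.inl (Or.inl ⟨(t, l), rfl⟩))))
            (fun h => by simp at h) (fun z hz x hx => Ideal.mem_sup_right (Ideal.subset_span
              (Or.inl (Or.inr (st_upTo (by simpa [hrange hle] using hz) hx)))))
            (fun z h => Ideal.mem_sup_right (Ideal.subset_span (Or.inr (by
              obtain rfl := Option.some.inj h
              rw [fFun, dif_pos hi]; rfl))))
            (fun z h => by simp at h))
      genHypU := fun i hi => by
        have hle := hi.le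
        have hex : 3 * c.S0.T.card + 1 ≤ Pat.excess c
            ⟨stp c i, stp c i, false, false, true, some ⟨i, hi⟩, none⟩ :=
          le_trans (by simp) (one_le_excess _ ⟨i, hi⟩ (Or.inr rfl) (by
            by_cases hp : c.q i = p
            · refine Or.inr ⟨hp, ?_⟩
              show ¬ p ∣ c.lev (stp c i : ℕ)
              rw [hrange hle]
              exact not_dvd_own (i := ⟨i, hi⟩) hp
            · exact Or.inl ⟨hp, Or.inl (le_of_eq (hrange hle))⟩))
        refine genPat Lim ⟨stp c i, stp c i, false, false, true, some ⟨i, hi⟩, none⟩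
          ⟨fun h => by simp at h, fun z h1 h2 => absurd h2 (not_lt.2 h1), fun z h => by simp at h⟩
          (by omega) (fun x h _ _ => hI0 h) (X_xy_mem
            (fun t l => Ideal.mem_sup_right (Ideal.subset_span
              (Or.inl (Or.inl (Or.inl ⟨(t, l), rfl⟩)))))
            (fun _ t l => Ideal.mem_sup_right (Ideal.subset_span
              (Or.inl (Or.inl (Or.inr ⟨(t, l), rfl⟩)))))
            (fun z hz x hx => Ideal.mem_sup_right (Ideal.subset_span
              (Or.inl (Or.inr (st_upTo (by simpa [hrange hle] using hz) hx)))))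
            (fun z h => Ideal.mem_sup_right (Ideal.subset_span (Or.inr (by
              obtain rfl := Option.some.inj h
              rw [fFun, dif_pos hi]; rfl))))
            (fun z h => by simp at h))
      genExcl := fun i hi z hz => by
        have hle := hi.le
        have hzm : z < c.m := by omega
        have hzp : c.q z ≠ p := fun h => by have := c.q_last z hzm h; omega
        have hne : (⟨z, hzm⟩ : Fin c.m) ≠ ⟨i, hi⟩ := fun h => by
          have := congrArg Fin.val h; simp at this; omega
        have hex : 2 ≤ Pat.excess c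
            ⟨stp c i, stp c i, false, false, false, some ⟨i, hi⟩, some ⟨z, hzm⟩⟩ :=
          two_le_excess _ ⟨z, hzm⟩ ⟨i, hi⟩ hne
            ⟨hzp, Or.inr rfl, Or.inl (by show z < (stp c i : ℕ); rw [hrange hle]; exact hz)⟩
            (Or.inr rfl) (by
              by_cases hp : c.q i = p
              · refine Or.inr ⟨hp, ?_⟩
                show ¬ p ∣ c.lev (stp c i : ℕ)
                rw [hrange hle]
                exact not_dvd_own (i := ⟨i, hi⟩) hp
              · exact Or.inl ⟨hp, Or.inl (le_of_eq (hrange hle))⟩)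
        refine genPat Lim ⟨stp c i, stp c i, false, false, false, some ⟨i, hi⟩, some ⟨z, hzm⟩⟩
          ⟨fun h => by simp at h, fun w h1 h2 => absurd h2 (not_lt.2 h1),
            fun w h => by obtain rfl := Option.some.inj h; exact hzp⟩
          (by omega) (fun x h _ _ => hI0 h) (X_xy_mem
            (fun t l => Ideal.mem_sup_right (Ideal.subset_span
              (Or.inl (Or.inl (Or.inl ⟨(t, l), rfl⟩)))))
            (fun h => by simp at h) (fun w hw x hx => Ideal.mem_sup_right (Ideal.subset_span
              (Or.inl (Or.inl (Or.inr (st_upTo (by simpa [hrange hle] using hw) hx))))))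
            (fun w h => Ideal.mem_sup_right (Ideal.subset_span (Or.inl (Or.inr (by
              obtain rfl := Option.some.inj h
              rw [fFun, dif_pos hi]; rfl)))))
            (fun w h a b => Ideal.mem_sup_right (Ideal.subset_span (Or.inr (by
              obtain rfl := Option.some.inj h
              exact ⟨hzm, Or.inl ⟨hzp, a, b, rfl⟩⟩)))))
      genNew := fun i hi => by
        have hle := hi.le
        by_cases hp : c.q i = p
        · have hex : (0 : ℕ) + 1 ≤ Pat.excess c
              ⟨stp c i, stp c i, true, false, false, some ⟨i, hi⟩, none⟩ :=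
            le_trans (by simp) (one_le_excess _ ⟨i, hi⟩ (Or.inr rfl) (Or.inr ⟨hp, by
              show ¬ p ∣ c.lev (stp c i : ℕ)
              rw [hrange hle]
              exact not_dvd_own (i := ⟨i, hi⟩) hp⟩))
          refine genPat Lim ⟨stp c i, stp c i, true, false, false, some ⟨i, hi⟩, none⟩
            ⟨fun h => by simp at h, fun z h1 h2 => absurd h2 (not_lt.2 h1), fun z h => by simp at h⟩
            (by omega)
            (fun x h h' _ => Ideal.mem_sup_right (Ideal.subset_span (Or.inr ⟨hi, Or.inr ⟨hp,
              by rw [← stp_castSucc (c := c) ⟨i, hi⟩]; exact h,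
              by rw [← stp_castSucc (c := c) ⟨i, hi⟩]; exact h' rfl⟩⟩)))
            (X_xy_mem
              (fun t l => Ideal.mem_sup_right (Ideal.subset_span
                (Or.inl (Or.inl (Or.inl ⟨(t, l), rfl⟩)))))
              (fun h => by simp at h) (fun z hz x hx => Ideal.mem_sup_right (Ideal.subset_span
                (Or.inl (Or.inl (Or.inr (st_upTo (by simpa [hrange hle] using hz) hx))))))
              (fun z h => Ideal.mem_sup_right (Ideal.subset_span (Or.inl (Or.inr (by
                obtain rfl := Option.some.inj h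
                rw [fFun, dif_pos hi]; rfl)))))
              (fun z h => by simp at h))
        · have hex : (0 : ℕ) + 1 ≤ Pat.excess c
              ⟨stp c (i + 1), stp c i, false, false, false, some ⟨i, hi⟩, some ⟨i, hi⟩⟩ :=
            le_trans (by simp) (one_le_excess _ ⟨i, hi⟩ (Or.inr rfl) (Or.inl ⟨hp, Or.inr rfl⟩))
          refine genPat Lim ⟨stp c (i + 1), stp c i, false, false, false, some ⟨i, hi⟩, some ⟨i, hi⟩⟩
            ⟨fun h => by simp at h, fun z h1 h2 => ?_,
              fun w h => by obtain rfl := Option.some.inj h; exact hp⟩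
            (by omega) (fun x h _ _ => hI0 h) (X_xy_mem
              (fun t l => Ideal.mem_sup_right (Ideal.subset_span
                (Or.inl (Or.inl (Or.inl ⟨(t, l), rfl⟩)))))
              (fun h => by simp at h) (fun z hz x hx => Ideal.mem_sup_right (Ideal.subset_span
                (Or.inl (Or.inl (Or.inr (st_upTo (by simpa [hrange hle] using hz) hx))))))
              (fun z h => Ideal.mem_sup_right (Ideal.subset_span (Or.inl (Or.inr (by
                obtain rfl := Option.some.inj h
                rw [fFun, dif_pos hi]; rfl)))))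
              (fun w h a b => Ideal.mem_sup_right (Ideal.subset_span (Or.inr (by
                obtain rfl := Option.some.inj h
                exact ⟨hi, Or.inl ⟨hp, a, b, rfl⟩⟩)))))
          simp only [hrange hle, hrange (Nat.succ_le_of_lt hi)] at h1 h2
          exact congrArg some (Fin.ext (by show i = _; omega))
      genT0 := by
        have hex : 3 * c.S0.T.card ≤ Pat.excess c ⟨stp c 0, stp c 0, true, false, true, none, none⟩ := by
          rw [Pat.excess, if_pos (show (true : Bool) = true from rfl)]; omega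
        exact genPat Lim ⟨stp c 0, stp c 0, true, false, true, none, none⟩
          ⟨fun h => by simp at h, fun z h1 h2 => absurd h2 (not_lt.2 h1), fun z h => by simp at h⟩
          (by omega) (fun x h h' _ => Ideal.mem_sup_left ⟨h, h' rfl⟩) (X_xy_mem
            (fun t l => Ideal.mem_sup_right (Ideal.subset_span (Or.inl ⟨(t, l), rfl⟩)))
            (fun _ t l => Ideal.mem_sup_right (Ideal.subset_span (Or.inr ⟨(t, l), rfl⟩)))
            (fun z hz => absurd hz (by simp [hrange (Nat.zero_le _)]))
            (fun z h => by simp at h) (fun z h => by simp at h))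
      genT1 := by
        have hex : 3 * c.S0.T.card ≤
            Pat.excess c ⟨stp c c.m, stp c c.m, true, true, true, none, none⟩ := by
          rw [Pat.excess, if_pos (show (true : Bool) = true from rfl)]; omega
        exact genPat Lim ⟨stp c c.m, stp c c.m, true, true, true, none, none⟩
          ⟨fun _ => hrange le_rfl, fun z h1 h2 => absurd h2 (not_lt.2 h1), fun z h => by simp at h⟩
          (by omega) (fun x h h' hp => Ideal.mem_sup_left ⟨⟨h, h' rfl⟩, hp rfl⟩) (X_xy_mem
            (fun t l => Ideal.mem_sup_right (Ideal.subset_span (Or.inl (Or.inl ⟨(t, l), rfl⟩))))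
            (fun _ t l => Ideal.mem_sup_right (Ideal.subset_span (Or.inl (Or.inr ⟨(t, l), rfl⟩))))
            (fun z _ x hx => Ideal.mem_sup_right (Ideal.subset_span (Or.inr (st_upTo z.2 hx))))
            (fun z h => by simp at h) (fun z h => by simp at h))
      genT1Excl := fun z hz => by
        have hmz : z < (stp c c.m : ℕ) := by rw [hrange le_rfl]; exact hz
        by_cases hp : c.q z = p
        · have hex : 3 * c.S0.T.card + 1 ≤ Pat.excess c
              ⟨stp c z, stp c c.m, true, false, true, none, none⟩ :=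
            le_trans (by simp) (one_le_excess _ ⟨z, hz⟩ (Or.inl hmz) (Or.inr ⟨hp, by
              show ¬ p ∣ c.lev (stp c z : ℕ)
              rw [hrange hz.le]
              exact not_dvd_own (i := ⟨z, hz⟩) hp⟩))
          refine genPat Lim ⟨stp c z, stp c c.m, true, false, true, none, none⟩
            ⟨fun h => by simp at h, fun w h1 h2 => ?_, fun w h => by simp at h⟩ (by omega)
            (fun x h h' _ => Ideal.mem_sup_right (Ideal.subset_span (Or.inr ⟨hz, Or.inr ⟨hp,
              by rw [← stp_castSucc (c := c) ⟨z, hz⟩]; exact h,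
              by rw [← stp_castSucc (c := c) ⟨z, hz⟩]; exact h' rfl⟩⟩)))
            (X_xy_mem
              (fun t l => Ideal.mem_sup_right (Ideal.subset_span
                (Or.inl (Or.inl (Or.inl ⟨(t, l), rfl⟩)))))
              (fun _ t l => Ideal.mem_sup_right (Ideal.subset_span
                (Or.inl (Or.inl (Or.inr ⟨(t, l), rfl⟩)))))
              (fun w _ x hx => Ideal.mem_sup_right (Ideal.subset_span
                (Or.inl (Or.inr (st_upTo w.2 hx)))))
              (fun w h => by simp at h) (fun w h => by simp at h))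
          simp only [hrange le_rfl] at h1
          exact absurd w.2 (not_lt.2 h1)
        · have hex : 3 * c.S0.T.card + 1 ≤ Pat.excess c
              ⟨stp c c.m, stp c c.m, true, true, true, none, some ⟨z, hz⟩⟩ :=
            le_trans (by simp) (one_le_excess _ ⟨z, hz⟩ (Or.inl hmz) (Or.inl ⟨hp, Or.inr rfl⟩))
          exact genPat Lim ⟨stp c c.m, stp c c.m, true, true, true, none, some ⟨z, hz⟩⟩
            ⟨fun _ => hrange le_rfl, fun w h1 h2 => absurd h2 (not_lt.2 h1),
              fun w h => by obtain rfl := Option.some.inj h; exact hp⟩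
            (by omega) (fun x h h' hpt => Ideal.mem_sup_left ⟨⟨h, h' rfl⟩, hpt rfl⟩) (X_xy_mem
              (fun t l => Ideal.mem_sup_right (Ideal.subset_span
                (Or.inl (Or.inl (Or.inl ⟨(t, l), rfl⟩)))))
              (fun _ t l => Ideal.mem_sup_right (Ideal.subset_span
                (Or.inl (Or.inl (Or.inr ⟨(t, l), rfl⟩)))))
              (fun w _ x hx => Ideal.mem_sup_right (Ideal.subset_span
                (Or.inl (Or.inr (st_upTo w.2 hx)))))
              (fun w h => by simp at h)
              (fun w h a b => Ideal.mem_sup_right (Ideal.subset_span (Or.inr (by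
                obtain rfl := Option.some.inj h
                exact ⟨hz, Or.inl ⟨hp, a, b, rfl⟩⟩))))) }
  refine ⟨D, rfl, ?_⟩
  show limNode Lim (stp c c.m) false = _
  rw [show stp c c.m = Fin.last c.m from Fin.ext (hrange le_rfl)]

end FLTAgent.ModLift.Final
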