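import Fermat.Agent.ModLift.Lift.Final.Elements
import Fermat.Agent.ModLift.Lift.Final.Curve
import Fermat.Agent.ModLift.Lift.Final.Gen

/-!
# The algebra of a level joined with the point

The named values in the joined algebra, and the local relations it inherits from the chain and
from the curve.
-/

set_option autoImplicit false
set_option linter.unusedSectionVars false
set_option linter.style.haveILetI false

noncomputable section

open IsLocalRing

namespace FLTAgent.ModLift.Final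

open FLTAgent.TWPrimes FLTAgent.Lowering

local notation "GG" => (AlgebraicClosure ℚ ≃ₐ[ℚ] AlgebraicClosure ℚ)
local notation "VS" => ValuationSubring (AlgebraicClosure ℚ)
local notation "M2" => Matrix (Fin 2) (Fin 2)

variable {W : WeierstrassCurve ℤ} {hΔ : W.Δ ≠ 0} {p : ℕ} [Fact p.Prime] {O : Type} [CommRing O]
  [IsDomain O] [IsDiscreteValuationRing O] [Algebra ℤ_[p] O] [Module.Finite ℤ_[p] O] [CharZero O]
  [IsAdicComplete (maximalIdeal O) O] [Finite (ResidueField O)]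
  [Algebra (ZMod p) (ResidueField O)] {c : Ctx W hΔ p O} {B : Base c}

/-- Matrices whose entries lie in an ideal form a two-sided ideal. -/
theorem mul_mul_mem {R : Type*} [CommRing R] {K : Ideal R} (A C : M2 R) {N : M2 R}
    (hN : ∀ u w, N u w ∈ K) (u w : Fin 2) : (A * N * C) u w ∈ K := by
  simp only [Matrix.mul_apply]
  exact Ideal.sum_mem _ fun v _ => Ideal.mul_mem_right _ _
    (Ideal.sum_mem _ fun v' _ => Ideal.mul_mem_left _ _ (hN v' v))

/-- The algebra of the last step is torsion free. -/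
theorem _root_.FLTAgent.ModLift.Mats.torsion_free {Q : Finset Nat.Primes} {r k : ℕ} (M : Mats c B Q r k) (a : O)
    (ha : a ≠ 0) (x : M.L.R) (h : algebraMap O M.L.R a * x = 0) : x = 0 := by
  have h1 : ∀ e, x ∈ M.K (Fin.last _) e := fun e => M.K_sat _ e a ha x (by rw [h]; exact zero_mem _)
  have h2 := M.Kr_inf (Fin.last _) ⟨h1 false, h1 true⟩
  rwa [M.Kr_last, Ideal.mem_bot] at h2

/-- A level joined with the point. -/
structure Joined (F : Frame c B) (Q : Finset Nat.Primes) (r k : ℕ) where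
  M : Mats c B Q r k
  k_pos : 0 < k
  Q_notMem : ∀ q ∈ Q, q ∉ c.S
  J : LevelRep c.D (c.S ∪ Q)
  π : J.R →ₐ[O] M.L.R
  π_surj : Function.Surjective π
  pt : J.R →ₐ[O] O
  inj : ∀ x, π x = 0 → pt x = 0 → x = 0
  P : GL (Fin 2) M.L.R
  conj : ∀ σ, (J.ρ σ : M2 J.R).map π = ((P * M.L.ρ σ * P⁻¹ : GL (Fin 2) M.L.R) : M2 M.L.R)
  pt_rho : ∀ σ, (J.ρ σ : M2 J.R).map pt = (c.rO σ : M2 O)
  /-- The root of Frobenius at `p`, minus the sign. -/
  w : J.R
  red_w : J.red w = 0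
  pt_w : pt w = 0
  root : ∀ j : Fin c.m, c.q j = p → ∃ z' : J.R, (w + algebraMap O J.R (F.ε j)) * z' = 1 ∧
    ∀ τ ∈ (F.V (c.qP j)).inertiaSubgroupIn ℚ,
      ((J.ρ τ : M2 J.R) - Matrix.det (J.ρ τ : M2 J.R) • 1) *
        ((J.ρ (F.φ (c.qP j)) : M2 J.R) - (w + algebraMap O J.R (F.ε j)) • 1) = 0

theorem map_sub_smul_one {R S : Type*} [CommRing R] [CommRing S] (f : R →+* S) (A : M2 R) (a : R) :
    (A - a • 1).map f = A.map f - f a • 1 := by
  rw [← RingHom.mapMatrix_apply, map_sub, Matrix.smul_one_eq_diagonal, RingHom.mapMatrix_apply,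
    RingHom.mapMatrix_apply, Matrix.diagonal_map (map_zero _), Matrix.smul_one_eq_diagonal]

section Pre

variable {Q : Finset Nat.Primes} {r k : ℕ} {M : Mats c B Q r k} {J : LevelRep c.D (c.S ∪ Q)}
  {π : J.R →ₐ[O] M.L.R} {pt : J.R →ₐ[O] O} {P : GL (Fin 2) M.L.R}
  (inj : ∀ x, π x = 0 → pt x = 0 → x = 0)
  (conj : ∀ σ, (J.ρ σ : M2 J.R).map π = ((P * M.L.ρ σ * P⁻¹ : GL (Fin 2) M.L.R) : M2 M.L.R))
  (pt_rho : ∀ σ, (J.ρ σ : M2 J.R).map pt = (c.rO σ : M2 O))
include inj conj pt_rho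

/-- If `p` is in the last level the joined representation is ordinary. -/
theorem ordinary_join (hp : p ∣ c.lev c.m) {V : VS} (hV : V.LiesOverPrime p) :
    ∀ σ ∈ V.inertiaSubgroupIn ℚ, ∀ τ ∈ V.inertiaSubgroupIn ℚ,
      ((J.ρ σ : M2 J.R) - Matrix.det (J.ρ σ : M2 J.R) • 1) * ((J.ρ τ : M2 J.R) - 1) = 0 := by
  intro σ hσ τ hτ
  have hπ : ∀ g : GG, π (Matrix.det (J.ρ g : M2 J.R)) = Matrix.det (M.L.ρ g : M2 M.L.R) :=
    fun g => by
      rw [← AlgHom.coe_toRingHom, RingHom.map_det, RingHom.mapMatrix_apply, AlgHom.coe_toRingHom,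
        conj]
      exact Matrix.det_units_conj P _
  have hd : ∀ g : GG, pt (Matrix.det (J.ρ g : M2 J.R)) = Matrix.det (c.rO g : M2 O) := fun g => by
    rw [← AlgHom.coe_toRingHom, RingHom.map_det, RingHom.mapMatrix_apply, AlgHom.coe_toRingHom,
      pt_rho]
  have hl := M.ordinary (Fin.last _) hp V hV σ hσ τ hτ
  simp only [M.Kr_last, Ideal.mem_bot] at hl
  have hl0 : ((M.L.ρ σ : M2 M.L.R) - Matrix.det (M.L.ρ σ : M2 M.L.R) • 1) *
      ((M.L.ρ τ : M2 M.L.R) - 1) = 0 := Matrix.ext hl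
  have hmap : ∀ {S : Type} [CommRing S] (f : J.R →+* S),
      (((J.ρ σ : M2 J.R) - Matrix.det (J.ρ σ : M2 J.R) • 1) * ((J.ρ τ : M2 J.R) - 1)).map f =
        ((J.ρ σ : M2 J.R).map f - f (Matrix.det (J.ρ σ : M2 J.R)) • 1) *
          ((J.ρ τ : M2 J.R).map f - 1) := fun f => by
    rw [Matrix.map_mul, map_sub_smul_one, ← RingHom.mapMatrix_apply f ((J.ρ τ : M2 J.R) - 1),
      map_sub, map_one]
    rfl
  have h1 : (((J.ρ σ : M2 J.R) - Matrix.det (J.ρ σ : M2 J.R) • 1) *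
      ((J.ρ τ : M2 J.R) - 1)).map π.toRingHom = 0 := by
    rw [hmap]
    simp only [AlgHom.toRingHom_eq_coe, RingHom.coe_coe, conj, hπ, Units.val_mul]
    have e : ∀ (A : M2 M.L.R) (a : M.L.R), (P : M2 M.L.R) * A * (P⁻¹ : GL (Fin 2) M.L.R).val -
        a • 1 = (P : M2 M.L.R) * (A - a • 1) * (P⁻¹ : GL (Fin 2) M.L.R).val := fun A a => by
      rw [mul_sub, sub_mul, mul_smul_comm, mul_one, smul_mul_assoc, ← Units.val_mul, mul_inv_cancel,
        Units.val_one]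
    have e1 := e (M.L.ρ τ : M2 M.L.R) 1
    rw [one_smul] at e1
    rw [e, e1, show ∀ A C : M2 M.L.R, (P : M2 M.L.R) * A * (P⁻¹ : GL (Fin 2) M.L.R).val *
        ((P : M2 M.L.R) * C * (P⁻¹ : GL (Fin 2) M.L.R).val) =
          (P : M2 M.L.R) * (A * C) * (P⁻¹ : GL (Fin 2) M.L.R).val from fun A C => by
      simp only [mul_assoc]
      rw [← mul_assoc (P⁻¹ : GL (Fin 2) M.L.R).val (P : M2 M.L.R), ← Units.val_mul, inv_mul_cancel,
        Units.val_one, one_mul], hl0, mul_zero, zero_mul]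
  have h2 : (((J.ρ σ : M2 J.R) - Matrix.det (J.ρ σ : M2 J.R) • 1) *
      ((J.ρ τ : M2 J.R) - 1)).map pt.toRingHom = 0 := by
    rw [hmap]
    simp only [AlgHom.toRingHom_eq_coe, RingHom.coe_coe, pt_rho, hd]
    exact c.rO_ordinary (c.p_dvd_disc le_rfl hp) hV σ hσ τ hτ
  ext u w
  exact inj _ (congrFun (congrFun h1 u) w) (congrFun (congrFun h2 u) w)

end Pre

/-- The data exist. -/
theorem exists_joined (hJoin : TargetJoin) (hRoot : TargetUnitRoot) (F : Frame c B)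
    {Q : Finset Nat.Primes} {r k : ℕ} (M : Mats c B Q r k) (hk : 0 < k) (hQ : ∀ q ∈ Q, q ∉ c.S) :
    Nonempty (Joined F Q r k) := by
  classical
  obtain ⟨J, π, pt, P, hπ, inj, conj, pt_rho⟩ :=
    hJoin W hΔ p O c Q M.L M.torsion_free
  by_cases h : ∃ j : Fin c.m, c.q j = p
  · obtain ⟨j, hj⟩ := h
    have hV : (F.V (c.qP j)).LiesOverPrime p := by
      have := (F.frob (c.qP j)).1; rwa [Ctx.qP_val, hj] at this
    have hφ : (F.V (c.qP j)).IsFrobeniusAt (F.φ (c.qP j)) p := by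
      have := (F.frob (c.qP j)).2; rwa [Ctx.qP_val, hj] at this
    have hpd : p ∣ c.lev c.m := by
      have := (c.q_dvd_lev_iff j.2 le_rfl).2 j.2; rwa [hj] at this
    have hres : ∀ σ ∈ (F.V (c.qP j)).inertiaSubgroupIn ℚ,
        ((c.D.rb σ : M2 (ResidueField O)) - Matrix.det (c.D.rb σ : M2 (ResidueField O)) • 1) *
          ((c.D.rb (F.φ (c.qP j)) : M2 (ResidueField O)) - residue O (F.ε j) • 1) = 0 := by
      intro σ hσ
      have h0 := congrArg (residue O).mapMatrix (F.ε_p j hj σ hσ)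
      rw [map_mul, map_zero, RingHom.mapMatrix_apply, RingHom.mapMatrix_apply, map_sub_smul_one,
        map_sub_smul_one, RingHom.map_det, RingHom.mapMatrix_apply, ← c.rb_eq', ← c.rb_eq'] at h0
      exact h0
    obtain ⟨z, z', hzz, hzr, hrel, hpt⟩ := hRoot O p c.p_mem c.D _ J _ hV _ hφ (F.ε j) (F.ε_sq j)
      hres (ordinary_join inj conj pt_rho hpd hV)
    have hzp : pt z = F.ε j := by
      refine hpt pt fun σ hσ => ?_
      rw [show (((J.ρ σ : M2 J.R) - Matrix.det (J.ρ σ : M2 J.R) • 1)).map pt =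
        (((J.ρ σ : M2 J.R) - Matrix.det (J.ρ σ : M2 J.R) • 1)).map pt.toRingHom from rfl,
        map_sub_smul_one, RingHom.map_det, RingHom.mapMatrix_apply]
      simp only [AlgHom.toRingHom_eq_coe, RingHom.coe_coe, pt_rho]
      exact F.ε_p j hj σ hσ
    refine ⟨⟨M, hk, hQ, J, π, hπ, pt, inj, P, conj, pt_rho, z - algebraMap O J.R (F.ε j), ?_, ?_,
      fun j' hj' => ?_⟩⟩
    · rw [map_sub, hzr, Gen.red_algebraMap, sub_self]
    · rw [map_sub, hzp, AlgHom.commutes, Algebra.algebraMap_self, RingHom.id_apply, sub_self]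
    · obtain rfl : j' = j := Fin.ext (c.q_inj j'.2 j.2 (hj'.trans hj.symm))
      exact ⟨z', by rw [sub_add_cancel, hzz], fun τ hτ => by rw [sub_add_cancel]; exact hrel τ hτ⟩
  · exact ⟨⟨M, hk, hQ, J, π, hπ, pt, inj, P, conj, pt_rho, 0, map_zero _, map_zero _,
      fun j hj => absurd ⟨j, hj⟩ h⟩⟩

namespace Joined

variable {F : Frame c B} {Q : Finset Nat.Primes} {r k : ℕ} (X : Joined F Q r k)

theorem trace_π (σ : GG) :
    X.π (Matrix.trace (X.J.ρ σ : M2 X.J.R)) = Matrix.trace (X.M.L.ρ σ : M2 X.M.L.R) := by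
  rw [show X.π (Matrix.trace (X.J.ρ σ : M2 X.J.R)) = Matrix.trace ((X.J.ρ σ : M2 X.J.R).map X.π)
    from AddMonoidHom.map_trace X.π.toRingHom.toAddMonoidHom _, X.conj]
  exact Matrix.trace_units_conj X.P _

theorem det_π (σ : GG) :
    X.π (Matrix.det (X.J.ρ σ : M2 X.J.R)) = Matrix.det (X.M.L.ρ σ : M2 X.M.L.R) := by
  rw [← AlgHom.coe_toRingHom, RingHom.map_det, RingHom.mapMatrix_apply, AlgHom.coe_toRingHom, X.conj]
  exact Matrix.det_units_conj X.P _

theorem pt_trace (σ : GG) :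
    X.pt (Matrix.trace (X.J.ρ σ : M2 X.J.R)) = Matrix.trace (c.rO σ : M2 O) := by
  rw [show X.pt (Matrix.trace (X.J.ρ σ : M2 X.J.R)) = Matrix.trace ((X.J.ρ σ : M2 X.J.R).map X.pt)
    from AddMonoidHom.map_trace X.pt.toRingHom.toAddMonoidHom _, X.pt_rho]

theorem pt_apply (σ : GG) (u w : Fin 2) :
    X.pt ((X.J.ρ σ : M2 X.J.R) u w) = (c.rO σ : M2 O) u w := by
  rw [← X.pt_rho σ]; rfl

theorem red_apply (σ : GG) (u w : Fin 2) :
    X.J.red ((X.J.ρ σ : M2 X.J.R) u w) = (c.D.rb σ : M2 (ResidueField O)) u w := by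
  rw [← X.J.red_rho σ]; rfl

/-- The elements dying at a step. -/
def kr (i : Fin (c.m + 1)) : Ideal X.J.R := Ideal.comap X.π.toRingHom (X.M.Kr i)

/-- The elements dying at a node. -/
def kn (i : Fin (c.m + 1)) (e : Bool) : Ideal X.J.R := Ideal.comap X.π.toRingHom (X.M.K i e)

theorem mem_kr {i : Fin (c.m + 1)} {x : X.J.R} : x ∈ X.kr i ↔ X.π x ∈ X.M.Kr i := Iff.rfl

theorem mem_kn {i : Fin (c.m + 1)} {e : Bool} {x : X.J.R} : x ∈ X.kn i e ↔ X.π x ∈ X.M.K i e :=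
  Iff.rfl

theorem kr_le_kn (i : Fin (c.m + 1)) (e : Bool) : X.kr i ≤ X.kn i e :=
  fun _ h => X.M.Kr_le i e h

theorem kn_inf_le (i : Fin (c.m + 1)) : X.kn i false ⊓ X.kn i true ≤ X.kr i :=
  fun _ h => X.M.Kr_inf i h

theorem kn_sat (i : Fin (c.m + 1)) (e : Bool) {a : O} (ha : a ≠ 0) {x : X.J.R}
    (h : algebraMap O X.J.R a * x ∈ X.kn i e) : x ∈ X.kn i e := by
  rw [mem_kn, map_mul, AlgHom.commutes] at h
  exact X.M.K_sat i e a ha _ h

theorem sub_one_map (σ : GG) (u w : Fin 2) :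
    X.π (((X.J.ρ σ : M2 X.J.R) - 1) u w) = ((X.P : M2 X.M.L.R) * ((X.M.L.ρ σ : M2 X.M.L.R) - 1) *
      (X.P⁻¹ : GL (Fin 2) X.M.L.R).val) u w := by
  rw [mul_sub, sub_mul, mul_one, ← Units.val_mul, ← Units.val_mul, ← Units.val_mul, mul_inv_cancel,
    Units.val_one, ← X.conj, Matrix.sub_apply, Matrix.sub_apply, map_sub, Matrix.map_apply]
  congr 1
  by_cases h : u = w
  · subst h; simp
  · simp [Matrix.one_apply_ne h]

/-- The representation is trivial on inertia outside the level. -/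
theorem unram_mem {i : Fin (c.m + 1)} {l : Nat.Primes} (hlp : (l : ℕ) ≠ p) (hlS : l ∈ c.S)
    (hl : ¬ (l : ℕ) ∣ c.lev i) {V : VS} (hV : V.LiesOverPrime (l : ℕ)) {σ : GG}
    (hσ : σ ∈ V.inertiaSubgroupIn ℚ) (u w : Fin 2) :
    ((X.J.ρ σ : M2 X.J.R) - 1) u w ∈ X.kr i := by
  rw [mem_kr, X.sub_one_map]
  refine mul_mul_mem _ _ (fun a b => ?_) u w
  rw [Matrix.sub_apply]
  exact X.M.unramified i l hlp (fun h => X.Q_notMem l h hlS) hl V hV σ hσ a b

theorem two_sub_mem_kr {i : Fin (c.m + 1)} {l : ℕ} (hl : l.Prime) (hlp : l ≠ p)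
    (hd : l ∣ c.lev i) (hT : l ∉ c.S0.T) {V : VS} (hV : V.LiesOverPrime l) {σ : GG}
    (hσ : σ ∈ V.inertiaSubgroupIn ℚ) : Matrix.trace (X.J.ρ σ : M2 X.J.R) - 2 ∈ X.kr i := by
  rw [mem_kr, map_sub, X.trace_π, map_ofNat]
  exact (X.M.unipotent i l hl hlp hd hT V hV σ hσ).1

/-- The representation is trivial on inertia at the auxiliary prime of the level. -/
theorem r_mem (hAux : TargetAuxUnramified) (i : Fin (c.m + 1)) {l : Nat.Primes}
    (hlr : (l : ℕ) = c.r) (hlS : l ∈ c.S) {V : VS} (hV : V.LiesOverPrime (l : ℕ)) {σ : GG}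
    (hσ : σ ∈ V.inertiaSubgroupIn ℚ) (u w : Fin 2) :
    ((X.J.ρ σ : M2 X.J.R) - 1) u w ∈ X.kr i := by
  obtain ⟨hr, hrp, hrY, -, hspec⟩ := c.r_spec
  have hlp : (l : ℕ) ≠ p := fun h => hrp (hlr.symm.trans h)
  by_cases hd : (l : ℕ) ∣ c.lev i
  swap
  · exact X.unram_mem hlp hlS hd hV hσ u w
  have hT : (l : ℕ) ∉ c.S0.T := fun h => (c.T_facts h).2.2.2.2.1 hlr
  refine X.kn_inf_le i ?_
  suffices h : ∀ e, ((X.J.ρ σ : M2 X.J.R) - 1) u w ∈ X.kn i e from ⟨h false, h true⟩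
  intro e
  rw [mem_kn, X.sub_one_map]
  refine mul_mul_mem _ _ (fun a b => ?_) u w
  have hK : X.M.K i e ≠ ⊤ := fun h => by
    have h1 : (1 : X.M.L.R) ∈ X.M.K i e := h ▸ Submodule.mem_top
    have h2 := X.M.act_K i e 1 h1
    rw [map_one] at h2
    haveI : Nontrivial (CMod O r k) := Ideal.Quotient.nontrivial_iff.2 fun h4 =>
      (maximalIdeal.isMaximal (MvPowerSeries (Fin r) O)).ne_top
        (top_le_iff.1 (h4.ge.trans (Ideal.pow_le_self X.k_pos.ne')))
    haveI : NeZero (B.d i e) := ⟨(B.d_pos i e).ne'⟩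
    have h3 := congrFun (congrFun h2 0) 0
    rw [Matrix.one_apply_eq, Matrix.zero_apply] at h3
    exact one_ne_zero h3
  have htf : ∀ a : O, a ≠ 0 → ∀ x : (X.M.L.quot hK).R,
      algebraMap O (X.M.L.quot hK).R a * x = 0 → x = 0 := by
    intro a ha x hx
    obtain ⟨y, rfl⟩ := X.M.L.toQuot_surjective hK x
    rw [← (X.M.L.toQuot hK).commutes, ← map_mul, X.M.L.toQuot_eq_zero] at hx
    exact (X.M.L.toQuot_eq_zero hK).2 (X.M.K_sat i e a ha y hx)
  have htr : ∀ τ ∈ V.inertiaSubgroupIn ℚ,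
      Matrix.trace ((X.M.L.quot hK).ρ τ : M2 (X.M.L.quot hK).R) = 2 := fun τ hτ => by
    rw [LevelRep.rho_quot, show Matrix.trace ((X.M.L.ρ τ : M2 X.M.L.R).map (X.M.L.toQuot hK)) =
        X.M.L.toQuot hK (Matrix.trace (X.M.L.ρ τ : M2 X.M.L.R)) from
      (AddMonoidHom.map_trace (X.M.L.toQuot hK).toRingHom.toAddMonoidHom _).symm,
      ← sub_eq_zero, ← map_ofNat (X.M.L.toQuot hK), ← map_sub, X.M.L.toQuot_eq_zero]
    exact X.M.Kr_le i e (X.M.unipotent i l l.2 hlp hd hT V hV τ hτ).1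
  have hY : (l : ℕ) ∉ c.Y0 := by rw [hlr]; exact hrY
  have hne : ∀ φ : GG, V.IsFrobeniusAt φ (l : ℕ) →
      Matrix.trace (c.D.rb φ : M2 (ResidueField O)) ^ 2 ≠ (((l : ℕ) : ResidueField O) + 1) ^ 2 := by
    intro φ hφ h
    obtain ⟨-, h3⟩ := hspec V (by rw [← hlr]; exact hV) φ (by rw [← hlr]; exact hφ)
    rw [hlr, sq_eq_sq_iff_eq_or_eq_neg] at h
    rcases h with h | h
    · exact h3 1 (one_pow _) (by rw [one_mul]; exact h)
    · exact h3 (-1) (by ring) (by rw [neg_one_mul]; exact h)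
  have h1 := hAux O p c.p_mem c.two_ne c.D _ _ htf l l.2 hlp V hV
    (fun τ hτ => c.unramified l l.2 hlp hY V hV τ hτ) htr hne σ hσ
  have h2 : X.M.L.toQuot hK ((X.M.L.ρ σ : M2 X.M.L.R) a b) = (1 : M2 (X.M.L.quot hK).R) a b := by
    have h3 : ((X.M.L.quot hK).ρ σ : M2 (X.M.L.quot hK).R) = 1 := by rw [h1]; rfl
    rw [LevelRep.rho_quot] at h3
    exact congrFun (congrFun h3 a) b
  rw [← X.M.L.toQuot_eq_zero hK, Matrix.sub_apply, map_sub, h2]
  by_cases hab : a = b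
  · subst hab; simp
  · simp [Matrix.one_apply_ne hab]

/-- The values of the named variables. -/
def val : NVar c.S0.T.card c.m F.ng → X.J.R
  | .x t i => P6.coords (algebraMap O X.J.R c.half) (X.J.ρ (F.σ (c.tP t)) : M2 X.J.R) i
  | .u t i => P6.coords (algebraMap O X.J.R c.half) (X.J.ρ (F.φ (c.tP t)) : M2 X.J.R) i +
      P5.shift (P6.coords (algebraMap O X.J.R c.half) (X.J.ρ (F.σ (c.tP t)) : M2 X.J.R)) i
  | .frob j a b => (X.J.ρ (F.φ (c.qP j)) : M2 X.J.R) a b -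
      algebraMap O X.J.R ((c.rO (F.φ (c.qP j)) : M2 O) a b)
  | .iner j a b => if c.q j = p then 0 else ((X.J.ρ (F.σ (c.qP j)) : M2 X.J.R) - 1) a b
  | .tr i => Matrix.trace (X.J.ρ (F.gen i) : M2 X.J.R) -
      algebraMap O X.J.R (Matrix.trace (c.rO (F.gen i) : M2 O))
  | .root => X.w

theorem pt_coords (σ : GG) (i : Fin 3) :
    X.pt (P6.coords (algebraMap O X.J.R c.half) (X.J.ρ σ : M2 X.J.R) i) =
      P6.coords c.half (c.rO σ : M2 O) i := by
  show X.pt.toRingHom _ = _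
  rw [P6.map_coords]
  simp [X.pt_rho]

theorem pt_val (a : NVar c.S0.T.card c.m F.ng) : X.pt (X.val a) = F.ptVal a := by
  rcases a with ⟨t, i⟩ | ⟨t, i⟩ | ⟨j, u, w⟩ | ⟨j, u, w⟩ | i | _
  · exact X.pt_coords _ i
  · show X.pt (_ + _) = _
    rw [map_add, X.pt_coords]
    congr 1
    fin_cases i <;> simp [P5.shift, X.pt_coords]
  · show X.pt (_ - _) = (0 : O)
    rw [map_sub, X.pt_apply, AlgHom.commutes, Algebra.algebraMap_self, RingHom.id_apply, sub_self]
  · show X.pt (ite _ _ _) = ite _ _ _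
    split_ifs with h
    · exact map_zero _
    · rw [Matrix.sub_apply, Matrix.sub_apply, map_sub, X.pt_apply]
      congr 1
      by_cases h' : u = w
      · subst h'; simp
      · simp [Matrix.one_apply_ne h']
  · show X.pt (_ - _) = (0 : O)
    rw [map_sub, X.pt_trace, AlgHom.commutes, Algebra.algebraMap_self, RingHom.id_apply, sub_self]
  · exact X.pt_w

theorem rb_inertia_one {l : Nat.Primes} (hlp : (l : ℕ) ≠ p) (hY : (l : ℕ) ∉ c.Y0) {V : VS}
    (hV : V.LiesOverPrime (l : ℕ)) {σ : GG} (hσ : σ ∈ V.inertiaSubgroupIn ℚ) :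
    (c.D.rb σ : M2 (ResidueField O)) = 1 := by
  rw [c.unramified l l.2 hlp hY V hV σ hσ, Units.val_one]

theorem red_coords {σ : GG} {a : ResidueField O}
    (h : (c.D.rb σ : M2 (ResidueField O)) = a • 1) (i : Fin 3) :
    X.J.red (P6.coords (algebraMap O X.J.R c.half) (X.J.ρ σ : M2 X.J.R) i) = 0 := by
  show X.J.red.toRingHom _ = _
  rw [P6.map_coords]
  simp only [AlgHom.toRingHom_eq_coe, RingHom.coe_coe, X.J.red_rho, h]
  fin_cases i <;> simp [P6.coords]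

theorem red_val (a : NVar c.S0.T.card c.m F.ng) : X.J.red (X.val a) = 0 := by
  have hσ : ∀ t, (c.D.rb (F.σ (c.tP t)) : M2 (ResidueField O)) = (1 : ResidueField O) • 1 :=
    fun t => by
      obtain ⟨-, htp, -, htY, -⟩ := c.T_facts (c.tP_mem t)
      rw [one_smul, rb_inertia_one htp htY (F.frob _).1 (F.σ_mem _)]
  rcases a with ⟨t, i⟩ | ⟨t, i⟩ | ⟨j, u, w⟩ | ⟨j, u, w⟩ | i | _
  · exact X.red_coords (hσ t) i
  · obtain ⟨a, ha⟩ := (c.T_scalar _ (c.tP_mem t)).2.2 _ (F.frob (c.tP t)).1 _ (F.frob (c.tP t)).2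
    show X.J.red (_ + _) = 0
    rw [map_add, X.red_coords ha, zero_add]
    fin_cases i <;> simp [P5.shift, X.red_coords (hσ t)]
  · show X.J.red (_ - _) = 0
    rw [map_sub, X.red_apply, Gen.red_algebraMap, c.rb_eq', Matrix.map_apply, sub_self]
  · show X.J.red (ite _ _ _) = 0
    split_ifs with h
    · exact map_zero _
    · have hp : ((c.qP j : Nat.Primes) : ℕ) ≠ p := h
      rw [Matrix.sub_apply, map_sub, X.red_apply,
        rb_inertia_one hp (c.q_facts j.2).1 (F.frob _).1 (F.σ_mem _)]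
      by_cases h' : u = w
      · subst h'; simp
      · simp [Matrix.one_apply_ne h']
  · show X.J.red (_ - _) = 0
    rw [map_sub, Gen.red_algebraMap, show X.J.red (Matrix.trace (X.J.ρ (F.gen i) : M2 X.J.R)) =
      Matrix.trace ((X.J.ρ (F.gen i) : M2 X.J.R).map X.J.red) from
        AddMonoidHom.map_trace X.J.red.toRingHom.toAddMonoidHom _, X.J.red_rho, c.rb_eq',
      sub_eq_zero]
    exact (AddMonoidHom.map_trace (residue O).toAddMonoidHom _).symm
  · exact X.red_w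

theorem val_mem (a : NVar c.S0.T.card c.m F.ng) : X.val a ∈ maximalIdeal X.J.R :=
  (Gen.red_eq_zero_iff X.J.red _).2 (X.red_val a)

end Joined

end FLTAgent.ModLift.Final
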