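import Fermat.Agent.ModLift.Lift.Final.Patterns

/-!
# One level of auxiliary primes gives a level of the shape

The joined algebra presented by the variables acts on the nodes through the matrices of the chain
and goes to the constants at the point.
-/

set_option autoImplicit false
set_option linter.unusedSectionVars false
set_option linter.style.haveILetI false

noncomputable section

open IsLocalRing

namespace FLTAgent.ModLift.Final

open FLTAgent.ModLift.Patch FLTAgent.TWPrimes FLTAgent.Lowering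

local notation "GG" => (AlgebraicClosure ℚ ≃ₐ[ℚ] AlgebraicClosure ℚ)
local notation "M2" => Matrix (Fin 2) (Fin 2)

variable {W : WeierstrassCurve ℤ} {hΔ : W.Δ ≠ 0} {p : ℕ} [Fact p.Prime] {O : Type} [CommRing O]
  [IsDomain O] [IsDiscreteValuationRing O] [Algebra ℤ_[p] O] [Module.Finite ℤ_[p] O] [CharZero O]
  [IsAdicComplete (maximalIdeal O) O] [Finite (ResidueField O)]
  [Algebra (ZMod p) (ResidueField O)] {c : Ctx W hΔ p O} {B : Base c} {F : Frame c B}
  {Q : Finset Nat.Primes} {r k : ℕ}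

theorem isUnit_rootEl (F : Frame c B) (j : Fin c.m) : IsUnit (F.rootEl r j) := by
  rw [MvPowerSeries.isUnit_iff_constantCoeff]
  show IsUnit (MvPowerSeries.constantCoeff (F.var r .root + MvPowerSeries.C (F.ε j)))
  rw [map_add, Frame.var, MvPowerSeries.constantCoeff_X, MvPowerSeries.constantCoeff_C, zero_add]
  exact IsUnit.of_mul_eq_one _ ((sq (F.ε j)).symm.trans (F.ε_sq j))

namespace Joined

variable (X : Joined F Q r k) {γ : Ser O (F.nv r) →ₐ[O] X.J.R}

/-- The action on a node through the presentation. -/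
def nodeAct (γ : Ser O (F.nv r) →ₐ[O] X.J.R) (i : Fin (c.m + 1)) (e : Bool) :
    Ser O (F.nv r) →ₐ[O] Matrix (Fin (B.d i e)) (Fin (B.d i e)) (CMod O r k) :=
  (X.M.act i e).comp (X.π.comp γ)

theorem nodeAct_apply (i : Fin (c.m + 1)) (e : Bool) (x : Ser O (F.nv r)) :
    X.nodeAct γ i e x = X.M.act i e (X.π (γ x)) := rfl

theorem nodeAct_eq_zero (i : Fin (c.m + 1)) (e : Bool) {x : Ser O (F.nv r)}
    (h : γ x ∈ X.kn i e) : X.nodeAct γ i e x = 0 :=
  X.M.act_K i e _ (X.mem_kn.1 h)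

theorem old_value (hev : X.Evals γ) (j : Fin c.m) (hj : c.q j ≠ p) :
    X.π (γ (F.fEl r j * (F.fEl r j + MvPowerSeries.C (F.shiftEl j)))) =
      Matrix.trace (X.M.L.ρ (F.φ (c.qP j)) : M2 X.M.L.R) ^ 2 - ((c.q j : X.M.L.R) + 1) ^ 2 := by
  rw [map_mul, map_add, show γ (MvPowerSeries.C _) = _ from γ.commutes _, ev_f hev hj,
    Frame.shiftEl, if_neg hj, map_mul, map_add, map_sub, X.trace_π, AlgHom.commutes, AlgHom.commutes,
    map_mul, map_mul, map_mul, map_add, map_natCast, map_one, map_ofNat]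
  have h1 : algebraMap O X.M.L.R (F.ε j) ^ 2 = 1 := by rw [← map_pow, F.ε_sq, map_one]
  linear_combination (-((c.q j : X.M.L.R) + 1) ^ 2) * h1

theorem hecke_value (hev : X.Evals γ) (j : Fin c.m) (hj : c.q j ≠ p) :
    X.π (γ (F.heckeEl r j)) = Matrix.trace (X.M.L.ρ (F.φ (c.qP j)) : M2 X.M.L.R) := by
  rw [Frame.heckeEl, if_neg hj, ← AlgHom.coe_toRingHom γ, trace_map2, AlgHom.coe_toRingHom,
    ev_frob hev, X.trace_π]

theorem old_value_p (hev : X.Evals γ) (j : Fin c.m) (hj : c.q j = p) :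
    X.π (γ (F.fEl r j * (F.fEl r j + MvPowerSeries.C (F.shiftEl j)))) =
      X.π (X.w + algebraMap O X.J.R (F.ε j)) ^ 2 - 1 := by
  rw [map_mul, map_add, show γ (MvPowerSeries.C _) = _ from γ.commutes _, ev_f_p hev hj,
    Frame.shiftEl, if_pos hj, map_mul, map_add, map_add, AlgHom.commutes, AlgHom.commutes, map_mul,
    map_ofNat]
  have h1 : algebraMap O X.M.L.R (F.ε j) ^ 2 = 1 := by rw [← map_pow, F.ε_sq, map_one]
  linear_combination -h1

/-- The root relation in the algebra of the chain. -/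
theorem root_rel (j : Fin c.m) (hj : c.q j = p) :
    ∃ z' : X.M.L.R, X.π (X.w + algebraMap O X.J.R (F.ε j)) * z' = 1 ∧
      ∀ σ ∈ (F.V (c.qP j)).inertiaSubgroupIn ℚ, ∀ u w,
        (((X.M.L.ρ σ : M2 X.M.L.R) - Matrix.det (X.M.L.ρ σ : M2 X.M.L.R) • 1) *
          ((X.M.L.ρ (F.φ (c.qP j)) : M2 X.M.L.R) -
            X.π (X.w + algebraMap O X.J.R (F.ε j)) • 1)) u w ∈ X.M.Kr j.succ := by
  obtain ⟨z', hz, hrel⟩ := X.root j hj
  refine ⟨X.π z', by rw [← map_mul, hz, map_one], fun σ hσ u w => ?_⟩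
  set Pv := (X.P : M2 X.M.L.R)
  set Pi := (X.P⁻¹ : GL (Fin 2) X.M.L.R).val
  have hPi : Pi * Pv = 1 := by rw [← Units.val_mul, inv_mul_cancel, Units.val_one]
  have hP : Pv * Pi = 1 := by rw [← Units.val_mul, mul_inv_cancel, Units.val_one]
  have e : ∀ (A : M2 X.M.L.R) (a : X.M.L.R), A - a • 1 = Pi * (Pv * A * Pi - a • 1) * Pv := by
    intro A a
    rw [mul_sub, sub_mul, mul_smul_comm, mul_one, smul_mul_assoc, hPi, ← mul_assoc, ← mul_assoc, hPi,
      one_mul, mul_assoc, hPi, mul_one]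
  have h0 := congrArg X.π.toRingHom.mapMatrix (hrel σ hσ)
  rw [map_mul, map_zero, RingHom.mapMatrix_apply, RingHom.mapMatrix_apply, map_sub_smul_one,
    map_sub_smul_one] at h0
  simp only [AlgHom.toRingHom_eq_coe, RingHom.coe_coe, X.conj, X.det_π, Units.val_mul] at h0
  rw [e _ (Matrix.det (X.M.L.ρ σ : M2 X.M.L.R)), e _ (X.π (X.w + algebraMap O X.J.R (F.ε j)))]
  have e2 : ∀ A C : M2 X.M.L.R, Pi * A * Pv * (Pi * C * Pv) = Pi * (A * C) * Pv := fun A C => by
    simp only [mul_assoc]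
    rw [← mul_assoc Pv Pi, hP, one_mul]
  rw [e2, h0, mul_zero, zero_mul, Matrix.zero_apply]
  exact zero_mem _

theorem hecke_value_p (hev : X.Evals γ) (j : Fin c.m) (hj : c.q j = p) {z' : X.M.L.R}
    (hz : X.π (X.w + algebraMap O X.J.R (F.ε j)) * z' = 1) :
    X.π (γ (F.heckeEl r j)) =
      X.π (X.w + algebraMap O X.J.R (F.ε j)) + (p : X.M.L.R) * z' := by
  rw [Frame.heckeEl, if_pos hj, map_add, map_mul, show γ (MvPowerSeries.C _) = _ from γ.commutes _,
    ev_root hev, map_add, map_mul, AlgHom.commutes, map_natCast]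
  congr 2
  have h1 := congrArg (fun x => X.π (γ x))
    (Ring.mul_inverse_cancel (F.rootEl r j) (isUnit_rootEl F j))
  simp only [map_mul, map_one, ev_root hev] at h1
  exact left_inv_eq_right_inv (by rw [mul_comm]; exact h1) hz

theorem act_comp (j : Fin (c.m + 1)) (e : Bool) (y : Ser O (F.nv r))
    (v : Fin (B.d j e) → CMod O r k) (n : ℕ) :
    (X.nodeAct γ j e ((n : Ser O (F.nv r)) + 1)).mulVec v = ((n : CMod O r k) + 1) • v := by
  rw [map_add, map_one, map_natCast, Matrix.add_mulVec, Matrix.one_mulVec, add_smul, one_smul]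
  congr 1
  rw [← map_natCast (algebraMap (CMod O r k) (Matrix (Fin (B.d j e)) (Fin (B.d j e)) (CMod O r k))),
    Algebra.algebraMap_eq_smul_one, Matrix.smul_mulVec, Matrix.one_mulVec]

/-- The pair of a step. -/
theorem exists_pair (hev : X.Evals γ) (j : Fin c.m) (e : Bool) :
    ∀ x y : Fin (c.m + 1) × Bool, x = (j.castSucc, e) → y = (j.succ, e) →
      ∃ (up : (Fin 2 → Fin (B.d x.1 x.2) → CMod O r k) →ₗ[CMod O r k]
          Fin (B.d y.1 y.2) → CMod O r k)
        (down : (Fin (B.d y.1 y.2) → CMod O r k) →ₗ[CMod O r k]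
          Fin 2 → Fin (B.d x.1 x.2) → CMod O r k),
        (∀ a v, up (fun b => (X.nodeAct γ x.1 x.2 a).mulVec (v b)) =
          (X.nodeAct γ y.1 y.2 a).mulVec (up v)) ∧
        (∀ a v, down ((X.nodeAct γ y.1 y.2 a).mulVec v) =
          fun b => (X.nodeAct γ x.1 x.2 a).mulVec (down v b)) ∧
        (∀ v, (∀ u, ¬ IsUnit (up v u)) → ∀ b u, ¬ IsUnit (v b u)) ∧
        Function.Surjective down ∧
        (∀ v b, down (up v) b =
          ∑ d, (X.nodeAct γ x.1 x.2 (F.compEl r j b d)).mulVec (v d)) ∧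
        ∀ v, ((X.nodeAct γ y.1 y.2
          (F.fEl r j * (F.fEl r j + MvPowerSeries.C (F.shiftEl j))) ^ B.expo).mulVec v) ∈
            LinearMap.range up := by
  rintro x y rfl rfl
  refine ⟨X.M.up j e, X.M.down j e, fun a v => X.M.up_act j e _ v,
    fun a v => X.M.down_act j e _ v, X.M.up_inj j e, X.M.down_surj j e, ?_, ?_⟩
  · intro v b
    have hsum : ∑ d, (X.nodeAct γ j.castSucc e (F.compEl r j b d)).mulVec (v d) =
        ((c.q j : CMod O r k) + 1) • v b +
          (X.nodeAct γ j.castSucc e (F.heckeEl r j)).mulVec (v (1 - b)) := by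
      fin_cases b
      · rw [Fin.sum_univ_two]
        simp only [Frame.compEl, Matrix.of_apply, Fin.zero_eta, if_true, zero_ne_one, if_false,
          sub_zero]
        rw [X.act_comp _ _ (F.heckeEl r j)]
      · rw [Fin.sum_univ_two]
        simp only [Frame.compEl, Matrix.of_apply, Fin.mk_one, if_true, one_ne_zero, if_false,
          sub_self]
        rw [X.act_comp _ _ (F.heckeEl r j), add_comm]
    rw [hsum, nodeAct_apply]
    by_cases hj : c.q j = p
    · obtain ⟨z', hz, hrel⟩ := X.root_rel j hj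
      have hV : (F.V (c.qP j)).LiesOverPrime p := by
        have := (F.frob (c.qP j)).1; rwa [Ctx.qP_val, hj] at this
      have hφ : (F.V (c.qP j)).IsFrobeniusAt (F.φ (c.qP j)) p := by
        have := (F.frob (c.qP j)).2; rwa [Ctx.qP_val, hj] at this
      rw [X.hecke_value_p hev j hj hz]
      have := (X.M.comp_p j e hj _ hV _ hφ _ z' hz hrel).1 v b
      simpa [hj] using this
    · rw [X.hecke_value hev j hj]
      exact X.M.comp j e hj _ (F.frob (c.qP j)).1 _ (F.frob (c.qP j)).2 v b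
  · intro v
    rw [nodeAct_apply, ← map_pow]
    by_cases hj : c.q j = p
    · obtain ⟨z', hz, hrel⟩ := X.root_rel j hj
      have hV : (F.V (c.qP j)).LiesOverPrime p := by
        have := (F.frob (c.qP j)).1; rwa [Ctx.qP_val, hj] at this
      have hφ : (F.V (c.qP j)).IsFrobeniusAt (F.φ (c.qP j)) p := by
        have := (F.frob (c.qP j)).2; rwa [Ctx.qP_val, hj] at this
      rw [X.old_value_p hev j hj, map_pow]
      exact (X.M.comp_p j e hj _ hV _ hφ _ z' hz hrel).2 v
    · rw [X.old_value hev j hj, map_pow]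
      simpa only [map_pow] using
        X.M.old_range j e hj _ (F.frob (c.qP j)).1 _ (F.frob (c.qP j)).2 v

theorem congr_aux (j : Fin (c.m + 1)) :
    ∀ x y : Fin (c.m + 1) × Bool, x = (j, false) → y = (j, true) →
      ∀ (h : B.d x.1 x.2 = B.d y.1 y.2) (a : Ser O (F.nv r)) (u w : Fin (B.d x.1 x.2)),
        X.nodeAct γ x.1 x.2 a u w - X.nodeAct γ y.1 y.2 a (Fin.cast h u) (Fin.cast h w) ∈
          (maximalIdeal O).map (algebraMap O (CMod O r k)) := by
  rintro x y rfl rfl h a u w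
  exact X.M.congr j _ u w

theorem fix_aux (hev : X.Evals γ) (i : Fin F.ng) :
    ∀ x : Fin (c.m + 1) × Bool, x = (Fin.last c.m, false) →
      ∀ a : Matrix (Fin (B.d x.1 x.2)) (Fin (B.d x.1 x.2)) O,
        HEq a (B.mat (Matrix.trace (B.R0.ρ (F.gen i) : M2 B.R0.R))) → ∀ u w,
        ∃ b : MvPowerSeries (Fin r) O,
          X.nodeAct γ x.1 x.2 (F.trEl r i) u w = Ideal.Quotient.mk _ b ∧
            MvPowerSeries.constantCoeff b - a u w ∈ maximalIdeal O ^ k := by
  rintro x rfl a ha u w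
  obtain rfl := eq_of_heq ha
  obtain ⟨b, hb1, hb2⟩ := X.M.base_last (X.π (γ (F.trEl r i))) u w
  refine ⟨b, hb1, ?_⟩
  rwa [ev_tr hev, X.trace_π, X.M.res_trace] at hb2

theorem exists_xi (hγ : Function.Surjective γ) (hpos : 0 < k) :
    ∃ ξ : Fin r → Ser O (F.nv r),
      (∀ i, ξ i ∈ maximalIdeal (Ser O (F.nv r))) ∧ (∀ i, X.pt (γ (ξ i)) = 0) ∧
      ∀ i, X.π (γ (ξ i)) = Matrix.trace (X.M.L.ρ (X.M.σq i) : M2 X.M.L.R) - 2 := by
  choose ξ hξ using fun i =>
    hγ (Matrix.trace (X.J.ρ (X.M.σq i) : M2 X.J.R) - 2)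
  have hq : ∀ i, ∃ (l : ℕ) (V : ValuationSubring (AlgebraicClosure ℚ)), l.Prime ∧ l ≠ p ∧
      l ∉ c.S0.bad ∧ V.LiesOverPrime l ∧ X.M.σq i ∈ V.inertiaSubgroupIn ℚ := fun i => by
    obtain ⟨q, hq, V, hV, hσ⟩ := X.M.σq_mem i
    have hb : (q : ℕ) ∉ c.S0.bad := fun h => X.Q_notMem q hq (c.mem_S.2 h)
    exact ⟨q, V, q.2, fun e => hb (e ▸ c.S0.p_mem), hb, hV, hσ⟩
  refine ⟨ξ, fun i => ?_, fun i => ?_, fun i => by rw [hξ, map_sub, X.trace_π, map_ofNat]⟩
  · obtain ⟨l, V, hl, hlp, hb, hV, hσ⟩ := hq i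
    intro hu
    refine (mem_maximalIdeal _).1 ((Gen.red_eq_zero_iff X.J.red _).2 ?_) (hu.map γ)
    have h1 : c.D.rb (X.M.σq i) = 1 :=
      c.D.unramified ⟨l, hl⟩ (fun h => hb (c.S0_bad _ h)) V hV _ hσ
    rw [hξ, map_sub, show X.J.red (Matrix.trace (X.J.ρ (X.M.σq i) : M2 X.J.R)) = _ from
      trace_map2 X.J.red.toRingHom _]
    simp only [AlgHom.toRingHom_eq_coe, RingHom.coe_coe, X.J.red_rho, h1, Units.val_one,
      Matrix.trace_one, Fintype.card_fin, Nat.cast_ofNat, map_ofNat, sub_self]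
  · obtain ⟨l, V, hl, hlp, hb, hV, hσ⟩ := hq i
    rw [hξ, map_sub, X.pt_trace, c.rO_trace_inertia hl hlp hV hσ, map_ofNat, sub_self]

include X in
/-- The level. -/
theorem nonempty_level (hTame : TargetTameRel) (hAux : TargetAuxUnramified)
    (hBd : BoundAt c Q r) : Nonempty ((F.shape r).Level k) := by
  classical
  obtain ⟨γ, hev, hγ, hγm⟩ := X.exists_presentation hTame hAux hBd
  obtain ⟨ξ, hξ1, hξ2, hξ3⟩ := X.exists_xi hγ X.k_pos
  choose up down hup hdown hinj hsurj hcomp hold using fun e =>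
    X.exists_pair hev (Frame.pd (c := c) e).1 (Frame.pd (c := c) e).2
      (Frame.nd (Frame.ni ((Frame.pd (c := c) e).1.castSucc, (Frame.pd (c := c) e).2)))
      (Frame.nd (Frame.ni ((Frame.pd (c := c) e).1.succ, (Frame.pd (c := c) e).2)))
      (Frame.nd_ni _) (Frame.nd_ni _)
  choose G hG using fun u : Fin (Fintype.card (Frame.VPat c)) =>
    X.exists_pattern_gen hTame hAux hBd hev hγ hγm
      ((Fintype.equivFin (Frame.VPat c)).symm u).1 ((Fintype.equivFin (Frame.VPat c)).symm u).2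
  exact ⟨
    { act := fun v => X.nodeAct γ (Frame.nd v).1 (Frame.nd v).2
      ξ := ξ
      ξ_mem := hξ1
      ξ_rel := fun j v => by
        refine pow_eq_zero_of_le B.expo_le ?_
        show (X.M.act _ _ (X.π (γ (ξ v))) - _) ^ _ = 0
        rw [hξ3]
        exact X.M.σq_act v _ _
      rel := fun v x hx => by
        show X.nodeAct γ _ _ x ^ B.expo = 0
        rw [← map_pow]
        exact X.nodeAct_eq_zero _ _ (by rw [map_pow]; exact rels_mem hev hTame (Frame.nd v) x hx)
      base := fun v x => X.M.base _ _ _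
      fix_spec := fun v xa hxa u w => by
        obtain ⟨hv, i, hi, ha⟩ := hxa
        have := X.fix_aux hev i (Frame.nd v) hv xa.2 ha u w
        rw [← hi] at this
        exact this
      up := up
      down := down
      up_act := hup
      down_act := hdown
      up_inj := hinj
      down_surj := hsurj
      comp_eq := hcomp
      old_range := fun e x hx v => by
        rw [Set.mem_singleton_iff.1 hx]
        exact hold e v
      congr := fun j a u w =>
        X.congr_aux j _ _ (Frame.nd_ni _) (Frame.nd_ni _) _ a u w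
      pt := (Ideal.Quotient.mkₐ O (maximalIdeal O ^ k)).comp (X.pt.comp γ)
      pt_ξ := fun j => by
        show Ideal.Quotient.mk _ (X.pt (γ (ξ j))) = 0
        rw [hξ2, map_zero]
      pt_fix := fun xc hxc => by
        obtain ⟨a, rfl⟩ := hxc
        show Ideal.Quotient.mk _ (X.pt (γ (F.var r a))) = _
        rw [hev, X.pt_val]
      gen := G
      gen_spec := fun u x => by
        obtain ⟨y, z, hz, hmem⟩ := hG u x
        refine ⟨y, z, hz, fun v hv => X.nodeAct_eq_zero _ _ ?_, fun hp => ?_⟩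
        · have hv' := (Finset.mem_filter.1 hv).2.1
          exact X.kr_le_kn _ _ (hv' ▸ hmem.1)
        · have h2 := hmem.2
          rw [show ((Fintype.equivFin (Frame.VPat c)).symm u).1.ptb = true from hp] at h2
          exact (congrArg (Ideal.Quotient.mk (maximalIdeal O ^ k))
            (RingHom.mem_ker.1 h2)).trans (map_zero _) }⟩

end Joined

end FLTAgent.ModLift.Final
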