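import Fermat.Agent.ModLift.Lift.Final.Nodes

/-!
# The point in the support of the last node gives modularity

The point is a character of the base algebra of the last node, which carries the Hecke algebra.
-/

set_option autoImplicit false
set_option linter.unusedSectionVars false

noncomputable section

open IsLocalRing

namespace FLTAgent.ModLift.Final

open FLTAgent.ModLift.Patch FLTAgent.TWPrimes

local notation "M2" => Matrix (Fin 2) (Fin 2)

variable {W : WeierstrassCurve ℤ} {hΔ : W.Δ ≠ 0} {p : ℕ} [Fact p.Prime] {O : Type} [CommRing O]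
  [IsDomain O] [IsDiscreteValuationRing O] [Algebra ℤ_[p] O] [Module.Finite ℤ_[p] O] [CharZero O]
  [IsAdicComplete (maximalIdeal O) O] [Finite (ResidueField O)]
  [Algebra (ZMod p) (ResidueField O)] {c : Ctx W hΔ p O} {B : Base c} {F : Frame c B} {r : ℕ}

/-- A point of the base of the last node gives modularity. -/
theorem modular_of_char (hMod : TargetModularOfChar) :
    ∀ x : Fin (c.m + 1) × Bool, x = (Fin.last c.m, false) →
    ∀ (act0 : Ser O (F.nv r) →ₐ[O] B.A0 x.1 x.2) (ψ : Ser O (F.nv r) →ₐ[O] O),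
      PtEvals F ψ → (∀ y, act0 y = 0 → ψ y = 0) →
      (∀ i, HEq (act0 (F.trEl r i) : Matrix (Fin (B.d x.1 x.2)) (Fin (B.d x.1 x.2)) O)
        (B.mat (Matrix.trace (B.R0.ρ (F.gen i) : M2 B.R0.R)))) →
      W.IsModularModelOfLevel (c.lev c.m) := by
  classical
  rintro x rfl act0 ψ hψ hker hgen
  obtain ⟨hN, f, hf⟩ := B.forms
  set μ : Ser O (F.nv r) →ₐ[O] Matrix (Fin (B.d (Fin.last c.m) false))
      (Fin (B.d (Fin.last c.m) false)) O := (B.A0 (Fin.last c.m) false).val.comp act0
  have hker' : ∀ y, μ y = 0 → ψ y = 0 := fun y hy => hker y (Subtype.ext hy)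
  let g : Fin F.ng → B.R0.R × O := fun i =>
    (Matrix.trace (B.R0.ρ (F.gen i) : M2 B.R0.R), Matrix.trace (c.rO (F.gen i) : M2 O))
  have hadj : ∀ a ∈ Algebra.adjoin O (Set.range g), ∃ y, μ y = B.mat a.1 ∧ ψ y = a.2 := by
    intro a ha
    induction ha using Algebra.adjoin_induction with
    | mem a ha =>
      obtain ⟨i, rfl⟩ := ha
      exact ⟨F.trEl r i, eq_of_heq (hgen i), pt_tr hψ i⟩
    | algebraMap o =>
      exact ⟨algebraMap O _ o, by rw [AlgHom.commutes]; exact (B.mat.commutes o).symm,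
        by rw [AlgHom.commutes]; rfl⟩
    | add a b _ _ ha hb =>
      obtain ⟨y, hy, hy'⟩ := ha
      obtain ⟨z, hz, hz'⟩ := hb
      exact ⟨y + z, by rw [map_add, hy, hz, ← map_add]; rfl, by rw [map_add, hy', hz']; rfl⟩
    | mul a b _ _ ha hb =>
      obtain ⟨y, hy, hy'⟩ := ha
      obtain ⟨z, hz, hz'⟩ := hb
      exact ⟨y * z, by rw [map_mul, hy, hz, ← map_mul]; rfl, by rw [map_mul, hy', hz']; rfl⟩
  have hrange : ∀ a : CuspForm.heckeAlgebra (c.lev c.m) 2 (↑c.S0.bad : Set ℕ),
      ∃ y, f a = μ y := by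
    intro a
    obtain ⟨a, ha⟩ := a
    induction ha using Algebra.adjoin_induction with
    | mem a ha =>
      rcases ha with ⟨l, hl, hlN, hlb, rfl⟩ | ⟨q, hqN, hq, hqb, rfl⟩
      · obtain ⟨V, hV⟩ := Frobenius.exists_liesOverPrime l hl
        obtain ⟨φ, hφ⟩ := Frobenius.exists_isFrobeniusAt V l hl hV
        obtain ⟨y, hy, -⟩ := hadj _ (F.gen_adjoin φ)
        exact ⟨y, (hf l hl hlN hlb V hV φ hφ).trans hy.symm⟩
      · exact absurd (c.lev_mem_bad hq le_rfl hqN) hqb
    | algebraMap n =>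
      refine ⟨(n : Ser O (F.nv r)), ?_⟩
      rw [map_intCast]
      refine Eq.trans ?_ (map_intCast f n)
      rfl
    | add a b ha hb iha ihb =>
      obtain ⟨y, hy⟩ := iha
      obtain ⟨z, hz⟩ := ihb
      exact ⟨y + z, by rw [map_add, ← hy, ← hz, ← map_add]; rfl⟩
    | mul a b ha hb iha ihb =>
      obtain ⟨y, hy⟩ := iha
      obtain ⟨z, hz⟩ := ihb
      exact ⟨y * z, by rw [map_mul, ← hy, ← hz, ← map_mul]; rfl⟩
  choose pre hpre using hrange
  have hwd : ∀ a y, f a = μ y → ψ (pre a) = ψ y := fun a y h => by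
    rw [← sub_eq_zero, ← map_sub]
    exact hker' _ (by rw [map_sub, ← hpre, h, sub_self])
  let θ : CuspForm.heckeAlgebra (c.lev c.m) 2 (↑c.S0.bad : Set ℕ) →+* FractionRing O :=
    (algebraMap O (FractionRing O)).comp
      { toFun := fun a => ψ (pre a)
        map_one' := (hwd 1 1 (by rw [map_one, map_one])).trans (map_one ψ)
        map_mul' := fun a b =>
          (hwd (a * b) (pre a * pre b) (by rw [map_mul, map_mul, ← hpre, ← hpre])).trans (map_mul ψ _ _)
        map_zero' := (hwd 0 0 (by rw [map_zero, map_zero])).trans (map_zero ψ)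
        map_add' := fun a b =>
          (hwd (a + b) (pre a + pre b) (by rw [map_add, map_add, ← hpre, ← hpre])).trans (map_add ψ _ _) }
  haveI : CharZero (FractionRing O) :=
    charZero_of_injective_algebraMap (IsFractionRing.injective O (FractionRing O))
  refine hMod W hΔ (c.lev c.m) c.S0.bad (fun l hl hd => c.lev_mem_bad hl le_rfl hd) _ θ ?_
  intro l hl hlN hlb hgood
  obtain ⟨V, hV⟩ := Frobenius.exists_liesOverPrime l hl
  obtain ⟨φ, hφ⟩ := Frobenius.exists_isFrobeniusAt V l hl hV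
  have hlp : l ≠ p := fun e => hlb (e ▸ c.S0.p_mem)
  obtain ⟨y, hy, hy'⟩ := hadj _ (F.gen_adjoin φ)
  show algebraMap O (FractionRing O) (ψ (pre _)) = _
  rw [hwd _ y ((hf l hl hlN hlb V hV φ hφ).trans hy.symm), hy', c.trace_rO,
    c.curve.trace_frob l hl hlp hgood V hV φ hφ, map_intCast, map_intCast]

/-- The point in the support of the last node gives modularity. -/
theorem modular_of_inSupp (hMod : TargetModularOfChar) (Lim : (F.shape r).Limit)
    (hsupp : (limNode Lim (Fin.last c.m) false).InSupp (RingHom.ker Lim.pt)) :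
    W.IsModularModelOfLevel (c.lev c.m) := by
  obtain ⟨act0, hact⟩ := Lim.base (Frame.ni (c := c) (Fin.last c.m, false))
  have hψ : PtEvals F Lim.pt := fun a => Lim.pt_fix _ ⟨a, rfl⟩
  refine modular_of_char hMod (Frame.nd (Frame.ni (c := c) (Fin.last c.m, false))) (Frame.nd_ni _)
    act0 Lim.pt hψ (Lim.char _ hsupp act0 hact) fun i => ?_
  have aux : ∀ (z : Fin (c.m + 1) × Bool), z = (Fin.last c.m, false) →
      ∃ a : Matrix (Fin (B.d z.1 z.2)) (Fin (B.d z.1 z.2)) O,
        HEq a (B.mat (Matrix.trace (B.R0.ρ (F.gen i) : M2 B.R0.R))) := by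
    rintro z rfl
    exact ⟨_, HEq.rfl⟩
  obtain ⟨a, ha⟩ := aux _ (Frame.nd_ni (Fin.last c.m, false))
  have h : (act0 (F.trEl r i)).1 = a := Matrix.ext fun u w => by
    rw [← hact]
    exact Lim.fix_spec _ (F.trEl r i, a) ⟨Frame.nd_ni _, i, rfl, ha⟩ u w
  exact (heq_of_eq h).trans ha

end FLTAgent.ModLift.Final
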