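import Fermat.Agent.ModLift.Lift.Final.Input
import Fermat.Agent.ModLift.Lift.Final.Level
import Fermat.Agent.ModLift.Lift.Final.Modular
import Fermat.Agent.S58

/-!
# The lifting theorem from its packages

Patch the levels of the auxiliary primes, show that the point of the curve lies in the support of
the last node, read off modularity there and move to the conductor.
-/

set_option autoImplicit false
set_option linter.unusedSectionVars false

noncomputable section

open IsLocalRing

namespace FLTAgent.ModLift.Final

open FLTAgent.ModLift.Patch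

variable {W : WeierstrassCurve ℤ} {hΔ : W.Δ ≠ 0} {p : ℕ} [Fact p.Prime] {O : Type} [CommRing O]
  [IsDomain O] [IsDiscreteValuationRing O] [Algebra ℤ_[p] O] [Module.Finite ℤ_[p] O] [CharZero O]
  [IsAdicComplete (maximalIdeal O) O] [Finite (ResidueField O)]
  [Algebra (ZMod p) (ResidueField O)]

/-- The curve is modular at the last level of the chain. -/
theorem modular_lev (hMod : TargetModularOfChar) (hMats : TargetMats) (hJoin : TargetJoin)
    (hTame : TargetTameRel) (hChoice : TargetCharChoice) (hAux : TargetAuxUnramified)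
    (hRoot : TargetUnitRoot) (hBound : TargetPatternBound) (hLimit : TargetLimit)
    (hPlane : TargetPlane) (hSpecial : TargetSpecial) (c : Ctx W hΔ p O) :
    W.IsModularModelOfLevel (c.lev c.m) := by
  obtain ⟨B, hB⟩ := hMats W hΔ p O c
  obtain ⟨F⟩ := exists_frame hChoice c B
  obtain ⟨r, hr, hQ⟩ := exists_bound hBound c (3 * c.S0.T.card + 2)
  have hlev : ∀ k, 0 < k → Nonempty ((F.shape r).Level k) := by
    intro k hk
    obtain ⟨Q, hQc, hQp, hBd⟩ := hQ k
    obtain ⟨M⟩ := hB r k k hk le_rfl Q hQc fun q hq => hQp q hq
    obtain ⟨X⟩ := exists_joined hJoin hRoot F M hk fun q hq => (hQp q hq).1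
    exact X.nonempty_level hTame hAux hBd
  obtain ⟨Lim⟩ := hLimit O (F.shape r) hlev
  obtain ⟨D, hpt, hnode⟩ := exists_input Lim hTame hSpecial hr
  have h := D.inSupp hPlane c.two_ne
  rw [hnode, hpt] at h
  exact modular_of_inSupp hMod Lim h

end FLTAgent.ModLift.Final

namespace FLTAgent.ModLift

open FLTAgent.ModLift.Patch

/-- The lifting theorem from its packages. -/
theorem targetLift_of (hCtx : TargetCtx) (hPoint : TargetCurvePoint) (hMod : TargetModularOfChar)
    (hMats : TargetMats) (hJoin : TargetJoin) (hTame : TargetTameRel)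
    (hChoice : TargetCharChoice) (hAux : TargetAuxUnramified) (hRoot : TargetUnitRoot)
    (hBound : TargetPatternBound) (hLimit : TargetLimit) (hPlane : TargetPlane)
    (hSpecial : TargetSpecial) : TargetLift := by
  intro p _ hp35 W hΔ hss hirr M hM hres hatp hkeep
  obtain ⟨O, _, _, _, _, _, _, _, _, _, ⟨c⟩⟩ :=
    hCtx p hp35 W hΔ hss hirr M hM hres hatp hkeep hPoint
  have hsq : Squarefree (c.lev c.m) := c.sqfree
  refine Fermat.Agent.S58.result W hss (c.lev c.m) p (by rcases hp35 with rfl | rfl <;> norm_num)
    hirr (fun h => ?_) ?_ (fun l hl hd => c.cover l hl hd) (fun q hq h => ?_)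
  · exact (Fact.out : p.Prime).not_isUnit (hsq p (by rwa [← sq]))
  · exact Final.modular_lev hMod hMats hJoin hTame hChoice hAux hRoot hBound hLimit hPlane
      hSpecial c
  · exact hq.not_isUnit (hsq q (dvd_trans ⟨q, by ring⟩ h))

end FLTAgent.ModLift
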