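import Fermat.Agent.ModLift.Lift.Final.Point
import Fermat.Agent.ModLift.Lift.Algebra

/-!
# The patched nodes

What the limit gives at a prime of the support of a node: the relations, the three possibilities
at an auxiliary step, the dichotomy of a pair, and the numbers of generators of the patterns.
-/

set_option autoImplicit false
set_option linter.unusedSectionVars false

noncomputable section

open IsLocalRing

namespace FLTAgent.ModLift.Final

open FLTAgent.ModLift.Patch FLTAgent.TWPrimes FLTAgent.Lowering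

local notation "M2" => Matrix (Fin 2) (Fin 2)

variable {W : WeierstrassCurve ℤ} {hΔ : W.Δ ≠ 0} {p : ℕ} [Fact p.Prime] {O : Type} [CommRing O]
  [IsDomain O] [IsDiscreteValuationRing O] [Algebra ℤ_[p] O] [Module.Finite ℤ_[p] O] [CharZero O]
  [IsAdicComplete (maximalIdeal O) O] [Finite (ResidueField O)]
  [Algebra (ZMod p) (ResidueField O)] {c : Ctx W hΔ p O} {B : Base c} {F : Frame c B} {r : ℕ}
  (Lim : (F.shape r).Limit)

/-- The step, cut off at the last one. -/
def stp (c : Ctx W hΔ p O) (j : ℕ) : Fin (c.m + 1) :=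
  ⟨min j c.m, Nat.lt_succ_of_le (min_le_right _ _)⟩

theorem stp_val {j : ℕ} (hj : j ≤ c.m) : ((stp c j : Fin (c.m + 1)) : ℕ) = j := min_eq_left hj

theorem stp_castSucc (j : Fin c.m) : stp c j = j.castSucc :=
  Fin.ext (stp_val (c := c) j.2.le)

theorem stp_succ (j : Fin c.m) : stp c ((j : ℕ) + 1) = j.succ :=
  Fin.ext (stp_val (c := c) j.2)

/-- The node after `i` steps. -/
def limNode (i : Fin (c.m + 1)) (e : Bool) : Patched O (F.nv r) r :=
  Lim.node (Frame.ni (c := c) (i, e))

theorem rel_nilpotent (i : Fin (c.m + 1)) (e : Bool) {x : Ser O (F.nv r)}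
    (hx : x ∈ F.nodeRels r (i, e)) : IsNilpotent ((limNode Lim i e).act x) :=
  Lim.rel _ x (show x ∈ F.nodeRels r (Frame.nd (Frame.ni (c := c) (i, e))) by
    rw [Frame.nd_ni]; exact hx)

theorem rel_mem {i : Fin (c.m + 1)} {e : Bool} {Q : Ideal (Ser O (F.nv r))} (hQ : Q.IsPrime)
    (hker : RingHom.ker (limNode Lim i e).act ≤ Q) {x : Ser O (F.nv r)}
    (hx : x ∈ F.nodeRels r (i, e)) : x ∈ Q :=
  Lift.mem_of_nilpotent hQ hker (rel_nilpotent Lim i e hx)

theorem fEl_eq (F : Frame c B) {j : Fin c.m} (hj : c.q j ≠ p) : F.fEl r j =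
    Matrix.trace (F.frobEl r j) - MvPowerSeries.C (F.ε j * ((c.q j : O) + 1)) := by
  rw [Frame.fEl, if_neg hj, ← F.ε_trace j hj, Matrix.trace_fin_two, Matrix.trace_fin_two, map_add]
  simp only [Frame.frobEl, Matrix.of_apply]
  ring

/-- The three possibilities at a step in the level. -/
theorem split_tame {i : Fin (c.m + 1)} {e : Bool} {Q : Ideal (Ser O (F.nv r))} (hQ : Q.IsPrime)
    (hker : RingHom.ker (limNode Lim i e).act ≤ Q) {z : Fin c.m} (hz : (z : ℕ) < i)
    (hzp : c.q z ≠ p) :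
    (∀ u w, F.inerEl r z u w ∈ Q) ∨ (∀ x ∈ F.stEl r z, x ∈ Q) ∨
      (F.fEl r z + MvPowerSeries.C (F.shiftEl z) ∈ Q ∧
        ∀ P : Ideal (Ser O (F.nv r)), P.IsPrime → Q ≤ P → (∀ x ∈ F.stEl r z, x ∈ P) →
          ∀ u w, F.inerEl r z u w ∈ P) := by
  classical
  haveI := hQ
  set mk := Ideal.Quotient.mk Q
  have hmem : ∀ {x}, x ∈ F.tameRels r z ((z : ℕ) < i) → mk x = 0 := fun {x} hx =>
    Ideal.Quotient.eq_zero_iff_mem.2 (rel_mem Lim hQ hker (Or.inl ⟨z, hzp, hx⟩))
  set Φ : M2 (Ser O (F.nv r) ⧸ Q) := mk.mapMatrix (F.frobEl r z)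
  set S : M2 (Ser O (F.nv r) ⧸ Q) := mk.mapMatrix (1 + F.inerEl r z)
  have hrel : Φ * S = S ^ c.q z * Φ := by
    rw [← sub_eq_zero, ← map_mul, ← map_pow, ← map_mul, ← map_sub]
    exact Matrix.ext fun a b => hmem (Or.inl ⟨a, b, rfl⟩)
  have hdS : S.det = 1 := by
    rw [← RingHom.map_det, ← sub_eq_zero, ← map_one mk, ← map_sub]
    exact hmem (Or.inr (Or.inl rfl))
  have hdΦ : Φ.det = (c.q z : Ser O (F.nv r) ⧸ Q) := by
    rw [← RingHom.map_det, ← map_natCast mk, ← sub_eq_zero, ← map_sub,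
      show (c.q z : Ser O (F.nv r)) = MvPowerSeries.C (c.q z : O) from (map_natCast _ _).symm]
    exact hmem (Or.inr (Or.inr (Or.inl rfl)))
  have htr : S.trace = 2 := by
    rw [show S.trace = mk (Matrix.trace (1 + F.inerEl r z)) from
      (AddMonoidHom.map_trace mk.toAddMonoidHom _).symm, ← sub_eq_zero, ← map_ofNat mk, ← map_sub]
    exact hmem (Or.inr (Or.inr (Or.inr ⟨hz, rfl⟩)))
  have hu : IsUnit ((c.q z : Ser O (F.nv r) ⧸ Q)) := by
    have h := ((c.isUnit_natCast (c.q_prime z z.2) hzp).map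
      (MvPowerSeries.C : O →+* Ser O (F.nv r))).map mk
    rwa [map_natCast, map_natCast] at h
  set ε' : Ser O (F.nv r) ⧸ Q := mk (MvPowerSeries.C (F.ε z))
  have hε : ε' ^ 2 = 1 := by rw [← map_pow, ← map_pow, F.ε_sq, map_one, map_one]
  have hN : S - 1 = mk.mapMatrix (F.inerEl r z) := by
    simp only [S, map_add, map_one, add_sub_cancel_left]
  have hCq : mk (MvPowerSeries.C (F.ε z * (c.q z : O))) = ε' * (c.q z : Ser O (F.nv r) ⧸ Q) := by
    rw [map_mul, map_mul, map_natCast, map_natCast]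
  have hsm : ∀ (M : M2 (Ser O (F.nv r))) (a : Ser O (F.nv r)),
      mk.mapMatrix (M - a • 1) = mk.mapMatrix M - mk a • 1 := fun M a => by
    rw [map_sub, RingHom.mapMatrix_apply, RingHom.mapMatrix_apply]
    congr 1
    ext u w
    by_cases h : u = w
    · subst h; simp
    · simp [Matrix.one_apply_ne h]
  rcases split_domain hε hu.ne_zero htr hdS hdΦ hrel with h | ⟨h, hL, hR⟩ | ⟨h, hR⟩
  · refine Or.inl fun u w => Ideal.Quotient.eq_zero_iff_mem.1 ?_
    show mk.mapMatrix (F.inerEl r z) u w = 0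
    rw [← hN, h, sub_self, Matrix.zero_apply]
  · refine Or.inr (Or.inl fun x hx => Ideal.Quotient.eq_zero_iff_mem.1 ?_)
    rw [Frame.stEl, if_neg hzp] at hx
    rcases Finset.mem_insert.1 hx with rfl | hx
    · rw [fEl_eq F hzp, map_sub, map_mul, map_mul, map_add, map_add, map_one, map_natCast,
        map_natCast, map_one, show mk (Matrix.trace (F.frobEl r z)) = Φ.trace from
          AddMonoidHom.map_trace mk.toAddMonoidHom _, h, sub_self]
    · rcases Finset.mem_union.1 hx with hx | hx <;>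
        obtain ⟨⟨u, w⟩, -, rfl⟩ := Finset.mem_image.1 hx <;>
        show mk.mapMatrix _ u w = 0 <;>
        rw [map_mul, hsm, ← hN]
      · rw [hCq]
        exact congrFun (congrFun hL u) w
      · exact congrFun (congrFun hR u) w
  · refine Or.inr (Or.inr ⟨Ideal.Quotient.eq_zero_iff_mem.1 ?_, fun P hP hQP hst u w => ?_⟩)
    · rw [fEl_eq F hzp, Frame.shiftEl, if_neg hzp]
      simp only [map_sub, map_add, map_mul, map_natCast, map_one, map_ofNat]
      rw [show mk (Matrix.trace (F.frobEl r z)) = Φ.trace from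
          AddMonoidHom.map_trace mk.toAddMonoidHom _, h]
      ring
    · have h1 : (F.inerEl r z * (F.frobEl r z +
          (MvPowerSeries.C (F.ε z) : Ser O (F.nv r)) • 1)) u w ∈ P := by
        refine hQP (Ideal.Quotient.eq_zero_iff_mem.1 ?_)
        show mk.mapMatrix _ u w = 0
        rw [map_mul, show F.frobEl r z + (MvPowerSeries.C (F.ε z) : Ser O (F.nv r)) • 1 =
          F.frobEl r z - (-(MvPowerSeries.C (F.ε z)) : Ser O (F.nv r)) • 1 by
            rw [neg_smul, sub_neg_eq_add], hsm, ← hN, map_neg, neg_smul, sub_neg_eq_add]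
        exact congrFun (congrFun hR u) w
      have h2 : (F.inerEl r z * (F.frobEl r z -
          (MvPowerSeries.C (F.ε z) : Ser O (F.nv r)) • 1)) u w ∈ P := hst _ (by
        rw [Frame.stEl, if_neg hzp]
        exact Finset.mem_insert_of_mem (Finset.mem_union_right _
          (Finset.mem_image.2 ⟨(u, w), Finset.mem_univ _, rfl⟩)))
      have h3 := sub_mem h1 h2
      rw [← Matrix.sub_apply, ← mul_sub, add_sub_sub_cancel, ← add_smul, mul_smul_comm, mul_one,
        Matrix.smul_apply, smul_eq_mul, ← map_add] at h3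
      refine (hP.mem_or_mem h3).resolve_left fun h' => hP.ne_top ?_
      refine Ideal.eq_top_of_isUnit_mem _ h' ?_
      refine IsUnit.map _ ?_
      rw [← two_mul]
      exact c.two_unit.mul (IsUnit.of_mul_eq_one _ ((sq (F.ε z)).symm.trans (F.ε_sq z)))

/-- The pairs with their composites. -/
theorem exists_limPair (j : Fin c.m) (e : Bool) :
    ∃ D : Pair (limNode Lim j.castSucc e) (limNode Lim j.succ e),
      D.A = F.compEl r j ∧
      ∃ l : ℕ, ∀ v, (((limNode Lim j.succ e).act
        (F.fEl r j * (F.fEl r j + MvPowerSeries.C (F.shiftEl j))) ^ l).mulVec v) ∈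
          LinearMap.range D.i := by
  have key : ∀ (u : Fin (F.shape r).pairs) (v w : Fin (F.shape r).nodes),
      (F.shape r).src u = v → (F.shape r).tgt u = w →
      ∀ x ∈ (F.shape r).old u,
      ∃ D : Pair (Lim.node v) (Lim.node w), D.A = (F.shape r).comp u ∧
        ∃ l : ℕ, ∀ y, (((Lim.node w).act x ^ l).mulVec y) ∈ LinearMap.range D.i := by
    rintro u v w rfl rfl x hx
    exact ⟨Lim.pair u, Lim.pair_A u, Lim.old_range u x hx⟩
  have hpd : Frame.pd (c := c) (Fintype.equivFin (Fin c.m × Bool) (j, e)) = (j, e) :=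
    Equiv.symm_apply_apply _ _
  obtain ⟨D, hA, hl⟩ := key (Fintype.equivFin (Fin c.m × Bool) (j, e))
    (Frame.ni (c := c) (j.castSucc, e)) (Frame.ni (c := c) (j.succ, e))
    (show Frame.ni _ = _ by rw [hpd]) (show Frame.ni _ = _ by rw [hpd])
    (F.fEl r j * (F.fEl r j + MvPowerSeries.C (F.shiftEl j)))
    (show _ ∈ ({F.fEl r _ * _} : Set (Ser O (F.nv r))) by rw [hpd]; exact rfl)
  refine ⟨D, ?_, hl⟩
  rw [hA]
  show F.compEl r _ = _
  rw [hpd]

/-- A prime of the support of the upper node is in the new part or in the lower support. -/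
theorem old_or_lower {n s : ℕ} {M N : Patched O n s} (D : Pair M N) {x : Ser O n} {l : ℕ}
    (hx : ∀ v, ((N.act x ^ l).mulVec v) ∈ LinearMap.range D.i) {Q : Ideal (Ser O n)}
    (hQ : Q.IsPrime) (hker : RingHom.ker N.act ≤ Q) : x ∈ Q ∨ RingHom.ker M.act ≤ Q := by
  by_cases hxQ : x ∈ Q
  · exact Or.inl hxQ
  refine Or.inr fun y hy => ?_
  have h : N.act (y * x ^ l) = 0 := by
    rw [← Matrix.toLin'.map_eq_zero_iff]
    refine LinearMap.ext fun v => ?_
    obtain ⟨w, hw⟩ := hx v
    rw [Matrix.toLin'_apply, map_mul, map_pow, ← Matrix.mulVec_mulVec, ← hw, ← D.i_act,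
      LinearMap.zero_apply]
    rw [show (fun b => (M.act y).mulVec (w b)) = 0 from funext fun b => by
      rw [RingHom.mem_ker.1 hy, Matrix.zero_mulVec]; rfl, map_zero]
  rcases hQ.mem_or_mem (hker h) with h' | h'
  · exact h'
  · exact absurd (hQ.mem_of_pow_mem l h') hxQ

theorem det_comp (F : Frame c B) (j : Fin c.m) :
    (F.compEl r j).det ∈ Ideal.span {F.fEl r j} := by
  rw [Matrix.det_fin_two]
  simp only [Frame.compEl, Matrix.of_apply, if_true, zero_ne_one, one_ne_zero, if_false]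
  rw [Ideal.mem_span_singleton]
  have hε : (MvPowerSeries.C (F.ε j) : Ser O (F.nv r)) ^ 2 = 1 := by
    rw [← map_pow, F.ε_sq, map_one]
  by_cases hj : c.q j = p
  · rw [Frame.heckeEl, if_pos hj, Frame.fEl, if_pos hj, map_natCast]
    set z := F.rootEl r j with hz
    set i := Ring.inverse z
    set E : Ser O (F.nv r) := MvPowerSeries.C (F.ε j)
    have hu : IsUnit z := by
      rw [hz, MvPowerSeries.isUnit_iff_constantCoeff]
      show IsUnit (MvPowerSeries.constantCoeff (F.var r .root + MvPowerSeries.C (F.ε j)))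
      rw [map_add, Frame.var, MvPowerSeries.constantCoeff_X, MvPowerSeries.constantCoeff_C,
        zero_add]
      exact IsUnit.of_mul_eq_one _ ((sq (F.ε j)).symm.trans (F.ε_sq j))
    have hzi : z * i = 1 := Ring.mul_inverse_cancel z hu
    have hX : z = F.var r .root + E := hz
    rw [hj]
    refine ⟨-((1 - (p : Ser O (F.nv r)) * E * i) *
      (z + (p : Ser O (F.nv r)) * i + E * ((p : Ser O (F.nv r)) + 1))), ?_⟩
    linear_combination (-((p : Ser O (F.nv r)) + 1) ^ 2 +
        (p : Ser O (F.nv r)) * i * (z + (p : Ser O (F.nv r)) * i + E * ((p : Ser O (F.nv r)) + 1)))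
        * hε -
      ((p : Ser O (F.nv r)) * E * (z + (p : Ser O (F.nv r)) * i + E * ((p : Ser O (F.nv r)) + 1)))
        * hzi -
      ((1 - (p : Ser O (F.nv r)) * E * i) *
        (z + (p : Ser O (F.nv r)) * i + E * ((p : Ser O (F.nv r)) + 1))) * hX
  · rw [Frame.heckeEl, if_neg hj]
    refine ⟨-(Matrix.trace (F.frobEl r j) + MvPowerSeries.C (F.ε j) * ((c.q j : Ser O (F.nv r)) + 1)),
      ?_⟩
    have h := fEl_eq (r := r) F hj
    rw [map_mul, map_add, map_one, map_natCast] at h
    linear_combination (Matrix.trace (F.frobEl r j) +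
        MvPowerSeries.C (F.ε j) * ((c.q j : Ser O (F.nv r)) + 1)) * h -
      ((c.q j : Ser O (F.nv r)) + 1) ^ 2 * hε

open scoped Classical in
/-- The generators of a pattern of the limit. -/
theorem genPat (P : Pat c.m) (hP : P.Valid c) {g : ℕ} (hg : r ≤ g + P.excess c)
    {I : Ideal (Ser O (F.nv r))}
    (hI : ∀ x, (limNode Lim P.node false).act x = 0 →
      (P.both = true → (limNode Lim P.node true).act x = 0) →
      (P.ptb = true → Lim.pt x = 0) → x ∈ I)
    (hE : ∀ x ∈ F.patEl r P, x ∈ I) : GenBound g I := by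
  have h := Lim.gen (Fintype.equivFin (Frame.VPat c) ⟨P, hP⟩)
  have hP' : ((Fintype.equivFin (Frame.VPat c)).symm (Fintype.equivFin (Frame.VPat c) ⟨P, hP⟩)).1 =
      P := by rw [Equiv.symm_apply_apply]
  have hgen : (F.shape r).patGens (Fintype.equivFin (Frame.VPat c) ⟨P, hP⟩) ≤ g := by
    show r - Pat.excess c _ ≤ g
    rw [hP']
    omega
  refine Lift.genBound_mono hgen (Lift.genBound_le (sup_le (fun x hx => ?_) ?_) h)
  · obtain ⟨h1, h2⟩ := hx
    simp only [SetLike.mem_coe, Submodule.mem_iInf, RingHom.mem_ker] at h1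
    refine hI x (h1 _ ?_) (fun hb => h1 _ ?_) fun hp => ?_
    · show _ ∈ Finset.univ.filter _
      simp [hP', Frame.nd_ni]
    · show _ ∈ Finset.univ.filter _
      simp [hP', Frame.nd_ni, hb]
    · have hp' : (F.shape r).patPoint (Fintype.equivFin (Frame.VPat c) ⟨P, hP⟩) = true := by
        show Pat.ptb _ = true
        rw [hP', hp]
      rw [hp'] at h2
      simpa using h2
  · refine Ideal.span_le.2 fun x hx => hE x ?_
    have hx' : x ∈ F.patEl r ((Fintype.equivFin (Frame.VPat c)).symm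
      (Fintype.equivFin (Frame.VPat c) ⟨P, hP⟩)).1 := hx
    rwa [hP'] at hx'

end FLTAgent.ModLift.Final
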