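import Fermat.Agent.ModLift.Lift.Final.Presentation

/-!
# The generators of the patterns at a level
-/

set_option autoImplicit false
set_option linter.unusedSectionVars false
set_option linter.style.haveILetI false

noncomputable section

open IsLocalRing

namespace FLTAgent.ModLift.Final

open FLTAgent.ModLift.Patch FLTAgent.TWPrimes FLTAgent.Lowering

local notation "M2" => Matrix (Fin 2) (Fin 2)

variable {W : WeierstrassCurve ℤ} {hΔ : W.Δ ≠ 0} {p : ℕ} [Fact p.Prime] {O : Type} [CommRing O]
  [IsDomain O] [IsDiscreteValuationRing O] [Algebra ℤ_[p] O] [Module.Finite ℤ_[p] O] [CharZero O]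
  [IsAdicComplete (maximalIdeal O) O] [Finite (ResidueField O)]
  [Algebra (ZMod p) (ResidueField O)] {c : Ctx W hΔ p O} {B : Base c} {F : Frame c B}
  {Q : Finset Nat.Primes} {r k : ℕ}

theorem mem_entries {A : Type} [DecidableEq A] (M : M2 A) (u w : Fin 2) :
    M u w ∈ Frame.entries M :=
  Finset.mem_image.2 ⟨(u, w), Finset.mem_univ _, rfl⟩

theorem of_mem_entries {A : Type} [DecidableEq A] {M : M2 A} {x : A}
    (h : x ∈ Frame.entries M) : ∃ u w, x = M u w := by
  obtain ⟨⟨u, w⟩, -, rfl⟩ := Finset.mem_image.1 h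
  exact ⟨u, w, rfl⟩

theorem var_mem_max (F : Frame c B) (a : NVar c.S0.T.card c.m F.ng) :
    F.var r a ∈ maximalIdeal (Ser O (F.nv r)) :=
  X_mem_max _

theorem fEl_mem_max (F : Frame c B) (z : Fin c.m) :
    F.fEl r z ∈ maximalIdeal (Ser O (F.nv r)) := by
  rw [Frame.fEl]
  split_ifs
  · exact var_mem_max F _
  · exact add_mem (var_mem_max F _) (var_mem_max F _)

theorem stEl_mem_max (F : Frame c B) (z : Fin c.m) :
    ∀ x ∈ F.stEl r z, x ∈ maximalIdeal (Ser O (F.nv r)) := by
  classical
  intro x hx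
  rw [Frame.stEl] at hx
  split_ifs at hx
  · rw [Finset.mem_singleton.1 hx]
    exact fEl_mem_max F z
  · rcases Finset.mem_insert.1 hx with rfl | hx
    · exact fEl_mem_max F z
    · rcases Finset.mem_union.1 hx with hx | hx <;> obtain ⟨u, w, rfl⟩ := of_mem_entries hx <;>
        rw [Matrix.mul_apply] <;> refine Ideal.sum_mem _ fun v _ => ?_
      · exact Ideal.mul_mem_left _ _ (var_mem_max F _)
      · exact Ideal.mul_mem_right _ _ (var_mem_max F _)

theorem patEl_mem_max (F : Frame c B) (P : Pat c.m) :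
    ∀ x ∈ F.patEl r P, x ∈ maximalIdeal (Ser O (F.nv r)) := by
  classical
  intro x hx
  rw [Frame.patEl, Finset.mem_union, Finset.mem_union, Finset.mem_union, Finset.mem_union] at hx
  rcases hx with (((hx | hx) | hx) | hx) | hx
  · obtain ⟨v, -, rfl⟩ := Finset.mem_image.1 hx
    exact X_mem_max _
  · split_ifs at hx
    · obtain ⟨v, -, rfl⟩ := Finset.mem_image.1 hx
      exact X_mem_max _
    · exact absurd hx (Finset.notMem_empty _)
  · obtain ⟨z, -, hz⟩ := Finset.mem_biUnion.1 hx
    exact stEl_mem_max F z x hz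
  · cases h : P.fi with
    | none => simp [h] at hx
    | some z =>
      simp only [h, Option.elim, Finset.mem_singleton] at hx
      subst hx
      exact fEl_mem_max F z
  · cases h : P.uz with
    | none => simp [h] at hx
    | some z =>
      simp only [h, Option.elim] at hx
      obtain ⟨u, w, rfl⟩ := of_mem_entries hx
      exact var_mem_max F _

namespace Joined

variable (X : Joined F Q r k)

/-- The generators of a pattern lift to the power series ring. -/
theorem exists_pattern_gen (hTame : TargetTameRel) (hAux : TargetAuxUnramified)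
    (hBd : BoundAt c Q r) {γ : Ser O (F.nv r) →ₐ[O] X.J.R} (hev : X.Evals γ)
    (hγ : Function.Surjective γ) (hγm : ∀ v, γ (MvPowerSeries.X v) ∈ maximalIdeal X.J.R)
    (P : Pat c.m) (hP : P.Valid c) :
    ∃ G : Ser O (r - P.excess c) →ₐ[O] Ser O (F.nv r), ∀ x, ∃ y,
      ∃ z ∈ Ideal.span (F.patEl r P : Set (Ser O (F.nv r))),
        γ (x - G y - z) ∈ X.patIdeal P.node P.ptb := by
  classical
  obtain ⟨hV1, hV2, hV3⟩ := hP
  haveI := X.J.finite_R
  haveI := X.J.isAdicComplete_R c.p_mem
  haveI : IsNoetherianRing X.J.R := IsNoetherianRing.of_finite O X.J.R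
  set S := (Ideal.span (F.patEl r P : Set (Ser O (F.nv r)))).map γ.toRingHom
  have hmem : ∀ {x}, x ∈ F.patEl r P → γ x ∈ S := fun {x} hx =>
    Ideal.mem_map_of_mem γ.toRingHom (Ideal.subset_span hx)
  have hsplit : ∀ {x}, x ∈ (Finset.univ.filter fun z : Fin c.m => (z : ℕ) < P.upto).biUnion
      (F.stEl r) → x ∈ F.patEl r P := fun {x} hx => by
    simp only [Frame.patEl, Finset.mem_union]; tauto
  have hst : ∀ z : Fin c.m, (z : ℕ) < P.upto → ∀ x ∈ F.stEl r z, γ x ∈ S := fun z hz x hx =>
    hmem (hsplit (Finset.mem_biUnion.2 ⟨z, by simp [hz], hx⟩))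
  have hFS : ∀ z, P.InF c z → γ (F.fEl r z) ∈ S := by
    rintro z (hz | hz)
    · refine hst z hz _ ?_
      rw [Frame.stEl]
      split_ifs <;> simp
    · refine hmem ?_
      simp only [Frame.patEl, Finset.mem_union, hz, Option.elim, Finset.mem_singleton]
      tauto
  obtain ⟨E, hEfin, hE, hEr⟩ := X.exists_tangent hTame hAux hBd P.node P.ptb P.xy (P.InU c)
    (P.InF c) (S : Set X.J.R) hV1
    (fun t l => by
      have h : γ (F.xVec r t l) ∈ S := hmem (by
        simp only [Frame.patEl, Finset.mem_union, Finset.mem_image]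
        exact Or.inl (Or.inl (Or.inl (Or.inl ⟨(t, l), Finset.mem_univ _, rfl⟩))))
      rwa [show γ (F.xVec r t l) = X.val (.x t l) from hev _] at h)
    (fun hxy t l => by
      have h : γ (MvPowerSeries.X (F.iuF r t l)) ∈ S := hmem (by
        simp only [Frame.patEl, Finset.mem_union, if_pos hxy, Finset.mem_image]
        exact Or.inl (Or.inl (Or.inl (Or.inr ⟨(t, l), Finset.mem_univ _, rfl⟩))))
      rwa [show γ (MvPowerSeries.X (F.iuF r t l)) = X.val (.u t l) from hev _] at h)
    (fun z hz hU => by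
      rcases hU with h | h
      · refine Or.inr ⟨h, ?_⟩
        by_contra h'
        have := hV1 (by simpa using h')
        omega
      · refine Or.inl fun a b => ?_
        have h' : γ (F.inerEl r z a b) ∈ S := hmem (by
          simp only [Frame.patEl, Finset.mem_union, h, Option.elim]
          exact Or.inr (mem_entries _ a b))
        rwa [show γ (F.inerEl r z a b) = X.val (.iner z a b) from hev _] at h')
    (fun z hz hF => by
      have h := hFS z hF
      rwa [Frame.fEl, if_neg hz, map_add, hev, hev] at h)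
    (fun z hz hF => by
      have h := hFS z hF
      rwa [ev_f_p hev hz] at h)
    (fun z hz hU => by
      have hlt : (z : ℕ) < P.upto := by
        by_contra hc
        rw [Pat.InU] at hU
        push Not at hU
        exact hU.2 (hV2 z (not_lt.1 hc) hU.1)
      refine ⟨Or.inl hlt, fun u w => ?_⟩
      have hsm : ∀ (M : M2 (Ser O (F.nv r))) (a : O), γ.toRingHom.mapMatrix
          (M - (MvPowerSeries.C a : Ser O (F.nv r)) • 1) =
            γ.toRingHom.mapMatrix M - algebraMap O X.J.R a • 1 := fun M a => by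
        rw [RingHom.mapMatrix_apply, map_sub_smul_one]
        exact congrArg (fun x => _ - x • (1 : M2 X.J.R)) (γ.commutes a)
      have hfr : γ.toRingHom.mapMatrix (F.frobEl r z) = _ := ev_frob hev z
      have hin : γ.toRingHom.mapMatrix (F.inerEl r z) = _ := ev_iner hev hz
      have h1 := hst z hlt
      constructor
      · have h2 := h1 ((((F.frobEl r z) - (MvPowerSeries.C (F.ε z * (c.q z : O)) :
          Ser O (F.nv r)) • 1) * F.inerEl r z) u w) (by
          rw [Frame.stEl, if_neg hz]
          exact Finset.mem_insert_of_mem (Finset.mem_union_left _ (mem_entries _ u w)))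
        rwa [show γ ((((F.frobEl r z) - _) * F.inerEl r z) u w) =
          γ.toRingHom.mapMatrix (((F.frobEl r z) - (MvPowerSeries.C (F.ε z * (c.q z : O)) :
            Ser O (F.nv r)) • 1) * F.inerEl r z) u w from rfl, map_mul, hsm, hfr, hin] at h2
      · have h2 := h1 ((F.inerEl r z * ((F.frobEl r z) - (MvPowerSeries.C (F.ε z) :
          Ser O (F.nv r)) • 1)) u w) (by
          rw [Frame.stEl, if_neg hz]
          exact Finset.mem_insert_of_mem (Finset.mem_union_right _ (mem_entries _ u w)))
        rwa [show γ ((F.inerEl r z * ((F.frobEl r z) - _)) u w) =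
          γ.toRingHom.mapMatrix (F.inerEl r z * ((F.frobEl r z) - (MvPowerSeries.C (F.ε z) :
            Ser O (F.nv r)) • 1)) u w from rfl, map_mul, hsm, hfr, hin] at h2)
    (fun hd => by
      rcases (c.dvd_lev Fact.out (Nat.lt_succ_iff.1 P.node.2)).1 hd with h | ⟨z, hz, e⟩
      · exact Or.inl h
      · refine Or.inr ⟨⟨z, lt_of_lt_of_le hz (Nat.lt_succ_iff.1 P.node.2)⟩, Or.inl ?_, e⟩
        by_contra hc
        exact hV3 _ (hV2 ⟨z, _⟩ (not_lt.1 hc) hz) e)
  haveI := hEfin
  have hexc : Module.finrank (ResidueField O) ↥E + P.excess c ≤ r := by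
    refine le_trans (le_of_eq ?_) hEr
    rw [Pat.excess, Pat.Pf]
    simp only [← add_assoc]
    congr! 4
  set K := X.patIdeal P.node P.ptb ⊔ S
  have hK : K ≠ ⊤ := fun h => (maximalIdeal.isMaximal X.J.R).ne_top (top_le_iff.1 (h ▸
    sup_le (le_maximalIdeal (X.patIdeal_ne _ _)) (by
      rw [Ideal.map_le_iff_le_comap, Ideal.span_le]
      exact fun x hx => mem_max_of_red X.J.red γ hγm (patEl_mem_max F P x hx))))
  obtain ⟨θ, hθ⟩ := X.J.exists_gen c.p_mem hK (g := r - P.excess c) E
    (fun d hd hd0 => hE d hd (fun x hx => hd0 x (Ideal.mem_sup_left hx))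
      fun x hx => hd0 x (Ideal.mem_sup_right hx)) (by omega)
  obtain ⟨G, hG⟩ := exists_gen_lift X.J.red γ hγ hK θ hθ
  refine ⟨G, fun x => ?_⟩
  obtain ⟨y, hy⟩ := hG x
  obtain ⟨a, ha, b, hb, hab⟩ := Submodule.mem_sup.1 hy
  obtain ⟨z, hz, rfl⟩ := (Ideal.mem_map_iff_of_surjective γ.toRingHom hγ).1 hb
  refine ⟨y, z, hz, ?_⟩
  rw [map_sub, map_sub, ← hab]
  simpa using ha

end Joined

end FLTAgent.ModLift.Final
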