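import Fermat.Agent.ModLift.Lift.Final.Shape
import Fermat.Agent.ModLift.Lift.Final.Curve

/-!
# The relations of the curve at the named elements
-/

set_option autoImplicit false
set_option linter.unusedSectionVars false

noncomputable section

open IsLocalRing

namespace FLTAgent.ModLift.Final

open FLTAgent.ModLift.Patch FLTAgent.TWPrimes FLTAgent.Lowering

local notation "GG" => (AlgebraicClosure ℚ ≃ₐ[ℚ] AlgebraicClosure ℚ)
local notation "VS" => ValuationSubring (AlgebraicClosure ℚ)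
local notation "M2" => Matrix (Fin 2) (Fin 2)

variable {W : WeierstrassCurve ℤ} {hΔ : W.Δ ≠ 0} {p : ℕ} [Fact p.Prime] {O : Type} [CommRing O]
  [IsDomain O] [IsDiscreteValuationRing O] [Algebra ℤ_[p] O] [Module.Finite ℤ_[p] O] [CharZero O]
  [IsAdicComplete (maximalIdeal O) O] [Finite (ResidueField O)]
  [Algebra (ZMod p) (ResidueField O)]

/-- The curve as the algebra of a level. -/
def curveRep (c : Ctx W hΔ p O) : LevelRep c.D c.S where
  R := O
  finite_R := inferInstance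
  red := Algebra.ofId O (ResidueField O)
  ρ := c.rO
  red_rho σ := (c.rb_eq' σ).symm
  generated := by
    rw [eq_top_iff]
    exact fun x _ => Subalgebra.algebraMap_mem _ x
  det_cyclotomic n σ e he := by
    obtain ⟨z, hz⟩ := Ideal.mem_span_singleton.1 (c.curve.det_cyclotomic n σ e he)
    refine Ideal.mem_span_singleton.2 ⟨algebraMap ℤ_[p] O z, ?_⟩
    rw [Ctx.rO_map, ← RingHom.mapMatrix_apply, ← RingHom.map_det,
      ← map_natCast (algebraMap ℤ_[p] O) e, ← map_sub, hz, map_mul, map_pow, map_natCast]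
  continuous n := by
    obtain ⟨L, hL, h⟩ := c.curve.continuous n
    refine ⟨L, hL, fun σ hσ i j => ?_⟩
    obtain ⟨z, hz⟩ := Ideal.mem_span_singleton.1 (h σ hσ i j)
    refine Ideal.mem_span_singleton.2 ⟨algebraMap ℤ_[p] O z, ?_⟩
    rw [← map_natCast (algebraMap ℤ_[p] O), ← map_pow, ← map_mul, ← hz, map_sub, Ctx.rO_map,
      Matrix.map_apply]
    congr 1
    by_cases h' : i = j
    · subst h'; simp
    · simp [Matrix.one_apply_ne h']
  unramified q hq V hV σ hσ := by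
    have hb : (q : ℕ) ∉ c.S0.bad := fun h => hq (c.mem_S.2 h)
    exact c.rO_good q.2 (fun e => hb (e ▸ c.S0.p_mem))
      (c.good q.2 fun h => hb (c.lev_mem_bad q.2 le_rfl h)) hV hσ

/-- The tame relations of the curve. -/
theorem curve_tame (hTame : TargetTameRel) (c : Ctx W hΔ p O) {l : ℕ} (hl : l.Prime) (hlp : l ≠ p)
    (hY : l ∉ c.Y0) {V : VS} (hV : V.LiesOverPrime l) (T : Lowering.P6.TameGen p l V) :
    Matrix.det (c.rO T.σ : M2 O) = 1 ∧ Matrix.det (c.rO T.φ : M2 O) = (l : O) ∧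
      (c.rO T.φ : M2 O) * (c.rO T.σ : M2 O) = (c.rO T.σ : M2 O) ^ l * (c.rO T.φ : M2 O) ∧
      ((c.rO T.σ : M2 O) = 1 → ∀ σ ∈ V.inertiaSubgroupIn ℚ, (c.rO σ : M2 O) = 1) := by
  obtain ⟨h1, h2, h3⟩ := hTame O p c.p_mem c.D _ (curveRep c) l hl hlp V hV
  obtain ⟨h4, -, h6⟩ := h3 (fun τ hτ => c.unramified l hl hlp hY V hV τ hτ) T
  exact ⟨h1 _ T.σ_mem, h2 _ T.φ_frob, h4, fun h => h6 (AlgHom.id O O) h⟩

variable {c : Ctx W hΔ p O} {B : Base c} {F : Frame c B} {r : ℕ}

/-- An evaluation taking the named variables to their values at the point. -/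
def PtEvals (F : Frame c B) (ψ : Ser O (F.nv r) →ₐ[O] O) : Prop :=
  ∀ a, ψ (F.var r a) = F.ptVal a

variable {ψ : Ser O (F.nv r) →ₐ[O] O} (hψ : PtEvals F ψ)
include hψ

theorem psi_C (a : O) : ψ (MvPowerSeries.C a) = a :=
  (ψ.commutes a).trans (congrFun (congrArg DFunLike.coe Algebra.algebraMap_self) a)

theorem pt_frobEl (j : Fin c.m) : (F.frobEl r j).map ψ = (c.rO (F.φ (c.qP j)) : M2 O) := by
  ext a b
  show ψ (F.var r (.frob j a b) + MvPowerSeries.C _) = _
  rw [map_add, hψ, psi_C hψ]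
  exact zero_add _

theorem pt_inerEl {j : Fin c.m} (hj : c.q j ≠ p) :
    (F.inerEl r j).map ψ = (c.rO (F.σ (c.qP j)) : M2 O) - 1 := by
  ext a b
  show ψ (F.var r (.iner j a b)) = _
  rw [hψ]
  exact if_neg hj

theorem pt_x (t : Fin c.S0.T.card) (i : Fin 3) :
    ψ (F.xVec r t i) = P6.coords c.half (c.rO (F.σ (c.tP t)) : M2 O) i := hψ (.x t i)

theorem pt_y (t : Fin c.S0.T.card) (i : Fin 3) :
    ψ (F.yVec r t i) = P6.coords c.half (c.rO (F.φ (c.tP t)) : M2 O) i := by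
  show ψ (Lift.frobVec O (F.ixF r) (F.iuF r) t i) = _
  rw [Lift.frobVec, map_sub]
  have hu : ψ (MvPowerSeries.X (F.iuF r t i)) = F.ptVal (.u t i) := hψ _
  have hs : ψ (P5.shift (fun j => (MvPowerSeries.X (F.ixF r t j) : Ser O (F.nv r))) i) =
      P5.shift (fun j => F.ptVal (.x t j)) i := by
    fin_cases i
    · exact hψ (.x t 1)
    · exact hψ (.x t 2)
    · exact map_zero ψ
  rw [hu, hs]
  exact add_sub_cancel_right _ _

theorem pt_tr (i : Fin F.ng) : ψ (F.trEl r i) = Matrix.trace (c.rO (F.gen i) : M2 O) := by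
  show ψ (F.var r _ + MvPowerSeries.C _) = _
  rw [map_add, hψ, psi_C hψ]
  exact zero_add _

theorem pt_fEl (j : Fin c.m) : ψ (F.fEl r j) = 0 := by
  rw [Frame.fEl]
  split_ifs
  · exact hψ .root
  · rw [map_add, hψ, hψ]
    exact add_zero _

/-- The Steinberg equations vanish at the point. -/
theorem pt_stEl (hTame : TargetTameRel) (j : Fin c.m) : ∀ x ∈ F.stEl r j, ψ x = 0 := by
  classical
  intro x hx
  rw [Frame.stEl] at hx
  split_ifs at hx with hj
  · rw [Finset.mem_singleton.1 hx]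
    exact pt_fEl hψ j
  rcases Finset.mem_insert.1 hx with rfl | hx
  · exact pt_fEl hψ j
  obtain ⟨T, hTσ, hTφ⟩ := F.tame (c.qP j) hj
  have hl := (c.q_spec j j.2).1
  obtain ⟨hdS, hdΦ, hrel, -⟩ := curve_tame hTame c (c.qP j).2 hj (c.q_facts j.2).1
    (F.frob (c.qP j)).1 T
  rw [hTσ, hTφ] at hrel
  rw [hTσ] at hdS
  rw [hTφ] at hdΦ
  have htr := c.rO_trace_inertia (c.qP j).2 hj (F.frob (c.qP j)).1 (F.σ_mem (c.qP j))
  have hq : (((c.qP j : Nat.Primes) : ℕ) : O) ≠ 0 := Nat.cast_ne_zero.2 (c.qP j).2.ne_zero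
  have hsm : ∀ (M : M2 (Ser O (F.nv r))) (a : O), ψ.toRingHom.mapMatrix
      (M - (MvPowerSeries.C a : Ser O (F.nv r)) • 1) = ψ.toRingHom.mapMatrix M - a • 1 :=
    fun M a => by
      ext u w
      show ψ ((M - (MvPowerSeries.C a : Ser O (F.nv r)) • 1) u w) = _
      rw [Matrix.sub_apply, map_sub, Matrix.sub_apply, Matrix.smul_apply, smul_eq_mul, map_mul,
        psi_C hψ]
      by_cases h : u = w
      · subst h; simp
      · simp [Matrix.one_apply_ne h]
  have hfr : ψ.toRingHom.mapMatrix (F.frobEl r j) = _ := pt_frobEl hψ j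
  have hin : ψ.toRingHom.mapMatrix (F.inerEl r j) = _ := pt_inerEl hψ hj
  rcases split_domain (F.ε_sq j) hq htr hdS hdΦ hrel with h | ⟨-, hL, hR⟩ | ⟨h, -⟩
  · rcases Finset.mem_union.1 hx with hx | hx <;>
      obtain ⟨⟨u, w⟩, -, rfl⟩ := Finset.mem_image.1 hx <;>
      show ψ.toRingHom.mapMatrix _ u w = 0 <;>
      rw [map_mul, hsm, hfr, hin, h, sub_self] <;> simp
  · rcases Finset.mem_union.1 hx with hx | hx <;>
      obtain ⟨⟨u, w⟩, -, rfl⟩ := Finset.mem_image.1 hx <;>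
      show ψ.toRingHom.mapMatrix _ u w = 0 <;>
      rw [map_mul, hsm, hfr, hin]
    · exact congrFun (congrFun hL u) w
    · exact congrFun (congrFun hR u) w
  · exfalso
    rw [F.ε_trace j hj] at h
    have h2 : (F.ε j * ((c.q j : O) + 1)) = -(F.ε j * ((c.q j : O) + 1)) := h
    have h3 : 2 * (F.ε j * ((c.q j : O) + 1)) = 0 := by linear_combination h2
    have hq1 : ((c.q j : O) + 1) ≠ 0 := by exact_mod_cast Nat.succ_ne_zero (c.q j)
    have hε : F.ε j ≠ 0 := fun e => by simpa [e] using F.ε_sq j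
    exact mul_ne_zero two_ne_zero (mul_ne_zero hε hq1) h3

/-- The coordinates of inertia vanish at the scalar primes where the curve is good. -/
theorem pt_x_good (t : Fin c.S0.T.card) (ht : ¬ ((c.tP t : ℕ) : ℤ) ∣ W.Δ) (i : Fin 3) :
    ψ (F.xVec r t i) = 0 := by
  rw [pt_x hψ, c.rO_good (c.tP t).2 (c.T_facts (c.tP_mem t)).2.1 ht (F.frob _).1 (F.σ_mem _),
    Units.val_one]
  fin_cases i <;> simp [P6.coords]

/-- At a scalar prime of bad reduction the curve is on the plane and ramified. -/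
theorem pt_plane (hTame : TargetTameRel) (t : Fin c.S0.T.card)
    (ht : ((c.tP t : ℕ) : ℤ) ∣ W.Δ) :
    (∃ i, ψ (F.xVec r t i) ≠ 0) ∧ ψ (P5.qf (F.xVec r t)) = 0 ∧
      ψ (P5.qf (F.yVec r t) - MvPowerSeries.C (F.hT t ^ 2)) = 0 ∧
      ∀ l, ψ (brkVec (F.yVec r t) (F.xVec r t) l -
        MvPowerSeries.C (2 * F.hT t) * F.xVec r t l) = 0 := by
  obtain ⟨htP, htp, -, htY, -, -⟩ := c.T_facts (c.tP_mem t)
  obtain ⟨T, hTσ, hTφ⟩ := F.tame (c.tP t) htp
  obtain ⟨hdS, hdΦ, hrel, htriv⟩ := curve_tame hTame c htP htp htY (F.frob (c.tP t)).1 T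
  rw [hTσ, hTφ] at hrel
  rw [hTσ] at hdS htriv
  rw [hTφ] at hdΦ
  have htr := c.rO_trace_inertia htP htp (F.frob (c.tP t)).1 (F.σ_mem (c.tP t))
  obtain ⟨-, ⟨σ, hσ, hne⟩, -⟩ := c.rO_multiplicative htP htp ht (F.frob (c.tP t)).1
  have hS : (c.rO (F.σ (c.tP t)) : M2 O) ≠ 1 := fun e => hne (htriv e σ hσ)
  have hq : (((c.tP t : Nat.Primes) : ℕ) : O) ≠ 0 := Nat.cast_ne_zero.2 htP.ne_zero
  rcases coords_steinberg c.two_half (F.εT_sq t) hq htr hdS hdΦ hrel with h | h | ⟨h1, h2, h3⟩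
  · exact absurd h hS
  · exfalso
    have h0 : residue O (Matrix.trace (c.rO (F.φ (c.tP t)) : M2 O)) =
        residue O (F.εT t) * (((c.tP t : ℕ) : ResidueField O) + 1) := by
      rw [← F.εT_red, c.rb_eq']
      exact AddMonoidHom.map_trace (residue O).toAddMonoidHom _
    rw [h, map_neg, map_mul, map_add, map_one, map_natCast, c.T_cast (c.tP_mem t)] at h0
    have hε : residue O (F.εT t) ^ 2 = 1 := by rw [← map_pow, F.εT_sq, map_one]
    have h4 : (2 : ResidueField O) * 2 = 0 := by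
      linear_combination -residue O (F.εT t) * h0 - 4 * hε
    exact c.two_ne ((mul_eq_zero.1 h4).elim id id)
  refine ⟨?_, ?_, ?_, fun l => ?_⟩
  · by_contra hc
    push Not at hc
    exact hS (eq_one_of_coords c.two_half htr fun i => (pt_x hψ t i).symm.trans (hc i))
  · show ψ.toRingHom _ = _
    rw [map_qf]
    simp only [AlgHom.toRingHom_eq_coe, RingHom.coe_coe, pt_x hψ]
    exact h1
  · show ψ.toRingHom _ = _
    rw [map_sub, map_qf]
    simp only [AlgHom.toRingHom_eq_coe, RingHom.coe_coe, pt_y hψ, psi_C hψ]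
    rw [sub_eq_zero]
    exact h2
  · show ψ.toRingHom _ = _
    rw [map_sub, map_mul, map_brkVec]
    simp only [AlgHom.toRingHom_eq_coe, RingHom.coe_coe, pt_x hψ, pt_y hψ, psi_C hψ]
    rw [sub_eq_zero]
    exact h3 l

end FLTAgent.ModLift.Final
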