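import Fermat.Agent.ModLift.Lift.Final.Joined
import Fermat.Agent.ModLift.Lift.Final.Deriv
import Fermat.Agent.ModLift.Lift.Final.Flat
import Fermat.Agent.ModLift.Lift.Bound.Interface

/-!
# The tangent vectors of a pattern

The count of the tangent vectors applied to the quotient of the joined algebra by a node, with the
local conditions read from the named values.
-/

set_option autoImplicit false
set_option linter.unusedSectionVars false
set_option linter.style.haveILetI false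

noncomputable section

open IsLocalRing

namespace FLTAgent.ModLift.Final

open FLTAgent.TWPrimes FLTAgent.Lowering

local notation "GG" => (AlgebraicClosure ℚ ≃ₐ[ℚ] AlgebraicClosure ℚ)
local notation "VS" => ValuationSubring (AlgebraicClosure ℚ)
local notation "M2" => Matrix (Fin 2) (Fin 2)

variable {W : WeierstrassCurve ℤ} {hΔ : W.Δ ≠ 0} {p : ℕ} [Fact p.Prime] {O : Type} [CommRing O]
  [IsDomain O] [IsDiscreteValuationRing O] [Algebra ℤ_[p] O] [Module.Finite ℤ_[p] O] [CharZero O]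
  [IsAdicComplete (maximalIdeal O) O] [Finite (ResidueField O)]
  [Algebra (ZMod p) (ResidueField O)] {c : Ctx W hΔ p O} {B : Base c} {F : Frame c B}
  {Q : Finset Nat.Primes} {r k : ℕ}

/-- The count of tangent vectors for given auxiliary primes. -/
def BoundAt (c : Ctx W hΔ p O) (Q : Finset Nat.Primes) (r : ℕ) : Prop :=
  ∀ (L : LevelRep c.D (c.S ∪ Q)) (V : Nat.Primes → VS) (φ : Nat.Primes → GG),
    (∀ l : Nat.Primes, (V l).LiesOverPrime (l : ℕ) ∧ (V l).IsFrobeniusAt (φ l) (l : ℕ)) →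
  ∀ (ord pf xy : Bool) (U F : Finset ℕ) (ε : ℕ → O),
    (ord = true → pf = true ∨ p ∣ c.S0.M0) → (pf = true → (p : ℤ) ∣ W.Δ) →
    (∀ l ∈ c.S, (l : ℕ) ≠ p → (l : ℕ) ∉ c.Y0 → (l : ℕ) ∉ c.S0.T →
      (∀ j < c.m, (l : ℕ) ≠ c.q j) → ∀ σ ∈ (V l).inertiaSubgroupIn ℚ, L.ρ σ = 1) →
    (∀ l ∈ c.S, (l : ℕ) ∈ c.Y0 → ∀ σ ∈ (V l).inertiaSubgroupIn ℚ,
      Matrix.trace (L.ρ σ : M2 L.R) = 2) →
    (∀ l ∈ c.S, (l : ℕ) = p →
      (ord = true ∨ pf = true → ∀ σ ∈ (V l).inertiaSubgroupIn ℚ,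
        ∀ τ ∈ (V l).inertiaSubgroupIn ℚ,
        ((L.ρ σ : M2 L.R) - Matrix.det (L.ρ σ : M2 L.R) • 1) * ((L.ρ τ : M2 L.R) - 1) = 0) ∧
      (ord = false → ∃ s : ℕ, ∀ n : ℕ, ∃ (M : Type) (_ : AddCommGroup M) (_ : Module L.R M)
        (_ : Finite M) (actM : GG →* Module.End L.R M),
        (∀ m : M, p ^ n • m = 0) ∧
        (∀ (σ : GG) (m : M), actM σ (actM σ m) + Matrix.det (L.ρ σ : M2 L.R) • m =
          Matrix.trace (L.ρ σ : M2 L.R) • actM σ m) ∧
        (∀ t : L.R, (∀ m : M, t • m = 0) → t ∈ Ideal.span {(p : L.R) ^ (n - s)}) ∧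
        FlatLocal.FlatI (V l) fun σ : FlatLocal.Dec (V l) => actM (σ : GG))) →
    (∀ j < c.m, ε j ^ 2 = 1 ∧ ∀ l : Nat.Primes, (l : ℕ) = c.q j →
      (c.q j ≠ p → Matrix.trace (c.D.rb (φ l) : M2 (ResidueField O)) =
        residue O (ε j) * ((c.q j : ResidueField O) + 1))) →
  ∀ E : Submodule (ResidueField O) (L.R → ResidueField O), E ≤ tanSp L.red →
    (∀ d ∈ E,
      (∀ l ∈ c.S, (l : ℕ) ∈ c.S0.T →
        (∀ σ ∈ (V l).inertiaSubgroupIn ℚ, ∀ u w, d ((L.ρ σ : M2 L.R) u w) = 0) ∧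
        (xy = true → ∀ u w, d ((L.ρ (φ l) : M2 L.R) u w) = 0)) ∧
      (∀ j < c.m, c.q j ≠ p → ∀ l : Nat.Primes, (l : ℕ) = c.q j →
        (j ∈ U → ∀ σ ∈ (V l).inertiaSubgroupIn ℚ, ∀ u w, d ((L.ρ σ : M2 L.R) u w) = 0) ∧
        (j ∈ F → d (Matrix.trace (L.ρ (φ l) : M2 L.R)) = 0) ∧
        (j ∉ U → j ∈ F ∧ ∀ σ ∈ (V l).inertiaSubgroupIn ℚ, ∀ u w,
          d ((((L.ρ (φ l) : M2 L.R) - algebraMap O L.R (ε j * c.q j) • 1) *
            ((L.ρ σ : M2 L.R) - 1)) u w) = 0 ∧
          d ((((L.ρ σ : M2 L.R) - 1) *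
            ((L.ρ (φ l) : M2 L.R) - algebraMap O L.R (ε j) • 1)) u w) = 0)) ∧
      (pf = true → ∀ l ∈ c.S, (l : ℕ) = p → ∃ e : O, e ^ 2 = 1 ∧
        (∀ σ ∈ (V l).inertiaSubgroupIn ℚ,
          ((c.D.rb σ : M2 (ResidueField O)) -
              Matrix.det (c.D.rb σ : M2 (ResidueField O)) • 1) *
            ((c.D.rb (φ l) : M2 (ResidueField O)) - residue O e • 1) = 0) ∧
        ∀ σ ∈ (V l).inertiaSubgroupIn ℚ, ∀ u w,
          d ((((L.ρ σ : M2 L.R) - Matrix.det (L.ρ σ : M2 L.R) • 1) *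
            ((L.ρ (φ l) : M2 L.R) - algebraMap O L.R e • 1)) u w) = 0)) →
    FiniteDimensional (ResidueField O) ↥E ∧
      Module.finrank (ResidueField O) ↥E +
        ((Finset.range c.m).filter fun j => j ∈ U ∧ j ∈ F ∧ c.q j ≠ p).card +
        (if ord = false ∧ pf = true then 1 else 0) +
        (if xy = true then 3 * c.S0.T.card else 0) ≤ r

/-- The auxiliary primes with their count. -/
theorem exists_bound (hBound : TargetPatternBound) (c : Ctx W hΔ p O) (b : ℕ) :
    ∃ r : ℕ, b ≤ r ∧ ∀ n : ℕ, ∃ Q : Finset Nat.Primes, Q.card = r ∧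
      (∀ q ∈ Q, q ∉ c.S ∧ IsAux c.D n q) ∧ BoundAt c Q r := by
  obtain ⟨r, hr, h⟩ := hBound W hΔ p O c b
  refine ⟨r, hr, fun n => ?_⟩
  obtain ⟨Q, hQ, hQ', hb⟩ := h n ∅
  exact ⟨Q, hQ, fun q hq => ⟨(hQ' q hq).2.1, (hQ' q hq).2.2⟩, hb⟩

namespace Joined

variable (X : Joined F Q r k)

/-- The elements dying at a step and, if asked, at the point. -/
def patIdeal (i : Fin (c.m + 1)) (ptb : Bool) : Ideal X.J.R :=
  X.kr i ⊓ (if ptb then RingHom.ker X.pt else ⊤)

theorem patIdeal_ne (i : Fin (c.m + 1)) (ptb : Bool) : X.patIdeal i ptb ≠ ⊤ := fun h => by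
  have h1 : (1 : X.J.R) ∈ X.kr i := (le_of_eq h.symm).trans inf_le_left Submodule.mem_top
  rw [mem_kr, map_one] at h1
  exact X.M.Kr_ne i ((Ideal.eq_top_iff_one _).2 h1)

theorem patIdeal_last {i : Fin (c.m + 1)} (hi : (i : ℕ) = c.m) {x : X.J.R}
    (hx : x ∈ X.patIdeal i true) : x = 0 := by
  obtain ⟨h1, h2⟩ := hx
  obtain rfl : i = Fin.last _ := Fin.ext hi
  have h3 := X.mem_kr.1 h1
  rw [X.M.Kr_last, Ideal.mem_bot] at h3
  exact X.inj x h3 (by simpa using h2)

theorem dvd_lev_last {i : Fin (c.m + 1)} (h : p ∣ c.lev i) : p ∣ c.lev c.m := by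
  have hi := Nat.lt_succ_iff.1 i.2
  rcases (c.dvd_lev Fact.out hi).1 h with h | ⟨z, hz, e⟩
  · exact (c.dvd_lev Fact.out le_rfl).2 (Or.inl h)
  · exact (c.dvd_lev Fact.out le_rfl).2 (Or.inr ⟨z, lt_of_lt_of_le hz hi, e⟩)

variable {K0 : Ideal X.J.R} (hK0 : K0 ≠ ⊤)

theorem quot_apply (σ : GG) (u w : Fin 2) :
    ((X.J.quot hK0).ρ σ : M2 (X.J.quot hK0).R) u w =
      X.J.toQuot hK0 ((X.J.ρ σ : M2 X.J.R) u w) := rfl

theorem quot_det (σ : GG) : Matrix.det ((X.J.quot hK0).ρ σ : M2 (X.J.quot hK0).R) =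
    X.J.toQuot hK0 (Matrix.det (X.J.ρ σ : M2 X.J.R)) := by
  rw [LevelRep.rho_quot, ← AlgHom.coe_toRingHom, RingHom.map_det]
  rfl

theorem quot_trace (σ : GG) : Matrix.trace ((X.J.quot hK0).ρ σ : M2 (X.J.quot hK0).R) =
    X.J.toQuot hK0 (Matrix.trace (X.J.ρ σ : M2 X.J.R)) := by
  rw [LevelRep.rho_quot]
  exact (AddMonoidHom.map_trace (X.J.toQuot hK0).toRingHom.toAddMonoidHom _).symm

omit hK0

/-- A quotient seen on the node of the step. -/
theorem quot_one {i : Fin (c.m + 1)} {ptb : Bool} (σ : GG)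
    (h : ∀ u w, ((X.J.ρ σ : M2 X.J.R) - 1) u w ∈ X.patIdeal i ptb) :
    (X.J.quot (X.patIdeal_ne i ptb)).ρ σ = 1 := by
  refine Units.ext (Matrix.ext fun u w => ?_)
  have h1 := (X.J.toQuot_eq_zero (X.patIdeal_ne i ptb)).2 (h u w)
  rw [Matrix.sub_apply, map_sub, sub_eq_zero] at h1
  rw [quot_apply, h1, Units.val_one]
  by_cases h' : u = w
  · subst h'; simp
  · simp [Matrix.one_apply_ne h']

/-- The flat condition on a quotient. -/
theorem flat_quot {i : Fin (c.m + 1)} {ptb : Bool} (hptb : ptb = true → (i : ℕ) = c.m)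
    (hi : ¬ p ∣ c.lev i) {V : VS} (hV : V.LiesOverPrime p) :
    ∃ s : ℕ, ∀ n : ℕ, ∃ (M : Type) (_ : AddCommGroup M)
      (_ : Module (X.J.quot (X.patIdeal_ne i ptb)).R M) (_ : Finite M)
      (actM : GG →* Module.End (X.J.quot (X.patIdeal_ne i ptb)).R M),
      (∀ m : M, p ^ n • m = 0) ∧
      (∀ (σ : GG) (m : M), actM σ (actM σ m) +
        Matrix.det ((X.J.quot (X.patIdeal_ne i ptb)).ρ σ : M2 (X.J.quot (X.patIdeal_ne i ptb)).R) • m =
          Matrix.trace ((X.J.quot (X.patIdeal_ne i ptb)).ρ σ : M2 (X.J.quot (X.patIdeal_ne i ptb)).R) • actM σ m) ∧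
      (∀ t : (X.J.quot (X.patIdeal_ne i ptb)).R, (∀ m : M, t • m = 0) →
        t ∈ Ideal.span {(p : (X.J.quot (X.patIdeal_ne i ptb)).R) ^ (n - s)}) ∧
      FlatLocal.FlatI V fun σ : FlatLocal.Dec V => actM (σ : GG) := by
  classical
  haveI := X.J.finite_R
  haveI := X.M.L.finite_R
  obtain ⟨s, hs⟩ := X.M.flat i hi V hV
  cases ptb with
  | false =>
    refine ⟨s, fun n => ?_⟩
    obtain ⟨M, i1, i2, i3, actM, hkill, hKr, hrel, hann, hM⟩ := hs n
    have hK : ∀ x ∈ X.patIdeal i false, (Module.toAddMonoidEnd X.M.L.R M).comp X.π.toRingHom x = 0 :=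
      fun x hx => AddMonoidHom.ext fun m => hKr _ (X.mem_kr.1 hx.1) m
    let f : (X.J.quot (X.patIdeal_ne i false)).R →+* AddMonoid.End M :=
      Ideal.Quotient.lift _ _ hK
    letI : Module (X.J.quot (X.patIdeal_ne i false)).R M := Module.compHom M f
    have hsm : ∀ (a : X.J.R) (m : M),
        X.J.toQuot (X.patIdeal_ne i false) a • m = X.π a • m := fun a m => rfl
    let act : GG →* Module.End (X.J.quot (X.patIdeal_ne i false)).R M :=
      { toFun := fun σ =>
          { toFun := fun m => actM σ m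
            map_add' := fun a b => map_add (actM σ) a b
            map_smul' := fun a m => by
              obtain ⟨a, rfl⟩ := X.J.toQuot_surjective (X.patIdeal_ne i false) a
              simp only [RingHom.id_apply, hsm, map_smul] }
        map_one' := LinearMap.ext fun m => by
          show actM 1 m = m
          rw [map_one]; rfl
        map_mul' := fun σ τ => LinearMap.ext fun m => by
          show actM (σ * τ) m = actM σ (actM τ m)
          rw [map_mul]; rfl }
    refine ⟨M, i1, inferInstance, i3, act, hkill, fun σ m => ?_, fun t ht => ?_,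
      hM.congr (AddEquiv.refl _) fun σ _ x => rfl⟩
    · show actM σ (actM σ m) + _ • m = _ • actM σ m
      rw [quot_det, quot_trace, hsm, hsm, X.det_π, X.trace_π]
      exact hrel σ m
    · obtain ⟨t, rfl⟩ := X.J.toQuot_surjective (X.patIdeal_ne i false) t
      obtain ⟨a, ha, b, hb, hab⟩ := Submodule.mem_sup.1
        (hann (X.π t) fun m => (hsm t m).symm.trans (ht m))
      obtain ⟨a', rfl⟩ := Ideal.mem_span_singleton.1 ha
      obtain ⟨a'', rfl⟩ := X.π_surj a'
      refine Ideal.mem_span_singleton.2 ⟨X.J.toQuot _ a'', ?_⟩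
      rw [← map_natCast (X.J.toQuot (X.patIdeal_ne i false)), ← map_pow, ← map_mul, ← sub_eq_zero,
        ← map_sub, X.J.toQuot_eq_zero]
      refine ⟨?_, by simp⟩
      rw [SetLike.mem_coe, mem_kr, map_sub, map_mul, map_pow, map_natCast, ← hab, add_sub_cancel_left]
      exact hb
  | true =>
    obtain rfl : i = Fin.last _ := Fin.ext (hptb rfl)
    set L' := X.J.quot (X.patIdeal_ne (Fin.last _) true)
    haveI := L'.finite_R
    let π' : L'.R →ₐ[O] X.M.L.R := Ideal.Quotient.liftₐ _ X.π fun x hx => by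
      rw [X.patIdeal_last rfl hx, map_zero]
    let pt' : L'.R →ₐ[O] O := Ideal.Quotient.liftₐ _ X.pt fun x hx => by
      rw [X.patIdeal_last rfl hx, map_zero]
    refine flat_pieces π' (fun y => ?_) pt' ?_ L'.ρ c.curve.r ?_ V
      (c.curve.flat (c.good Fact.out hi) V hV) ⟨s, fun n => ?_⟩
    · obtain ⟨x, rfl⟩ := X.π_surj y
      exact ⟨X.J.toQuot _ x, rfl⟩
    · intro x h1 h2
      obtain ⟨x, rfl⟩ := X.J.toQuot_surjective (X.patIdeal_ne (Fin.last _) true) x
      rw [show x = 0 from X.inj x h1 h2, map_zero]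
    · intro σ
      rw [LevelRep.rho_quot, Matrix.map_map]
      exact X.pt_rho σ
    · obtain ⟨M, i1, i2, i3, actM, hkill, -, hrel, hann, hM⟩ := hs n
      refine ⟨M, i1, i2, i3, actM, hkill, fun σ m => ?_, fun t ht => ?_, hM⟩
      · rw [quot_det, quot_trace]
        show _ + X.π _ • m = X.π _ • _
        rw [X.det_π, X.trace_π]
        exact hrel σ m
      · have h1 := hann t ht
        rwa [X.M.Kr_last, sup_bot_eq] at h1

/-- The tangent vectors of a pattern. -/
theorem exists_tangent (hTame : TargetTameRel) (hAux : TargetAuxUnramified) (hBd : BoundAt c Q r)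
    (i : Fin (c.m + 1)) (ptb xy : Bool) (U Fs : Fin c.m → Prop) [DecidablePred U] [DecidablePred Fs]
    (S : Set X.J.R) (hptb : ptb = true → (i : ℕ) = c.m)
    (hX : ∀ t l, X.val (.x t l) ∈ S) (hxy : xy = true → ∀ t l, X.val (.u t l) ∈ S)
    (hU : ∀ z : Fin c.m, c.q z ≠ p → U z →
      (∀ a b, X.val (.iner z a b) ∈ S) ∨ ((i : ℕ) ≤ z ∧ ptb = false))
    (hF : ∀ z : Fin c.m, c.q z ≠ p → Fs z → X.val (.frob z 0 0) + X.val (.frob z 1 1) ∈ S)
    (hFp : ∀ z : Fin c.m, c.q z = p → Fs z → X.w ∈ S)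
    (hst : ∀ z : Fin c.m, c.q z ≠ p → ¬ U z → Fs z ∧ ∀ u w,
      (((X.J.ρ (F.φ (c.qP z)) : M2 X.J.R) - algebraMap O X.J.R (F.ε z * c.q z) • 1) *
        ((X.J.ρ (F.σ (c.qP z)) : M2 X.J.R) - 1)) u w ∈ S ∧
      (((X.J.ρ (F.σ (c.qP z)) : M2 X.J.R) - 1) *
        ((X.J.ρ (F.φ (c.qP z)) : M2 X.J.R) - algebraMap O X.J.R (F.ε z) • 1)) u w ∈ S)
    (hord : p ∣ c.lev i → p ∣ c.S0.M0 ∨ ∃ z : Fin c.m, Fs z ∧ c.q z = p) :
    ∃ E : Submodule (ResidueField O) (X.J.R → ResidueField O),
      FiniteDimensional (ResidueField O) ↥E ∧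
      (∀ d ∈ tanSp X.J.red, (∀ x ∈ X.patIdeal i ptb, d x = 0) → (∀ x ∈ S, d x = 0) → d ∈ E) ∧
      Module.finrank (ResidueField O) ↥E +
        (Finset.univ.filter fun z : Fin c.m => U z ∧ Fs z ∧ c.q z ≠ p).card +
        (open scoped Classical in if ¬ p ∣ c.lev i ∧ (∃ z : Fin c.m, Fs z ∧ c.q z = p) then 1 else 0) +
        (if xy = true then 3 * c.S0.T.card else 0) ≤ r := by
  classical
  set hne := X.patIdeal_ne i ptb
  set L := X.J.quot hne
  set q := X.J.toQuot hne
  let E' : Submodule (ResidueField O) (L.R → ResidueField O) :=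
    tanSp L.red ⊓ ⨅ x ∈ S, LinearMap.ker (LinearMap.proj (q x))
  have hE' : ∀ d ∈ E', d ∈ tanSp L.red ∧ ∀ x ∈ S, d (q x) = 0 := fun d hd => ⟨hd.1, fun x hx => by
    have h := hd.2
    simp only [SetLike.mem_coe, Submodule.mem_iInf, LinearMap.mem_ker] at h
    exact h x hx⟩
  have hgood : ∀ l ∈ c.S, (l : ℕ) ∉ c.Y0 → (l : ℕ) ∉ c.S0.T → (∀ j < c.m, (l : ℕ) ≠ c.q j) →
      (l : ℕ) ≠ p → ∀ j, j ≤ c.m → (l : ℕ) ∣ c.lev j → (l : ℕ) = c.r := by
    intro l hlS hY hT hq hlp j hj hd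
    rcases (c.dvd_lev l.2 hj).1 hd with h | ⟨z, hz, e⟩
    · rcases (c.level_iff l l.2).1 h with h | h | h | h
      exacts [absurd h hY, absurd h hT, h, absurd h.1 hlp]
    · exact absurd e.symm (hq z (lt_of_lt_of_le hz hj))
  have hS : ∀ l, l ∈ c.S → (l : ℕ) ∈ c.S0.bad := fun l => c.mem_S.1
  let U' : Finset ℕ := (Finset.univ.filter U).image Fin.val
  let F' : Finset ℕ := (Finset.univ.filter Fs).image Fin.val
  have hU' : ∀ z : Fin c.m, (z : ℕ) ∈ U' ↔ U z := fun z => by simp [U', Fin.val_inj]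
  have hF' : ∀ z : Fin c.m, (z : ℕ) ∈ F' ↔ Fs z := fun z => by simp [F', Fin.val_inj]
  have hcount := hBd L F.V F.φ F.frob (decide (p ∣ c.lev i))
    (decide (∃ z : Fin c.m, Fs z ∧ c.q z = p)) xy U' F' F.ε
    (fun h => by
      simp only [decide_eq_true_eq] at h ⊢
      exact (hord h).symm)
    (fun h => by
      simp only [decide_eq_true_eq] at h
      obtain ⟨z, -, e⟩ := h
      have := (c.q_spec z z.2).1
      rwa [e] at this)
    (fun l hl hlp hY hT hq σ hσ => X.quot_one σ fun u w => ⟨?_, ?_⟩)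
    (fun l hl hY σ hσ => ?_) (fun l hl hlp => ⟨fun h σ hσ τ hτ => ?_, fun h => ?_⟩)
    (fun j hj => ⟨F.ε_sq j, fun l hl hqp => ?_⟩) E' inf_le_left ?_
  pick_goal 8
  · -- the tangent conditions
    intro d hdE
    obtain ⟨hd, hdS⟩ := hE' d hdE
    have hh : (2 : L.R) * q (algebraMap O X.J.R c.half) = 1 := by
      rw [← map_ofNat q, ← map_mul, ← map_ofNat (algebraMap O X.J.R), ← map_mul, c.two_half, map_one,
        map_one]
    have h2 : L.red 2 ≠ 0 := by rw [map_ofNat]; exact c.two_ne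
    have hq0 : ∀ g : GG, q (P6.coords (algebraMap O X.J.R c.half) (X.J.ρ g : M2 X.J.R) 0) =
        ((L.ρ g : M2 L.R) 0 0 - (L.ρ g : M2 L.R) 1 1) * q (algebraMap O X.J.R c.half) := fun g => by
      simp only [P6.coords, Matrix.cons_val_zero, map_mul, map_sub]
      rfl
    have htame : ∀ l : Nat.Primes, (l : ℕ) ≠ p → (l : ℕ) ∉ c.Y0 →
        ∀ σ ∈ (F.V l).inertiaSubgroupIn ℚ, ∃ n : ℕ, ∀ u w,
          d ((L.ρ σ : M2 L.R) u w) = (n : ResidueField O) * d ((L.ρ (F.σ l) : M2 L.R) u w) := by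
      intro l hlp hY σ hσ
      obtain ⟨T, hTσ, -⟩ := F.tame l hlp
      obtain ⟨n, hn⟩ := ((hTame O p c.p_mem c.D _ L _ l.2 hlp _ (F.frob l).1).2.2
        (fun τ hτ => c.unramified l l.2 hlp hY _ (F.frob l).1 τ hτ) T).2.1 σ hσ
      exact ⟨n, fun u w => by rw [hn d hd u w, hTσ]⟩
    have hone : ∀ l : Nat.Primes, (l : ℕ) ≠ p → (l : ℕ) ∉ c.Y0 →
        ∀ σ ∈ (F.V l).inertiaSubgroupIn ℚ, ∀ u w,
          L.red (((L.ρ σ : M2 L.R) - 1) u w) = 0 := fun l hlp hY σ hσ u w => by
      rw [Matrix.sub_apply, map_sub, show L.red ((L.ρ σ : M2 L.R) u w) =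
        (c.D.rb σ : M2 (ResidueField O)) u w from congrFun (congrFun (L.red_rho σ) u) w,
        rb_inertia_one hlp hY (F.frob l).1 hσ]
      by_cases h' : u = w
      · subst h'; simp
      · simp [Matrix.one_apply_ne h']
    refine ⟨fun l hl hlT => ?_, fun j hj hqp l hl => ⟨fun hjU σ hσ u w => ?_, fun hjF => ?_,
      fun hjU => ?_⟩, fun h l hl hlp => ?_⟩
    · obtain ⟨t, ht⟩ := c.exists_tP hlT
      obtain rfl : c.tP t = l := Subtype.ext ht
      obtain ⟨htP, htp, -, htY, -, -⟩ := c.T_facts hlT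
      have hgen : ∀ u w, d ((L.ρ (F.σ (c.tP t)) : M2 L.R) u w) = 0 := by
        refine d_eq_zero_of_coords hd hh h2 one_ne_zero ?_ ?_ ?_ ?_ ?_
        · rw [L.red_rho, rb_inertia_one htp htY (F.frob _).1 (F.σ_mem _), one_smul]
        · exact (congrArg d (hq0 _)).symm.trans (hdS _ (hX t 0))
        · exact hdS _ (hX t 1)
        · exact hdS _ (hX t 2)
        · rw [((hTame O p c.p_mem c.D _ L _ htP htp _ (F.frob _).1).1 _ (F.σ_mem _))]
          exact d_one hd
      refine ⟨fun σ hσ u w => ?_, fun h => ?_⟩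
      · obtain ⟨n, hn⟩ := htame _ htp htY σ hσ
        rw [hn, hgen, mul_zero]
      · obtain ⟨a, ha⟩ := (c.T_scalar _ hlT).2.2 _ (F.frob (c.tP t)).1 _ (F.frob (c.tP t)).2
        have hx : ∀ l, d (q (X.val (.x t l))) = 0 := fun l => hdS _ (hX t l)
        have hu : ∀ l, d (q (P6.coords (algebraMap O X.J.R c.half)
            (X.J.ρ (F.φ (c.tP t)) : M2 X.J.R) l)) = 0 := fun l => by
          have := hdS _ (hxy h t l)
          rw [Joined.val, map_add, hd.1] at this
          have hs : d (q (P5.shift (P6.coords (algebraMap O X.J.R c.half)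
              (X.J.ρ (F.σ (c.tP t)) : M2 X.J.R)) l)) = 0 := by
            fin_cases l
            · exact hx 1
            · exact hx 2
            · exact (congrArg d (map_zero q)).trans (d_zero hd)
          rwa [hs, add_zero] at this
        have hdφ := (hTame O p c.p_mem c.D _ L _ htP htp _ (F.frob (c.tP t)).1).2.1 _
          (F.frob (c.tP t)).2
        have ha0 : a ≠ 0 := by
          intro h0
          have h1 := congrArg L.red hdφ
          rw [← AlgHom.coe_toRingHom, RingHom.map_det, RingHom.mapMatrix_apply,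
            AlgHom.coe_toRingHom, L.red_rho, ha, h0, zero_smul, Matrix.det_zero,
            map_natCast, c.T_cast hlT] at h1
          exact zero_ne_one h1
        refine d_eq_zero_of_coords hd hh h2 ha0 ?_ ?_ ?_ ?_ ?_
        · rw [L.red_rho, ha]
        · exact (congrArg d (hq0 _)).symm.trans (hu 0)
        · exact hu 1
        · exact hu 2
        · rw [hdφ, ← map_natCast (algebraMap O L.R)]
          exact hd.2.2 _
    · obtain rfl : c.qP ⟨j, hj⟩ = l := Subtype.ext hl.symm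
      have hY := (c.q_facts hj).1
      rw [show j = ((⟨j, hj⟩ : Fin c.m) : ℕ) from rfl, hU'] at hjU
      rcases hU _ hqp hjU with h' | ⟨h', hptb'⟩
      · obtain ⟨n, hn⟩ := htame _ hqp hY σ hσ
        have := hdS _ (h' u w)
        rw [Joined.val, if_neg hqp, Matrix.sub_apply, map_sub, d_sub hd] at this
        have h1 : d (q ((1 : M2 X.J.R) u w)) = 0 := by
          by_cases h'' : u = w
          · subst h''; rw [Matrix.one_apply_eq, map_one, d_one hd]
          · rw [Matrix.one_apply_ne h'', map_zero, d_zero hd]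
        rw [h1, sub_zero] at this
        rw [hn, quot_apply, this, mul_zero]
      · have := X.quot_one (i := i) (ptb := ptb) σ fun a b => ⟨X.unram_mem hqp (c.qP_mem _)
          (fun hd' => absurd ((c.q_dvd_lev_iff hj (Nat.lt_succ_iff.1 i.2)).1 hd') (by simp at h'; omega))
          (F.frob _).1 hσ a b, by rw [hptb']; simp⟩
        show d ((L.ρ σ : M2 L.R) u w) = 0
        rw [this]
        exact d_one_apply hd u w
    · obtain rfl : c.qP ⟨j, hj⟩ = l := Subtype.ext hl.symm
      rw [show j = ((⟨j, hj⟩ : Fin c.m) : ℕ) from rfl, hF'] at hjF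
      have := hdS _ (hF _ hqp hjF)
      rw [Joined.val, Joined.val, ← add_sub_add_comm, ← map_add, map_sub, d_sub hd,
        AlgHom.commutes, hd.2.2, sub_zero, map_add] at this
      rwa [Matrix.trace_fin_two]
    · obtain rfl : c.qP ⟨j, hj⟩ = l := Subtype.ext hl.symm
      rw [show j = ((⟨j, hj⟩ : Fin c.m) : ℕ) from rfl, hU'] at hjU
      obtain ⟨hjF, hgen⟩ := hst _ hqp hjU
      refine ⟨(hF' _).2 hjF, fun σ hσ u w => ?_⟩
      have hY := (c.q_facts hj).1
      obtain ⟨n, hn⟩ := htame _ hqp hY σ hσ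
      set Φ := (L.ρ (F.φ (c.qP ⟨j, hj⟩)) : M2 L.R)
      set S0 := (L.ρ (F.σ (c.qP ⟨j, hj⟩)) : M2 L.R)
      have hn' : ∀ a b, d (((L.ρ σ : M2 L.R) - 1) a b) =
          (n : ResidueField O) * d ((S0 - 1) a b) := fun a b => by
        rw [Matrix.sub_apply, Matrix.sub_apply, d_sub hd, d_sub hd, d_one_apply hd, sub_zero,
          sub_zero, hn]
      have hq : ∀ M : M2 X.J.R, ∀ a b, d (q (M a b)) = d (q.toRingHom.mapMatrix M a b) :=
        fun M a b => rfl
      have hqs : q.toRingHom.mapMatrix (X.J.ρ (F.σ (c.qP ⟨j, hj⟩)) : M2 X.J.R) = S0 := rfl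
      have hqf : q.toRingHom.mapMatrix (X.J.ρ (F.φ (c.qP ⟨j, hj⟩)) : M2 X.J.R) = Φ := rfl
      have hsm : ∀ (M : M2 X.J.R) (a : O), q.toRingHom.mapMatrix (M - algebraMap O X.J.R a • 1) =
          q.toRingHom.mapMatrix M - algebraMap O L.R a • 1 := fun M a => by
        rw [RingHom.mapMatrix_apply, map_sub_smul_one]
        exact congrArg (fun x => _ - x • (1 : M2 L.R)) (q.commutes a)
      constructor
      · have h0 := hdS _ (hgen u w).1
        rw [hq, map_mul, hsm, map_sub, map_one, hqs, hqf,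
          d_mul_apply hd (hone _ hqp hY _ (F.σ_mem _))] at h0
        rw [d_mul_apply hd (hone _ hqp hY σ hσ)]
        simp only [hn']
        rw [show (∑ v, L.red ((Φ - _) u v) * ((n : ResidueField O) * d ((S0 - 1) v w))) =
          (n : ResidueField O) * ∑ v, L.red ((Φ - algebraMap O L.R (F.ε j * c.q j) • 1) u v) *
            d ((S0 - 1) v w) by rw [Finset.mul_sum]; exact Finset.sum_congr rfl fun v _ => by ring,
          h0, mul_zero]
      · have h0 := hdS _ (hgen u w).2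
        rw [hq, map_mul, hsm, map_sub, map_one, hqs, hqf,
          d_mul_apply' hd (hone _ hqp hY _ (F.σ_mem _))] at h0
        rw [d_mul_apply' hd (hone _ hqp hY σ hσ)]
        simp only [hn']
        rw [show (∑ v, L.red ((Φ - _) v w) * ((n : ResidueField O) * d ((S0 - 1) u v))) =
          (n : ResidueField O) * ∑ v, L.red ((Φ - algebraMap O L.R (F.ε j) • 1) v w) *
            d ((S0 - 1) u v) by rw [Finset.mul_sum]; exact Finset.sum_congr rfl fun v _ => by ring,
          h0, mul_zero]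
    · simp only [decide_eq_true_eq] at h
      obtain ⟨z, hzF, hz⟩ := h
      obtain rfl : c.qP z = l := Subtype.ext (hz.trans hlp.symm)
      refine ⟨F.ε z, F.ε_sq z, fun σ hσ => ?_, fun σ hσ u w => ?_⟩
      · have h0 := congrArg (residue O).mapMatrix (F.ε_p z hz σ hσ)
        rw [map_mul, map_zero, RingHom.mapMatrix_apply, RingHom.mapMatrix_apply, map_sub_smul_one,
          map_sub_smul_one, RingHom.map_det, RingHom.mapMatrix_apply, ← c.rb_eq', ← c.rb_eq'] at h0
        exact h0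
      · obtain ⟨z', -, hrel⟩ := X.root z hz
        have h0 := hdS _ (hFp z hz hzF)
        set A := ((X.J.ρ σ : M2 X.J.R) - Matrix.det (X.J.ρ σ : M2 X.J.R) • 1)
        set Φ := (X.J.ρ (F.φ (c.qP z)) : M2 X.J.R)
        have h1 : A * (Φ - algebraMap O X.J.R (F.ε z) • 1) = X.w • A := by
          have h3 : A * (Φ - (X.w + algebraMap O X.J.R (F.ε z)) • 1) = 0 := hrel σ hσ
          rw [mul_sub, mul_smul_comm, mul_one, add_smul, ← sub_sub, sub_eq_zero] at h3
          rw [mul_sub, mul_smul_comm, mul_one, sub_eq_iff_eq_add]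
          rw [sub_eq_iff_eq_add] at h3
          rw [h3, add_comm]
        have h2' : ((L.ρ σ : M2 L.R) - Matrix.det (L.ρ σ : M2 L.R) • 1) *
            ((L.ρ (F.φ (c.qP z)) : M2 L.R) - algebraMap O L.R (F.ε z) • 1) =
              q.toRingHom.mapMatrix (X.w • A) := by
          rw [← h1, map_mul, RingHom.mapMatrix_apply, RingHom.mapMatrix_apply, map_sub_smul_one,
            map_sub_smul_one, quot_det]
          show _ = ((X.J.ρ σ : M2 X.J.R).map q - _) * (Φ.map q - q (algebraMap O X.J.R (F.ε z)) • 1)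
          rw [AlgHom.commutes]
          rfl
        rw [h2']
        show d (q (X.w * A u w)) = 0
        rw [map_mul, hd.2.1, h0, mul_zero, add_zero,
          show L.red (q X.w) = X.J.red X.w from rfl, X.red_w, zero_mul]
  · -- the finite dimensionality and the count
    obtain ⟨hfin, hle⟩ := hcount
    refine ⟨E'.map (LinearMap.funLeft (ResidueField O) (ResidueField O) q), inferInstance, ?_, ?_⟩
    · intro d hd hK hS'
      have hdiff : ∀ x y, q x = q y → d x = d y := fun x y h => by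
        have h1 := hK _ ((X.J.toQuot_eq_zero hne).1 (show q (x - y) = 0 by rw [map_sub, h, sub_self]))
        rw [d_sub hd] at h1
        exact sub_eq_zero.1 h1
      let sct : L.R → X.J.R := Function.surjInv (X.J.toQuot_surjective hne)
      have hs : ∀ x, q (sct x) = x := Function.surjInv_eq _
      refine ⟨fun x => d (sct x), ⟨⟨fun x y => ?_, fun x y => ?_, fun a => ?_⟩, ?_⟩, funext fun x =>
        hdiff _ _ (hs _)⟩
      · beta_reduce
        rw [hdiff _ (sct x + sct y) (by rw [map_add, hs, hs, hs])]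
        exact hd.1 _ _
      · beta_reduce
        rw [hdiff _ (sct x * sct y) (by rw [map_mul, hs, hs, hs]), hd.2.1]
        congr 1 <;> congr 1
        · conv_rhs => rw [← hs x]
          rfl
        · conv_rhs => rw [← hs y]
          rfl
      · beta_reduce
        rw [hdiff _ (algebraMap O X.J.R a) (by rw [hs, AlgHom.commutes])]
        exact hd.2.2 a
      · simp only [SetLike.mem_coe, Submodule.mem_iInf, LinearMap.mem_ker]
        exact fun x hx => (hdiff _ x (hs _)).trans (hS' x hx)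
    · refine le_trans ?_ hle
      have hc : (Finset.univ.filter fun z : Fin c.m => U z ∧ Fs z ∧ c.q z ≠ p).card ≤
          ((Finset.range c.m).filter fun j => j ∈ U' ∧ j ∈ F' ∧ c.q j ≠ p).card :=
        Finset.card_le_card_of_injOn Fin.val (fun z hz => by
          simp only [Finset.coe_filter, Finset.mem_univ, true_and, Set.mem_setOf_eq] at hz
          simp only [Finset.coe_filter, Set.mem_setOf_eq, Finset.mem_range, hU', hF']
          exact ⟨z.2, hz⟩) Fin.val_injective.injOn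
      have hf := Submodule.finrank_map_le (LinearMap.funLeft (ResidueField O) (ResidueField O) q) E'
      refine Nat.add_le_add (Nat.add_le_add (Nat.add_le_add hf hc) (le_of_eq ?_)) le_rfl
      simp
  · -- inertia at the other primes
    by_cases hd : (l : ℕ) ∣ c.lev i
    · exact X.r_mem hAux i (hgood l hl hY hT hq hlp _ (Nat.lt_succ_iff.1 i.2) hd) hl (F.frob l).1
        hσ u w
    · exact X.unram_mem hlp hl hd (F.frob l).1 hσ u w
  · cases hp' : ptb
    · simp
    · show ((X.J.ρ σ : M2 X.J.R) - 1) u w ∈ RingHom.ker X.pt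
      have hg : W.IsGoodPrimeFor (l : ℕ) := by
        by_cases hd : (l : ℕ) ∣ c.lev c.m
        · rw [hgood l hl hY hT hq hlp _ le_rfl hd]
          exact c.r_spec.2.2.2.1
        · exact c.good l.2 hd
      rw [RingHom.mem_ker, Matrix.sub_apply, map_sub, X.pt_apply,
        c.rO_good l.2 hlp hg (F.frob l).1 hσ, Units.val_one]
      by_cases h' : u = w
      · subst h'; simp
      · simp [Matrix.one_apply_ne h']
  · -- trace at the ramified primes
    obtain ⟨-, hlp, hld, -⟩ := c.Y0_spec _ hY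
    have hT : (l : ℕ) ∉ c.S0.T := fun h => (c.T_facts h).2.2.2.1 hY
    have hdv : (l : ℕ) ∣ c.lev i :=
      (c.dvd_lev l.2 (Nat.lt_succ_iff.1 i.2)).2 (Or.inl ((c.level_iff l l.2).2 (Or.inl hY)))
    rw [quot_trace, ← sub_eq_zero, ← map_ofNat q, ← map_sub, X.J.toQuot_eq_zero]
    refine ⟨X.two_sub_mem_kr l.2 hlp hdv hT (F.frob l).1 hσ, ?_⟩
    cases hp' : ptb
    · simp
    · show Matrix.trace (X.J.ρ σ : M2 X.J.R) - 2 ∈ RingHom.ker X.pt
      rw [RingHom.mem_ker, map_sub, X.pt_trace, c.rO_trace_inertia l.2 hlp (F.frob l).1 hσ,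
        map_ofNat, sub_self]
  · -- ordinary
    have hpd : p ∣ c.lev c.m := by
      simp only [decide_eq_true_eq] at h
      rcases h with h | ⟨z, -, e⟩
      · exact dvd_lev_last h
      · have := (c.q_dvd_lev_iff z.2 le_rfl).2 z.2
        rwa [e] at this
    have hV : (F.V l).LiesOverPrime p := by have := (F.frob l).1; rwa [hlp] at this
    have h0 := congrArg q.toRingHom.mapMatrix
      (ordinary_join X.inj X.conj X.pt_rho hpd hV σ hσ τ hτ)
    rw [map_mul, map_zero, RingHom.mapMatrix_apply, map_sub_smul_one, map_sub, map_one] at h0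
    rw [quot_det]
    exact h0
  · -- flat
    simp only [decide_eq_false_iff_not] at h
    exact X.flat_quot hptb h (by have := (F.frob l).1; rwa [hlp] at this)
  · -- signs
    obtain rfl : c.qP ⟨j, hj⟩ = l := Subtype.ext hl.symm
    rw [c.rb_eq', ← trace_map2', F.ε_trace _ hqp, map_mul, map_add, map_one, map_natCast]
where
  trace_map2' {A : Type} [CommRing A] {S : Type} [CommRing S] {f : A →+* S} {M : M2 A} :
      f (Matrix.trace M) = Matrix.trace (M.map f) :=
    AddMonoidHom.map_trace f.toAddMonoidHom M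

end Joined

end FLTAgent.ModLift.Final
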