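import Fermat.Agent.ModLift.Lift.Final.Rels
import Fermat.Agent.ModLift.Lift.Final.Tangent
import Fermat.Agent.ModLift.Lift.Final.Series
import Fermat.Agent.Lowering.P6.Congruences

/-!
# The named values with free generators present the joined algebra

The tangent vectors killing every named value are at most `r`, so `r` free variables complete the
named ones to a presentation.
-/

set_option autoImplicit false
set_option linter.unusedSectionVars false
set_option linter.style.haveILetI false

noncomputable section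

open IsLocalRing

namespace FLTAgent.ModLift.Final

open FLTAgent.ModLift.Patch FLTAgent.TWPrimes FLTAgent.Lowering

local notation "M2" => Matrix (Fin 2) (Fin 2)

variable {W : WeierstrassCurve ℤ} {hΔ : W.Δ ≠ 0} {p : ℕ} [Fact p.Prime] {O : Type} [CommRing O]
  [IsDomain O] [IsDiscreteValuationRing O] [Algebra ℤ_[p] O] [Module.Finite ℤ_[p] O] [CharZero O]
  [IsAdicComplete (maximalIdeal O) O] [Finite (ResidueField O)]
  [Algebra (ZMod p) (ResidueField O)] {c : Ctx W hΔ p O} {B : Base c} {F : Frame c B}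
  {Q : Finset Nat.Primes} {r k : ℕ}

/-- An algebra map whose range complements an ideal generated by elements of the range inside the
maximal ideal is surjective. -/
theorem surjective_of_span {A R : Type} [CommRing A] [Algebra O A] [CommRing R] [IsLocalRing R]
    [Algebra O R] [Module.Finite O R] (hp : (p : O) ∈ maximalIdeal O) {ι : Type} [Fintype ι]
    (f : A →ₐ[O] R) (x : ι → R)
    (hx : ∀ i, x i ∈ maximalIdeal R) (hxr : ∀ i, ∃ a, f a = x i)
    (hgen : ∀ y : R, ∃ a, y - f a ∈ Ideal.span (Set.range x)) : Function.Surjective f := by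
  have key : ∀ j : ℕ, ∀ y : R, ∃ a, y - f a ∈ Ideal.span (Set.range x) ^ j := by
    intro j
    induction j with
    | zero => exact fun y => ⟨0, by simp⟩
    | succ j ih =>
      intro y
      obtain ⟨a, ha⟩ := hgen y
      obtain ⟨co, hco⟩ := Ideal.mem_span_range_iff_exists_fun.1 ha
      choose a' ha' using fun i => ih (co i)
      choose b hb using hxr
      refine ⟨a + ∑ i, a' i * b i, ?_⟩
      have : y - f (a + ∑ i, a' i * b i) = ∑ i, (co i - f (a' i)) * x i := by
        rw [map_add, map_sum, ← sub_sub, ← hco, ← Finset.sum_sub_distrib]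
        exact Finset.sum_congr rfl fun i _ => by rw [map_mul, hb]; ring
      rw [this, pow_succ]
      exact Ideal.sum_mem _ fun i _ =>
        Ideal.mul_mem_mul (ha' i) (Ideal.subset_span ⟨i, rfl⟩)
  set I : Ideal R := (maximalIdeal O).map (algebraMap O R)
  have hpI : (p : R) ^ 1 ∈ I := by
    rw [pow_one, ← map_natCast (algebraMap O R)]
    exact Ideal.mem_map_of_mem _ hp
  haveI : Finite (R ⧸ I) := P6.finite_quotient (O := O) hpI
  obtain ⟨N, hN⟩ : ∃ N : ℕ, maximalIdeal R ^ N ≤ I := by
    by_cases hI : I = ⊤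
    · exact ⟨0, by rw [hI]; exact le_top⟩
    haveI : Nontrivial (R ⧸ I) := Ideal.Quotient.nontrivial_iff.2 hI
    haveI : IsLocalRing (R ⧸ I) :=
      IsLocalRing.of_surjective' (Ideal.Quotient.mk I) Ideal.Quotient.mk_surjective
    obtain ⟨N, hN⟩ := IsArtinianRing.isNilpotent_jacobson_bot (R := R ⧸ I)
    rw [IsLocalRing.jacobson_eq_maximalIdeal ⊥ bot_ne_top] at hN
    refine ⟨N, fun y hy => ?_⟩
    have h1 : (maximalIdeal R).map (Ideal.Quotient.mk I) ≤ maximalIdeal (R ⧸ I) :=
      le_maximalIdeal fun h => by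
        have h2 := congrArg (Ideal.comap (Ideal.Quotient.mk I)) h
        rw [Ideal.comap_map_of_surjective _ Ideal.Quotient.mk_surjective, Ideal.comap_top,
          ← RingHom.ker_eq_comap_bot, Ideal.mk_ker, sup_eq_left.2 (le_maximalIdeal hI)] at h2
        exact (maximalIdeal.isMaximal R).ne_top h2
    have h3 := Ideal.mem_map_of_mem (Ideal.Quotient.mk I) hy
    rw [Ideal.map_pow] at h3
    have h4 := Ideal.pow_right_mono h1 N h3
    rw [hN, Ideal.zero_eq_bot, Ideal.mem_bot] at h4
    exact Ideal.Quotient.eq_zero_iff_mem.1 h4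
  have hle : Ideal.span (Set.range x) ≤ maximalIdeal R := Ideal.span_le.2 (by
    rintro _ ⟨i, rfl⟩; exact hx i)
  have htop : (⊤ : Submodule O R) ≤ LinearMap.range f.toLinearMap := by
    refine Submodule.le_of_le_smul_of_le_jacobson_bot Module.Finite.fg_top
      (IsLocalRing.maximalIdeal_le_jacobson _) fun y _ => ?_
    obtain ⟨a, ha⟩ := key N y
    have h1 : y - f a ∈ ((maximalIdeal O) • (⊤ : Submodule O R)) := by
      rw [Ideal.smul_top_eq_map]
      exact hN (Ideal.pow_right_mono hle N ha)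
    exact Submodule.mem_sup.2 ⟨f a, ⟨a, rfl⟩, y - f a, h1, add_sub_cancel _ _⟩
  exact fun y => htop (Submodule.mem_top (x := y))

namespace Joined

variable (X : Joined F Q r k)

/-- A presentation extending the named values. -/
theorem exists_presentation (hTame : TargetTameRel) (hAux : TargetAuxUnramified)
    (hBd : BoundAt c Q r) :
    ∃ γ : Ser O (F.nv r) →ₐ[O] X.J.R, X.Evals γ ∧ Function.Surjective γ ∧
      ∀ v, γ (MvPowerSeries.X v) ∈ maximalIdeal X.J.R := by
  classical
  haveI := X.J.finite_R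
  haveI := X.J.isAdicComplete_R c.p_mem
  haveI : IsNoetherianRing X.J.R := IsNoetherianRing.of_finite O X.J.R
  set K := Ideal.span (Set.range X.val)
  have hK : K ≠ ⊤ := fun h => (maximalIdeal.isMaximal X.J.R).ne_top (top_le_iff.1 (h ▸
    Ideal.span_le.2 (by rintro _ ⟨a, rfl⟩; exact X.val_mem a)))
  obtain ⟨E, hEfin, hE, hEr⟩ := X.exists_tangent hTame hAux hBd (Fin.last _) true true
    (fun _ => True) (fun _ => True) (K : Set X.J.R) (fun _ => rfl)
    (fun t l => Ideal.subset_span ⟨_, rfl⟩) (fun _ t l => Ideal.subset_span ⟨_, rfl⟩)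
    (fun z _ _ => Or.inl fun a b => Ideal.subset_span ⟨_, rfl⟩)
    (fun z _ _ => add_mem (Ideal.subset_span ⟨_, rfl⟩) (Ideal.subset_span ⟨_, rfl⟩))
    (fun z _ _ => Ideal.subset_span ⟨.root, rfl⟩) (fun z _ h => absurd trivial h)
    (fun h => by
      rcases (c.dvd_lev Fact.out le_rfl).1 h with h | ⟨z, hz, e⟩
      · exact Or.inl h
      · exact Or.inr ⟨⟨z, hz⟩, trivial, e⟩)
  haveI := hEfin
  obtain ⟨θ, hθ⟩ := X.J.exists_gen c.p_mem hK (g := r) E (fun d hd hd0 =>
    hE d hd (fun x hx => by rw [X.patIdeal_last rfl hx]; exact d_zero hd) hd0) (by omega)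
  haveI : Nontrivial (X.J.R ⧸ K) := Ideal.Quotient.nontrivial_iff.2 hK
  haveI : IsLocalRing (X.J.R ⧸ K) := IsLocalRing.of_surjective' _ Ideal.Quotient.mk_surjective
  haveI : IsLocalHom θ.toRingHom := IsLocalHom.of_surjective _ hθ
  choose x hx using fun l : Fin r => Ideal.Quotient.mk_surjective (θ (MvPowerSeries.X l) : X.J.R ⧸ K)
  have hxm : ∀ l, x l ∈ maximalIdeal X.J.R := fun l hu => by
    have h1 : IsUnit (θ.toRingHom (MvPowerSeries.X l)) := by
      show IsUnit (θ (MvPowerSeries.X l) : X.J.R ⧸ K)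
      rw [← hx l]
      exact hu.map (Ideal.Quotient.mk K)
    exact (mem_maximalIdeal _).1 (X_mem_max l) (IsLocalHom.map_nonunit _ h1)
  have hvm : ∀ v : F.Var r, Sum.elim X.val x v ∈ maximalIdeal X.J.R := by
    rintro (a | l)
    · exact X.val_mem a
    · exact hxm l
  obtain ⟨γ, hγ⟩ := exists_evalAlgHom (O := O)
    (fun i : Fin (F.nv r) => Sum.elim X.val x ((Fintype.equivFin (F.Var r)).symm i))
    (fun i => hvm _)
  obtain ⟨φ, hφ⟩ := exists_evalAlgHom (O := O) x hxm
  have hev : X.Evals γ := fun a => by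
    rw [Frame.var, hγ, Frame.pos, Equiv.symm_apply_apply, Sum.elim_inl]
  haveI := Deformation.isAdicComplete_mvPowerSeries (O := O) (F.nv r)
  obtain ⟨ι, hι⟩ := exists_evalAlgHom (O := O)
    (fun l : Fin r => (MvPowerSeries.X (F.pos r (Sum.inr l)) : Ser O (F.nv r)))
    (fun l => X_mem_max _)
  refine ⟨γ, hev, surjective_of_span c.p_mem γ X.val X.val_mem (fun a => ⟨_, hev a⟩) fun y => ?_,
    fun v => by rw [hγ]; exact hvm _⟩
  haveI : IsHausdorff (maximalIdeal (X.J.R ⧸ K)) (X.J.R ⧸ K) :=
    IsHausdorff.of_isLocalRing (I := maximalIdeal (X.J.R ⧸ K)) _ (maximalIdeal.isMaximal _).ne_top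
  have hl : ∀ l, γ (ι (MvPowerSeries.X l)) = x l := fun l => by
    rw [hι, hγ, Frame.pos, Equiv.symm_apply_apply, Sum.elim_inr]
  have hm : ∀ l, Ideal.Quotient.mk K (x l) ∈ maximalIdeal (X.J.R ⧸ K) := fun l hu =>
    (mem_maximalIdeal _).1 (hxm l)
      ((IsLocalHom.of_surjective (Ideal.Quotient.mk K) Ideal.Quotient.mk_surjective).map_nonunit _
        hu)
  have he : (Ideal.Quotient.mkₐ O K).comp (γ.comp ι) = θ := by
    refine algHom_ext_X (fun l => ?_) fun l => ?_
    · show Ideal.Quotient.mk K (γ (ι _)) ∈ _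
      rw [hl]; exact hm l
    · show Ideal.Quotient.mk K (γ (ι _)) = _
      rw [hl]; exact hx l
  obtain ⟨a, ha⟩ := hθ (Ideal.Quotient.mk K y)
  refine ⟨ι a, ?_⟩
  rw [← Ideal.Quotient.eq]
  exact ha.symm.trans (DFunLike.congr_fun he a).symm

end Joined

end FLTAgent.ModLift.Final
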