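import Fermat.Agent.ModLift.Lift.Final.Shape
import Fermat.Agent.ModLift.Lift.Final.Joined

/-!
# The named elements in the joined algebra and the relations of the nodes
-/

set_option autoImplicit false
set_option linter.unusedSectionVars false

noncomputable section

open IsLocalRing

namespace FLTAgent.ModLift.Final

open FLTAgent.ModLift.Patch FLTAgent.TWPrimes FLTAgent.Lowering

local notation "GG" => (AlgebraicClosure ℚ ≃ₐ[ℚ] AlgebraicClosure ℚ)
local notation "VS" => ValuationSubring (AlgebraicClosure ℚ)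
local notation "M2" => Matrix (Fin 2) (Fin 2)

variable {W : WeierstrassCurve ℤ} {hΔ : W.Δ ≠ 0} {p : ℕ} [Fact p.Prime] {O : Type} [CommRing O]
  [IsDomain O] [IsDiscreteValuationRing O] [Algebra ℤ_[p] O] [Module.Finite ℤ_[p] O] [CharZero O]
  [IsAdicComplete (maximalIdeal O) O] [Finite (ResidueField O)]
  [Algebra (ZMod p) (ResidueField O)] {c : Ctx W hΔ p O} {B : Base c} {F : Frame c B}
  {Q : Finset Nat.Primes} {r k : ℕ}

theorem trace_map2 {A S : Type*} [CommRing A] [CommRing S] (f : A →+* S) (M : M2 A) :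
    f (Matrix.trace M) = Matrix.trace (M.map f) :=
  AddMonoidHom.map_trace f.toAddMonoidHom M

theorem pow_zero_mono {A : Type*} [MonoidWithZero A] {x : A} {a b : ℕ} (h : a ≤ b) (hx : x ^ a = 0) :
    x ^ b = 0 := pow_eq_zero_of_le h hx

theorem one_le_expo (B : Base c) : 1 ≤ B.expo :=
  le_trans (by unfold Lowering.inertiaExp; omega) B.expo_le

namespace Joined

variable (X : Joined F Q r k)

/-- A map of the power series ring taking the named variables to their values. -/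
def Evals (γ : Ser O (F.nv r) →ₐ[O] X.J.R) : Prop := ∀ a, γ (F.var r a) = X.val a

variable {X} {γ : Ser O (F.nv r) →ₐ[O] X.J.R} (hγ : X.Evals γ)
include hγ

theorem ev_frob (j : Fin c.m) :
    (F.frobEl r j).map γ = (X.J.ρ (F.φ (c.qP j)) : M2 X.J.R) := by
  ext a b
  show γ (F.var r (.frob j a b) + MvPowerSeries.C _) = _
  rw [map_add, hγ, show γ (MvPowerSeries.C _) = _ from γ.commutes _]
  exact sub_add_cancel _ _

theorem ev_iner {j : Fin c.m} (hj : c.q j ≠ p) :
    (F.inerEl r j).map γ = (X.J.ρ (F.σ (c.qP j)) : M2 X.J.R) - 1 := by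
  ext a b
  show γ (F.var r (.iner j a b)) = _
  rw [hγ]
  exact if_neg hj

theorem ev_one_add_iner {j : Fin c.m} (hj : c.q j ≠ p) :
    (1 + F.inerEl r j).map γ = (X.J.ρ (F.σ (c.qP j)) : M2 X.J.R) := by
  rw [← AlgHom.coe_toRingHom, ← RingHom.mapMatrix_apply, map_add, map_one, RingHom.mapMatrix_apply,
    AlgHom.coe_toRingHom, ev_iner hγ hj]
  abel

theorem ev_x (t : Fin c.S0.T.card) : (fun i => γ (F.xVec r t i)) =
    P6.coords (algebraMap O X.J.R c.half) (X.J.ρ (F.σ (c.tP t)) : M2 X.J.R) :=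
  funext fun i => hγ (.x t i)

theorem ev_y (t : Fin c.S0.T.card) : (fun i => γ (F.yVec r t i)) =
    P6.coords (algebraMap O X.J.R c.half) (X.J.ρ (F.φ (c.tP t)) : M2 X.J.R) := by
  funext i
  show γ (Lift.frobVec O (F.ixF r) (F.iuF r) t i) = _
  rw [Lift.frobVec, map_sub]
  have hu : γ (MvPowerSeries.X (F.iuF r t i)) = X.val (.u t i) := hγ _
  have hs : γ (P5.shift (fun j => (MvPowerSeries.X (F.ixF r t j) : Ser O (F.nv r))) i) =
      P5.shift (fun j => X.val (.x t j)) i := by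
    fin_cases i
    · exact hγ (.x t 1)
    · exact hγ (.x t 2)
    · exact map_zero γ
  rw [hu, hs]
  exact add_sub_cancel_right _ _

theorem ev_tr (i : Fin F.ng) :
    γ (F.trEl r i) = Matrix.trace (X.J.ρ (F.gen i) : M2 X.J.R) := by
  show γ (F.var r _ + MvPowerSeries.C _) = _
  rw [map_add, hγ, show γ (MvPowerSeries.C _) = _ from γ.commutes _]
  exact sub_add_cancel _ _

theorem ev_root (j : Fin c.m) : γ (F.rootEl r j) = X.w + algebraMap O X.J.R (F.ε j) := by
  show γ (F.var r _ + MvPowerSeries.C _) = _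
  rw [map_add, hγ, show γ (MvPowerSeries.C _) = _ from γ.commutes _]
  rfl

theorem ev_f {j : Fin c.m} (hj : c.q j ≠ p) : γ (F.fEl r j) =
    Matrix.trace (X.J.ρ (F.φ (c.qP j)) : M2 X.J.R) -
      algebraMap O X.J.R (F.ε j * ((c.q j : O) + 1)) := by
  rw [Frame.fEl, if_neg hj, map_add, hγ, hγ]
  show (_ - _) + (_ - _) = _
  rw [← F.ε_trace j hj, Matrix.trace_fin_two, Matrix.trace_fin_two, map_add]
  ring

theorem ev_f_p {j : Fin c.m} (hj : c.q j = p) : γ (F.fEl r j) = X.w := by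
  rw [Frame.fEl, if_pos hj, hγ]
  rfl

variable (hTame : TargetTameRel)
include hTame

theorem tame_mem (j : Fin c.m) (hj : c.q j ≠ p) (i : Fin (c.m + 1)) (e : Bool) :
    ∀ x ∈ F.tameRels r j ((j : ℕ) < i), γ x ∈ X.kn i e := by
  have hlp : ((c.qP j : Nat.Primes) : ℕ) ≠ p := hj
  obtain ⟨T, hTσ, hTφ⟩ := F.tame _ hlp
  obtain ⟨hdet, hdφ, hrel⟩ := hTame O p c.p_mem c.D _ X.J _ (c.qP j).2 hlp _ (F.frob (c.qP j)).1
  have hrel' := (hrel (fun τ hτ => c.unramified _ (c.qP j).2 hlp (c.q_facts j.2).1 _ (F.frob _).1 τ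
    hτ) T).1
  rw [hTσ, hTφ] at hrel'
  rintro x (⟨a, b, rfl⟩ | rfl | rfl | ⟨hji, rfl⟩)
  · rw [show γ ((F.frobEl r j * (1 + F.inerEl r j) -
        (1 + F.inerEl r j) ^ c.q j * F.frobEl r j) a b) = (γ.toRingHom.mapMatrix (F.frobEl r j *
          (1 + F.inerEl r j) - (1 + F.inerEl r j) ^ c.q j * F.frobEl r j)) a b from rfl,
      map_sub, map_mul, map_mul, map_pow, RingHom.mapMatrix_apply, RingHom.mapMatrix_apply,
      AlgHom.toRingHom_eq_coe, AlgHom.coe_toRingHom, ev_frob hγ, ev_one_add_iner hγ hj]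
    rw [show c.q j = ((c.qP j : Nat.Primes) : ℕ) from rfl, hrel', sub_self, Matrix.zero_apply]
    exact zero_mem _
  · rw [map_sub, map_one, ← AlgHom.coe_toRingHom, RingHom.map_det, RingHom.mapMatrix_apply,
      AlgHom.coe_toRingHom, ev_one_add_iner hγ hj, hdet _ (F.σ_mem _), sub_self]
    exact zero_mem _
  · rw [map_sub, ← AlgHom.coe_toRingHom, RingHom.map_det, RingHom.mapMatrix_apply,
      AlgHom.coe_toRingHom, ev_frob hγ, hdφ _ (F.frob _).2,
      show γ (MvPowerSeries.C _) = _ from γ.commutes _, map_natCast, Ctx.qP_val, sub_self]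
    exact zero_mem _
  · rw [map_sub, ← AlgHom.coe_toRingHom, trace_map2, AlgHom.coe_toRingHom, ev_one_add_iner hγ hj,
      map_ofNat]
    exact X.kr_le_kn i e (X.two_sub_mem_kr (c.qP j).2 hlp
      ((c.q_dvd_lev_iff j.2 (Nat.lt_succ_iff.1 i.2)).2 hji) (c.q_facts j.2).2.1 (F.frob _).1
      (F.σ_mem _))

theorem plain_mem (t : Fin c.S0.T.card) (i : Fin (c.m + 1)) :
    ∀ x ∈ F.plainRels r t, γ x ∈ X.kn i false := by
  obtain ⟨htP, htp, hpt, htY, -, -⟩ := c.T_facts (c.tP_mem t)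
  obtain ⟨T, hTσ, hTφ⟩ := F.tame (c.tP t) htp
  obtain ⟨hdet, hdφ, hrel⟩ := hTame O p c.p_mem c.D _ X.J _ htP htp _ (F.frob (c.tP t)).1
  have hrel' := (hrel (fun τ hτ => c.unramified _ htP htp htY _ (F.frob _).1 τ hτ) T).1
  rw [hTσ, hTφ] at hrel'
  set mk := Ideal.Quotient.mk (X.kn i false)
  set hJ := algebraMap O X.J.R c.half
  set Φ : M2 (X.J.R ⧸ X.kn i false) := (X.J.ρ (F.φ (c.tP t)) : M2 X.J.R).map mk
  set S : M2 (X.J.R ⧸ X.kn i false) := (X.J.ρ (F.σ (c.tP t)) : M2 X.J.R).map mk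
  set T' : ℕ := (c.tP t : ℕ)
  have hh : 2 * mk hJ = 1 := by
    rw [← map_ofNat mk, ← map_mul, ← map_ofNat (algebraMap O X.J.R), ← map_mul, c.two_half, map_one,
      map_one]
  have hsat : ∀ a : O, a ≠ 0 → ∀ y, mk (algebraMap O X.J.R a) * y = 0 → y = 0 := by
    intro a ha y hy
    obtain ⟨y, rfl⟩ := Ideal.Quotient.mk_surjective y
    rw [← map_mul, Ideal.Quotient.eq_zero_iff_mem] at hy
    exact Ideal.Quotient.eq_zero_iff_mem.2 (X.kn_sat i false ha hy)
  have h1t : ∀ y : X.J.R ⧸ X.kn i false, (1 - (T' : X.J.R ⧸ X.kn i false)) * y = 0 → y = 0 := by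
    intro y hy
    refine hsat (1 - (T' : O)) (sub_ne_zero.2 fun e => htP.ne_one ?_) y (by simpa using hy)
    exact Nat.cast_injective (R := O) (by rw [Nat.cast_one]; exact e.symm)
  have h4t : ∀ y : X.J.R ⧸ X.kn i false, 4 * (T' : X.J.R ⧸ X.kn i false) * y = 0 → y = 0 := by
    intro y hy
    exact hsat (4 * (T' : O)) (mul_ne_zero (by norm_num) (Nat.cast_ne_zero.2 htP.ne_zero)) y
      (by simpa [map_ofNat] using hy)
  have hdS : S.det = 1 := by
    rw [show S = mk.mapMatrix (X.J.ρ (F.σ (c.tP t)) : M2 X.J.R) from rfl, ← RingHom.map_det, hdet _ (F.σ_mem _), map_one]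
  have hdΦ : Φ.det = (T' : X.J.R ⧸ X.kn i false) := by
    rw [show Φ = mk.mapMatrix (X.J.ρ (F.φ (c.tP t)) : M2 X.J.R) from rfl, ← RingHom.map_det,
      hdφ _ (F.frob _).2, map_natCast]
  have htr : S.trace = 2 := by
    rw [← trace_map2, ← sub_eq_zero, ← map_ofNat mk, ← map_sub, Ideal.Quotient.eq_zero_iff_mem,
      X.mem_kn, map_sub, X.trace_π, map_ofNat]
    exact X.M.untwisted i _ (c.tP_mem t) _ (F.frob _).1 _ (F.σ_mem _)
  have hrelq : Φ * S = S ^ T' * Φ := by
    have h9 := congrArg mk.mapMatrix hrel'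
    rw [map_mul, map_mul, map_pow] at h9
    exact h9
  have hu : IsUnit (Φ.trace + mk (algebraMap O X.J.R (F.εT t)) *
      ((T' : X.J.R ⧸ X.kn i false) + 1)) := by
    rw [← trace_map2, ← map_natCast mk, ← map_one mk, ← map_add, ← map_mul, ← map_add]
    refine IsUnit.map mk ?_
    by_contra hu
    have h0 := (Gen.red_eq_zero_iff X.J.red _).1 hu
    rw [map_add, map_mul, map_add, map_one, map_natCast, Gen.red_algebraMap,
      show X.J.red (Matrix.trace (X.J.ρ (F.φ (c.tP t)) : M2 X.J.R)) = _ from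
        trace_map2 X.J.red.toRingHom _] at h0
    simp only [AlgHom.toRingHom_eq_coe, RingHom.coe_coe, X.J.red_rho, F.εT_red,
      c.T_cast (c.tP_mem t), T'] at h0
    have h1 : residue O (F.εT t) ^ 2 = 1 := by rw [← map_pow, F.εT_sq, map_one]
    have h4 : (2 : ResidueField O) * 2 = 0 := by linear_combination residue O (F.εT t) * h0 - 4 * h1
    exact c.two_ne ((mul_eq_zero.1 h4).elim id id)
  have ht1 : IsUnit ((T' : X.J.R ⧸ X.kn i false) + 1) := by
    rw [← map_natCast mk, ← map_one mk, ← map_add]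
    refine IsUnit.map mk ?_
    by_contra hu
    have h0 := (Gen.red_eq_zero_iff X.J.red _).1 hu
    rw [map_add, map_one, map_natCast, c.T_cast (c.tP_mem t), one_add_one_eq_two] at h0
    exact c.two_ne h0
  have hε : mk (algebraMap O X.J.R (F.εT t)) ^ 2 = 1 := by
    rw [← map_pow, ← map_pow, F.εT_sq, map_one, map_one]
  have hx : ∀ l, mk (γ (F.xVec r t l)) = P6.coords (mk hJ) S l := fun l => by
    rw [congrFun (ev_x hγ t) l, P6.map_coords]
  have hy : ∀ l, mk (γ (F.yVec r t l)) = P6.coords (mk hJ) Φ l := fun l => by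
    rw [congrFun (ev_y hγ t) l, P6.map_coords]
  have hC : ∀ a : O, mk (γ (MvPowerSeries.C a)) = mk (algebraMap O X.J.R a) := fun a =>
    congrArg mk (γ.commutes a)
  have hT : mk (algebraMap O X.J.R (F.hT t)) =
      mk (algebraMap O X.J.R (F.εT t)) * mk hJ * ((T' : X.J.R ⧸ X.kn i false) - 1) := by
    simp [Frame.hT, hJ, T', map_mul, map_sub, map_natCast]
  have hsplit : ∀ f : Ser O (F.nv r), γ f ∈ X.kn i false ↔ (mk.comp γ.toRingHom) f = 0 := fun f =>
    Ideal.Quotient.eq_zero_iff_mem.symm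
  rintro x (⟨l, rfl⟩ | rfl | ⟨l, rfl⟩) <;> rw [hsplit]
  · simp only [map_mul, map_sub, map_qf, RingHom.comp_apply, AlgHom.toRingHom_eq_coe,
      RingHom.coe_coe, hx, hy, hC, map_pow, hT]
    rw [mul_pow, mul_pow, hε, one_mul, ← mul_pow]
    exact P6.plain_eq_zero hh h1t h4t htr hdS hdΦ hrelq l
  · simp only [map_qf, RingHom.comp_apply, AlgHom.toRingHom_eq_coe, RingHom.coe_coe, hx]
    rw [P6.qf_coords hh, htr, hdS]
    linear_combination (2 * mk hJ + 1) * hh
  · simp only [map_sub, map_mul, map_brkVec, RingHom.comp_apply, AlgHom.toRingHom_eq_coe,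
      RingHom.coe_coe, hx, hy, hC, hT, map_ofNat]
    rw [brk_eq hh h1t h4t ht1 htr hdS hdΦ hrelq hε hu l, sub_self]

theorem twist_mem (t : Fin c.S0.T.card) (i : Fin (c.m + 1)) :
    ∀ x ∈ F.twistRels r t, γ x ^ B.expo ∈ X.kn i true := by
  obtain ⟨htP, htp, hpt, htY, -, -⟩ := c.T_facts (c.tP_mem t)
  obtain ⟨T, hTσ, hTφ⟩ := F.tame (c.tP t) htp
  obtain ⟨hdet, -, hrel⟩ := hTame O p c.p_mem c.D _ X.J _ htP htp _ (F.frob (c.tP t)).1
  have hrel' := (hrel (fun τ hτ => c.unramified _ htP htp htY _ (F.frob _).1 τ hτ) T).1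
  rw [hTσ, hTφ] at hrel'
  obtain ⟨u, hu, z, z', hzz, hne, hzp, hsum, hδ⟩ := F.twist t
  set mk := Ideal.Quotient.mk (X.kn i true)
  set hJ := algebraMap O X.J.R c.half
  set Φ : M2 (X.J.R ⧸ X.kn i true) := (X.J.ρ (F.φ (c.tP t)) : M2 X.J.R).map mk
  set S : M2 (X.J.R ⧸ X.kn i true) := (X.J.ρ (F.σ (c.tP t)) : M2 X.J.R).map mk
  have hdS : S.det = 1 := by
    rw [show S = mk.mapMatrix (X.J.ρ (F.σ (c.tP t)) : M2 X.J.R) from rfl, ← RingHom.map_det, hdet _ (F.σ_mem _), map_one]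
  have htr : (S.trace - algebraMap O (X.J.R ⧸ X.kn i true) (z + z')) ^ Lowering.inertiaExp = 0 := by
    rw [← trace_map2, ← Ideal.Quotient.mk_algebraMap, ← map_sub, ← map_pow,
      Ideal.Quotient.eq_zero_iff_mem, X.mem_kn, map_pow, map_sub, X.trace_π, AlgHom.commutes, hsum]
    exact X.M.twisted i _ (c.tP_mem t) _ (F.frob _).1 _ (F.σ_mem _) u hu
  have hrelq : Φ * S = S ^ ((c.tP t : Nat.Primes) : ℕ) * Φ := by
    have h9 := congrArg mk.mapMatrix hrel'
    rw [map_mul, map_mul, map_pow] at h9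
    exact h9
  have hx : ∀ l, mk (γ (F.xVec r t l)) = P6.coords (mk hJ) S l := fun l => by
    rw [congrFun (ev_x hγ t) l, P6.map_coords]
  have hy : ∀ l, mk (γ (F.yVec r t l)) = P6.coords (mk hJ) Φ l := fun l => by
    rw [congrFun (ev_y hγ t) l, P6.map_coords]
  have hsplit : ∀ f : Ser O (F.nv r), γ f ^ B.expo ∈ X.kn i true ↔
      ((mk.comp γ.toRingHom) f) ^ B.expo = 0 := fun f => by
    rw [← map_pow, ← map_pow]
    exact Ideal.Quotient.eq_zero_iff_mem.symm
  rintro x (⟨a, b, rfl⟩ | rfl) <;> rw [hsplit] <;> refine pow_zero_mono B.expo_le ?_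
  · simp only [map_sub, map_mul, RingHom.comp_apply, AlgHom.toRingHom_eq_coe, RingHom.coe_coe, hx,
      hy]
    exact minor_pow hzz hne hzp htP.one_le hpt htr hdS hrelq a b
  · simp only [map_sub, map_qf, RingHom.comp_apply, AlgHom.toRingHom_eq_coe, RingHom.coe_coe, hx,
      show γ (MvPowerSeries.C _) = _ from γ.commutes _, map_pow]
    refine curve_pow (c := algebraMap O (X.J.R ⧸ X.kn i true) (z + z')) ?_ ?_ htr hdS
    · rw [← map_ofNat mk, ← map_mul, ← map_ofNat (algebraMap O X.J.R), ← map_mul, c.two_half,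
        map_one, map_one]
    · have h9 := congrArg (fun a => mk (algebraMap O X.J.R a)) hδ
      simp only [map_mul, map_sub, map_pow, map_ofNat] at h9
      rw [Ideal.Quotient.mk_algebraMap O (X.kn i true) (z + z')] at h9
      exact h9

/-- The relations of a node are killed, up to the exponent. -/
theorem rels_mem (v : Fin (c.m + 1) × Bool) :
    ∀ x ∈ F.nodeRels r v, γ x ^ B.expo ∈ X.kn v.1 v.2 := by
  rintro x (⟨j, hj, hx⟩ | ⟨he, t, hx⟩ | ⟨he, t, hx⟩)
  · exact Ideal.pow_mem_of_mem _ (tame_mem hγ hTame j hj v.1 v.2 x hx) _ (one_le_expo B)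
  · rw [he]
    exact Ideal.pow_mem_of_mem _ (plain_mem hγ hTame t v.1 x hx) _ (one_le_expo B)
  · rw [he]
    exact twist_mem hγ hTame t v.1 x hx

end Joined

end FLTAgent.ModLift.Final
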