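import Fermat.Agent.ModLift.Lift.Final.Elements
import Fermat.Agent.ModLift.Patch.LimitInterface

/-!
# The shape of the patched system

Two nodes at every step of the chain, degeneracy pairs for both twists, the twists congruent, and
the patterns with their numbers of generators.
-/

set_option autoImplicit false
set_option linter.unusedSectionVars false

noncomputable section

open IsLocalRing

namespace FLTAgent.ModLift.Final

open FLTAgent.ModLift.Patch FLTAgent.Lowering

local notation "M2" => Matrix (Fin 2) (Fin 2)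

variable {W : WeierstrassCurve ℤ} {hΔ : W.Δ ≠ 0} {p : ℕ} [Fact p.Prime] {O : Type} [CommRing O]
  [IsDomain O] [IsDiscreteValuationRing O] [Algebra ℤ_[p] O] [CharZero O]
  [Algebra (ZMod p) (ResidueField O)] {c : Ctx W hΔ p O} {B : Base c}

/-- A pattern: the nodes after `node` steps, the first `upto` Steinberg equations, possibly one
more element raising the level and one unramified prime. -/
structure Pat (m : ℕ) where
  node : Fin (m + 1)
  upto : Fin (m + 1)
  both : Bool
  ptb : Bool
  xy : Bool
  fi : Option (Fin m)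
  uz : Option (Fin m)
  deriving DecidableEq

namespace Pat

instance {m : ℕ} : Fintype (Pat m) :=
  Fintype.ofEquiv
    (Fin (m + 1) × Fin (m + 1) × Bool × Bool × Bool × Option (Fin m) × Option (Fin m))
    { toFun := fun x => ⟨x.1, x.2.1, x.2.2.1, x.2.2.2.1, x.2.2.2.2.1, x.2.2.2.2.2.1, x.2.2.2.2.2.2⟩
      invFun := fun P => (P.node, P.upto, P.both, P.ptb, P.xy, P.fi, P.uz)
      left_inv := fun _ => rfl
      right_inv := fun _ => rfl }

variable (c) (P : Pat c.m)

/-- Where inertia is killed. -/
def InU (z : Fin c.m) : Prop := (P.node : ℕ) ≤ z ∨ P.uz = some z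

/-- Where the element raising the level is killed. -/
def InF (z : Fin c.m) : Prop := (z : ℕ) < P.upto ∨ P.fi = some z

/-- The root of Frobenius at `p` is prescribed. -/
def Pf : Prop := ∃ z, P.InF c z ∧ c.q z = p

/-- The patterns for which a count is available. -/
def Valid : Prop :=
  (P.ptb = true → (P.node : ℕ) = c.m) ∧
  (∀ z : Fin c.m, (P.upto : ℕ) ≤ z → (z : ℕ) < P.node → P.uz = some z) ∧
  (∀ z, P.uz = some z → c.q z ≠ p)

open scoped Classical in
/-- The excess of equations. -/
def excess : ℕ :=
  (Finset.univ.filter fun z : Fin c.m => P.InU c z ∧ P.InF c z ∧ c.q z ≠ p).card +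
    (if ¬ p ∣ c.lev P.node ∧ P.Pf c then 1 else 0) + (if P.xy = true then 3 * c.S0.T.card else 0)

end Pat

namespace Frame

variable (F : Frame c B) (r : ℕ)

open scoped Classical in
/-- The equations of a pattern. -/
def patEl (P : Pat c.m) : Finset (Ser O (F.nv r)) :=
  (Finset.univ.image fun v : Fin c.S0.T.card × Fin 3 => F.xVec r v.1 v.2) ∪
    (if P.xy = true then
      Finset.univ.image fun v : Fin c.S0.T.card × Fin 3 =>
        (MvPowerSeries.X (F.iuF r v.1 v.2) : Ser O (F.nv r))
    else ∅) ∪
    ((Finset.univ.filter fun z : Fin c.m => (z : ℕ) < P.upto).biUnion (F.stEl r)) ∪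
    (P.fi.elim ∅ fun z => {F.fEl r z}) ∪
    (P.uz.elim ∅ fun z => entries (F.inerEl r z))

/-- The node of an index. -/
def nd (v : Fin (Fintype.card (Fin (c.m + 1) × Bool))) : Fin (c.m + 1) × Bool :=
  (Fintype.equivFin _).symm v

/-- The index of a node. -/
def ni (a : Fin (c.m + 1) × Bool) : Fin (Fintype.card (Fin (c.m + 1) × Bool)) :=
  Fintype.equivFin _ a

theorem nd_ni (a : Fin (c.m + 1) × Bool) : nd (ni (c := c) a) = a :=
  Equiv.symm_apply_apply _ a

/-- The pair of an index. -/
def pd (e : Fin (Fintype.card (Fin c.m × Bool))) : Fin c.m × Bool :=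
  (Fintype.equivFin _).symm e

/-- The patterns with a count. -/
abbrev VPat (c : Ctx W hΔ p O) : Type := {P : Pat c.m // P.Valid c}

open scoped Classical in
/-- The shape. -/
def shape : Shape O where
  n := F.nv r
  s := r
  w := twFun O r
  w_dvd j := ⟨1 + MvPowerSeries.X j, by
    rw [twFun, mul_assoc, Ring.inverse_mul_cancel _ (by
      rw [MvPowerSeries.isUnit_iff_constantCoeff, map_add, map_one, MvPowerSeries.constantCoeff_X,
        add_zero]
      exact isUnit_one), mul_one]⟩
  nodes := Fintype.card (Fin (c.m + 1) × Bool)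
  d v := B.d (nd v).1 (nd v).2
  d_pos v := B.d_pos _ _
  A0 v := B.A0 (nd v).1 (nd v).2
  A0_comm v := B.A0_comm _ _
  expo := B.expo
  rels v := F.nodeRels r (nd v)
  pairs := Fintype.card (Fin c.m × Bool)
  src e := ni ((pd e).1.castSucc, (pd e).2)
  tgt e := ni ((pd e).1.succ, (pd e).2)
  comp e := F.compEl r (pd e).1
  old e := {F.fEl r (pd e).1 * (F.fEl r (pd e).1 + MvPowerSeries.C (F.shiftEl (pd e).1))}
  congrs := c.m + 1
  cleft j := ni (j, false)
  cright j := ni (j, true)
  cdim j := by rw [nd_ni, nd_ni]; exact (B.d_eq j).symm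
  pats := Fintype.card (VPat c)
  patNodes u := Finset.univ.filter fun v =>
    (nd v).1 = ((Fintype.equivFin (VPat c)).symm u).1.node ∧
      ((nd v).2 = true → ((Fintype.equivFin (VPat c)).symm u).1.both = true)
  patPoint u := ((Fintype.equivFin (VPat c)).symm u).1.ptb
  patEqs u := F.patEl r ((Fintype.equivFin (VPat c)).symm u).1
  patGens u := r - ((Fintype.equivFin (VPat c)).symm u).1.excess c
  fix v := {xa | nd v = (Fin.last c.m, false) ∧ ∃ i, xa.1 = F.trEl r i ∧
    HEq xa.2 (B.mat (Matrix.trace (B.R0.ρ (F.gen i) : M2 B.R0.R)))}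
  ptFix := Set.range fun a => (F.var r a, F.ptVal a)

end Frame

end FLTAgent.ModLift.Final
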